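import Fermat.Agent.OrdKummer.Descent
import Fermat.Agent.FlatModels.Basic

/-!
# The Hopf order of a locally multiplicative module

The equivariant functions in the local lattice form a Hopf order, so a locally multiplicative
module has a finite flat model over `ℤ₍ₚ₎`.
-/

set_option autoImplicit false

noncomputable section

open scoped Pointwise TensorProduct
open Fermat.Agent.GaloisBasics
open Fermat.Agent.FlatModels (Rp IsEquivariant)

namespace Fermat.Agent.OrdKummer

variable {M : Type*} [AddCommGroup M] [Finite M] {p : ℕ}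
variable {act : GalQ → M → M} {P : ValuationSubring Qbar} {L : AddSubgroup M}

theorem ratLocalizedAt_mem (hP : P.LiesOverPrime p) (hp : p.Prime) (r : Rp p) :
    algebraMap (Rp p) Qbar r ∈ P := by
  have hden : P.valuation (((r : ℚ).den : ℕ) : Qbar) = 1 := by
    refine le_antisymm ((P.valuation_le_one_iff _).2 (natCast_mem P _)) ?_
    by_contra hlt
    have h := (natCast_mem_nonunits_iff hP hp _).1 (P.mem_nonunits_iff.2 (not_le.1 hlt))
    exact (hp.coprime_iff_not_dvd.1 (Nat.Coprime.symm r.2)) h
  rw [IsScalarTower.algebraMap_apply (Rp p) ℚ Qbar]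
  show ((r : ℚ) : Qbar) ∈ P
  rw [← P.valuation_le_one_iff, Rat.cast_def, map_div₀, hden, div_one]
  exact (P.valuation_le_one_iff _).2 (intCast_mem P _)

theorem mem_ratLocalizedAt (hP : P.LiesOverPrime p) (hp : p.Prime) {r : ℚ}
    (hr : ((r : ℚ) : Qbar) ∈ P) : r ∈ GaloisRep.ratLocalizedAt p := by
  show r.den.Coprime p
  refine Nat.Coprime.symm (hp.coprime_iff_not_dvd.2 fun hd => ?_)
  have hnum : ((r.num : ℤ) : Qbar) ∈ P.nonunits := by
    have h : ((r.num : ℤ) : Qbar) = (r : Qbar) * ((r.den : ℕ) : Qbar) := by
      exact_mod_cast (Rat.mul_den_eq_num r).symm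
    rw [P.mem_nonunits_iff, h, map_mul]
    exact (mul_le_of_le_one_left' ((P.valuation_le_one_iff _).2 hr)).trans_lt
      (P.mem_nonunits_iff.1 ((natCast_mem_nonunits_iff hP hp _).2 hd))
  have h1 : p ∣ r.num.natAbs := Int.natCast_dvd.1 ((intCast_mem_nonunits_iff hP hp _).1 hnum)
  exact hp.one_lt.ne' (Nat.dvd_one.1 (r.reduced ▸ Nat.dvd_gcd h1 hd))

theorem cosetChar_mul_mem (c c' : M) (ψ ψ' : AddChar L Qbar) :
    cosetChar L c ψ * cosetChar L c' ψ' ∈ localLattice P L := by
  by_cases h : c - c' ∈ L
  · have hs : ψ' ⟨c - c', h⟩ ∈ P := (P.valuation_le_one_iff _).1 (valuation_addChar ψ' _).le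
    suffices cosetChar L c ψ * cosetChar L c' ψ' =
        (⟨_, hs⟩ : P) • cosetChar L c (ψ * ψ') by
      rw [this]
      exact Submodule.smul_mem _ _ (cosetChar_mem_localLattice _ _)
    funext m
    show cosetChar L c ψ m * cosetChar L c' ψ' m = ψ' ⟨c - c', h⟩ * cosetChar L c (ψ * ψ') m
    by_cases hm : m - c ∈ L
    · have hm' : m - c' ∈ L := sub_add_sub_cancel m c c' ▸ add_mem hm h
      rw [cosetChar_of_mem _ hm, cosetChar_of_mem _ hm', cosetChar_of_mem _ hm, AddChar.mul_apply,
        show (⟨m - c', hm'⟩ : L) = ⟨m - c, hm⟩ + ⟨c - c', h⟩ from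
          Subtype.ext (sub_add_sub_cancel m c c').symm, AddChar.map_add_eq_mul]
      ring
    · rw [cosetChar_of_not_mem _ hm, cosetChar_of_not_mem _ hm, zero_mul, mul_zero]
  · suffices cosetChar L c ψ * cosetChar L c' ψ' = 0 by
      rw [this]
      exact zero_mem _
    funext m
    show cosetChar L c ψ m * cosetChar L c' ψ' m = 0
    by_cases hm : m - c ∈ L
    · rw [cosetChar_of_not_mem ψ' (fun hm' => h (sub_sub_sub_cancel_left c' c m ▸ sub_mem hm' hm)),
        mul_zero]
    · rw [cosetChar_of_not_mem _ hm, zero_mul]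

theorem mul_mem_localLattice {f g : M → Qbar} (hf : f ∈ localLattice P L)
    (hg : g ∈ localLattice P L) : f * g ∈ localLattice P L := by
  induction hf using Submodule.span_induction with
  | mem x hx =>
    obtain ⟨⟨c, ψ⟩, rfl⟩ := hx
    induction hg using Submodule.span_induction with
    | mem y hy =>
      obtain ⟨⟨c', ψ'⟩, rfl⟩ := hy
      exact cosetChar_mul_mem c c' ψ ψ'
    | zero => rw [mul_zero]; exact zero_mem _
    | add a b _ _ ha hb => rw [mul_add]; exact add_mem ha hb
    | smul a y _ ha => rw [mul_smul_comm]; exact Submodule.smul_mem _ _ ha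
  | zero => rw [zero_mul]; exact zero_mem _
  | add a b _ _ ha hb => rw [add_mul]; exact add_mem ha hb
  | smul a y _ ha => rw [smul_mul_assoc]; exact Submodule.smul_mem _ _ ha

theorem one_mem_localLattice : (1 : M → Qbar) ∈ localLattice P L := by
  classical
  have := Fintype.ofFinite (M ⧸ L)
  suffices (1 : M → Qbar) = ∑ q : M ⧸ L, cosetChar L q.out 1 by
    rw [this]
    exact sum_mem fun q _ => cosetChar_mem_localLattice _ _
  funext m
  rw [Finset.sum_apply, Finset.sum_eq_single (m : M ⧸ L)]
  · rw [cosetChar_of_mem]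
    · rfl
    · rw [← QuotientAddGroup.eq_iff_sub_mem, QuotientAddGroup.out_eq']
  · intro q _ hq
    refine cosetChar_of_not_mem _ fun h => hq ?_
    rw [← QuotientAddGroup.out_eq' q]
    exact (QuotientAddGroup.eq_iff_sub_mem.2 h).symm
  · exact fun h => absurd (Finset.mem_univ _) h

/-- The order of equivariant functions in the lattice. -/
def globalOrder (act : GalQ → M → M) (L : AddSubgroup M) (hP : P.LiesOverPrime p) (hp : p.Prime) :
    Subalgebra (Rp p) (M → Qbar) where
  carrier := equivariantPart act P L
  mul_mem' {f g} hf hg := ⟨fun σ m => by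
    simp only [Pi.mul_apply, hf.1 σ m, hg.1 σ m, map_mul], mul_mem_localLattice hf.2 hg.2⟩
  one_mem' := ⟨fun σ m => by simp only [Pi.one_apply, map_one], one_mem_localLattice⟩
  add_mem' {f g} hf hg := ⟨fun σ m => by
    simp only [Pi.add_apply, hf.1 σ m, hg.1 σ m, map_add], add_mem hf.2 hg.2⟩
  zero_mem' := ⟨fun σ m => by simp only [Pi.zero_apply, map_zero], zero_mem _⟩
  algebraMap_mem' r := ⟨fun σ m => by
      show algebraMap (Rp p) Qbar r = σ (algebraMap (Rp p) Qbar r)
      rw [IsScalarTower.algebraMap_apply (Rp p) ℚ Qbar, AlgEquiv.commutes], by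
      have : (algebraMap (Rp p) (M → Qbar) r) =
          (⟨_, ratLocalizedAt_mem hP hp r⟩ : P) • (1 : M → Qbar) := funext fun m => (mul_one _).symm
      rw [this]
      exact Submodule.smul_mem _ _ one_mem_localLattice⟩

omit [AddCommGroup M] in
/-- A separating algebra of functions spans all functions. -/
theorem span_eq_top_of_separates (O : Subalgebra (Rp p) (M → Qbar))
    (hsep : ∀ x y : M, (∀ h ∈ O, h x = h y) → x = y) :
    Submodule.span Qbar (O : Set (M → Qbar)) = ⊤ := by
  classical
  have := Fintype.ofFinite M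
  set A := Algebra.adjoin Qbar (O : Set (M → Qbar)) with hA
  have hAS : Subalgebra.toSubmodule A = Submodule.span Qbar (O : Set (M → Qbar)) := by
    rw [hA, Algebra.adjoin_eq_span, show Submonoid.closure (O : Set (M → Qbar)) =
      O.toSubsemiring.toSubmonoid from Submonoid.closure_eq _]
    rfl
  have hsingle : ∀ x : M, Pi.single x (1 : Qbar) ∈ A := by
    intro x
    have hsep' : ∀ y : M, y ≠ x → ∃ f ∈ A, f y = 0 ∧ f x = 1 := by
      intro y hy
      obtain ⟨h, hh, hne⟩ : ∃ h ∈ O, h y ≠ h x := by
        by_contra hcon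
        push Not at hcon
        exact hy (hsep y x hcon)
      refine ⟨(h x - h y)⁻¹ • (h - algebraMap Qbar (M → Qbar) (h y)),
        A.smul_mem (A.sub_mem (Algebra.subset_adjoin hh) (A.algebraMap_mem _)) _, ?_, ?_⟩
      · simp
      · simp [inv_mul_cancel₀ (sub_ne_zero.mpr (Ne.symm hne))]
    choose! f hfA hf0 hf1 using hsep'
    have : Pi.single x (1 : Qbar) = ∏ y ∈ Finset.univ.erase x, f y := by
      funext z
      rw [Finset.prod_apply]
      rcases eq_or_ne z x with rfl | hz
      · rw [Pi.single_eq_same]
        exact (Finset.prod_eq_one fun y hy => hf1 y (Finset.ne_of_mem_erase hy)).symm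
      · rw [Pi.single_eq_of_ne hz]
        exact (Finset.prod_eq_zero (f := fun y => f y z)
          (Finset.mem_erase.mpr ⟨hz, Finset.mem_univ _⟩) (hf0 z hz)).symm
    rw [this]
    exact prod_mem fun y hy => hfA y (Finset.ne_of_mem_erase hy)
  rw [eq_top_iff, ← hAS]
  intro f _
  have : f = ∑ x, f x • Pi.single x (1 : Qbar) := by
    funext z
    simp [Finset.sum_apply, Pi.single_apply]
  rw [this]
  exact sum_mem fun x _ => A.smul_mem (hsingle x) _

namespace IsLocallyMultiplicative

variable (hM : IsLocallyMultiplicative act P L) (hP : P.LiesOverPrime p) (hp : p.Prime)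
include hM

theorem globalOrder_separates (x y : M) (h : ∀ f ∈ globalOrder act L hP hp, f x = f y) :
    x = y := by
  classical
  have hS : ∀ f ∈ Submodule.span P (equivariantPart act P L), f x = f y := fun f hf => by
    induction hf using Submodule.span_induction with
    | mem z hz => exact h z hz
    | zero => rfl
    | add a b _ _ ha hb => rw [Pi.add_apply, Pi.add_apply, ha, hb]
    | smul c a _ ha =>
      show (c : Qbar) * a x = (c : Qbar) * a y
      rw [ha]
  by_contra hne
  have h1 := hS _ (hM.localLattice_le_span hP hp (single_mem_localLattice x))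
  rw [Pi.single_eq_same, Pi.single_eq_of_ne (Ne.symm hne)] at h1
  exact Nat.cast_ne_zero.2 (charCount_ne_zero L) h1

end IsLocallyMultiplicative

/-- A rational element of `P` lies in `ℤ₍ₚ₎`. -/
theorem exists_ratLocalizedAt_eq (hP : P.LiesOverPrime p) (hp : p.Prime) {x : Qbar}
    (hfix : ∀ σ : GalQ, σ x = x) (hx : x ∈ P) : ∃ r : Rp p, algebraMap (Rp p) Qbar r = x := by
  obtain ⟨q, rfl⟩ := (InfiniteGalois.mem_range_algebraMap_iff_fixed x).mpr hfix
  rw [eq_ratCast] at hx
  exact ⟨⟨q, mem_ratLocalizedAt hP hp hx⟩, IsScalarTower.algebraMap_apply (Rp p) ℚ Qbar _⟩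

namespace IsLocallyMultiplicative

variable (hM : IsLocallyMultiplicative act P L) (hP : P.LiesOverPrime p) (hp : p.Prime)
include hM

omit [Finite M] in
theorem act_injective (σ : GalQ) : Function.Injective (act σ) := fun x y h => by
  rw [← hM.act_inv_act σ x, h, hM.act_inv_act]

theorem finite_globalOrder : Module.Finite (Rp p) (globalOrder act L hP hp) := by
  classical
  have := Fintype.ofFinite M
  set O := globalOrder act L hP hp with hO
  obtain ⟨b, hbO, hbspan, hbind⟩ := exists_linearIndependent Qbar (O : Set (M → Qbar))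
  have : Finite b := hbind.finite
  have hb : Submodule.span Qbar b = ⊤ :=
    hbspan.trans (span_eq_top_of_separates O (hM.globalOrder_separates hP hp))
  have hr : ∀ (f : O) (w : b), ∃ r : Rp p,
      algebraMap (Rp p) Qbar r = ∑ m, (f : M → Qbar) m * (w : M → Qbar) m := by
    intro f w
    have hf : IsEquivariant act (f : M → Qbar) ∧ (f : M → Qbar) ∈ localLattice P L := f.2
    have hw : IsEquivariant act (w : M → Qbar) ∧ (w : M → Qbar) ∈ localLattice P L := hbO w.2
    refine exists_ratLocalizedAt_eq hP hp (fun σ => ?_) (sum_mem fun m _ =>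
      mul_mem (apply_mem_of_mem_localLattice hf.2 m) (apply_mem_of_mem_localLattice hw.2 m))
    rw [map_sum]
    refine Fintype.sum_equiv (Equiv.ofBijective _ ⟨hM.act_injective σ, hM.act_surjective σ⟩) _ _
      fun m => ?_
    show σ _ = (f : M → Qbar) (act σ m) * (w : M → Qbar) (act σ m)
    rw [hf.1, hw.1, map_mul]
  choose r hr using hr
  let g : O →ₗ[Rp p] (b → Rp p) :=
    { toFun := fun f w => r f w
      map_add' := fun f f' => funext fun w => FlatModels.algebraMap_qbar_injective (by
        rw [Pi.add_apply, map_add, hr, hr, hr, ← Finset.sum_add_distrib]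
        exact Finset.sum_congr rfl fun m _ => add_mul _ _ _)
      map_smul' := fun a f => funext fun w => FlatModels.algebraMap_qbar_injective (by
        rw [Pi.smul_apply, RingHom.id_apply, smul_eq_mul, map_mul, hr, hr, Finset.mul_sum]
        refine Finset.sum_congr rfl fun m _ => ?_
        show (a • (f : M → Qbar)) m * (w : M → Qbar) m = _
        rw [Pi.smul_apply, Algebra.smul_def]
        exact mul_assoc _ _ _) }
  refine Module.Finite.of_injective g (LinearMap.ker_eq_bot.1 ((Submodule.eq_bot_iff _).2 ?_))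
  intro f hf
  have h0 : ∀ w ∈ Submodule.span Qbar b, ∑ m, (f : M → Qbar) m * w m = 0 := fun w hw => by
    induction hw using Submodule.span_induction with
    | mem w hw =>
      have h1 : r f ⟨w, hw⟩ = 0 := congrFun (LinearMap.mem_ker.1 hf) ⟨w, hw⟩
      have h2 := hr f ⟨w, hw⟩
      rw [h1, map_zero] at h2
      exact h2.symm
    | zero => simp
    | add a c _ _ ha hc => simp [mul_add, Finset.sum_add_distrib, ha, hc]
    | smul t a _ ha => simp [mul_left_comm _ t, ← Finset.mul_sum, ha]
  refine Subtype.ext (funext fun m => ?_)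
  have := h0 (Pi.single m 1) (hb ▸ Submodule.mem_top)
  simpa [Pi.single_apply] using this

theorem comp_add_mem_range_mulMap {h : M → Qbar} (hh : h ∈ globalOrder act L hP hp) :
    (fun z : M × M => h (z.1 + z.2)) ∈
      (FlatModels.mulMap (globalOrder act L hP hp).val (globalOrder act L hP hp).val).range := by
  classical
  have := Fintype.ofFinite M
  have := Fintype.ofFinite (M ⧸ L)
  set O := globalOrder act L hP hp with hO
  have := hM.finite_globalOrder hP hp
  have : Module.Free (Rp p) O := Module.free_of_finite_type_torsion_free'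
  let B := Module.Free.chooseBasis (Rp p) O
  let ι := Module.Free.ChooseBasisIndex (Rp p) O
  have : Fintype ι := Fintype.ofFinite _
  let v : ι → (M → Qbar) := fun i => (B i : M → Qbar)
  have hveq : ∀ i, IsEquivariant act (v i) := fun i => (B i).2.1
  have hv : LinearIndependent Qbar v :=
    FlatModels.linearIndependent_qbar hM.act_surjective hveq
      (B.linearIndependent.map' O.val.toLinearMap
        (LinearMap.ker_eq_bot.mpr Subtype.val_injective))
  have hspan : localLattice P L ≤ Submodule.span P (Set.range v) := by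
    refine (hM.localLattice_le_span hP hp).trans (Submodule.span_le.2 fun f hf => ?_)
    have hsum : f = ∑ i, (⟨_, ratLocalizedAt_mem hP hp (B.repr ⟨f, hf⟩ i)⟩ : P) • v i := by
      have h := congrArg (fun o : O => (o : M → Qbar)) (B.sum_repr ⟨f, hf⟩)
      simp only [AddSubmonoidClass.coe_finsetSum] at h
      exact h.symm.trans (Finset.sum_congr rfl fun i _ => funext fun m =>
        (Algebra.smul_def (B.repr ⟨f, hf⟩ i) (v i m)))
    rw [hsum]
    exact sum_mem fun i _ => Submodule.smul_mem _ _ (Submodule.subset_span ⟨i, rfl⟩)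
  let w : ι × ι → (M × M → Qbar) := fun ij z => v ij.1 z.1 * v ij.2 z.2
  have hw : LinearIndependent Qbar w := by
    rw [Fintype.linearIndependent_iff]
    intro c hc ij
    have h1 : ∀ x j, ∑ i, c (i, j) * v i x = 0 := fun x j => by
      refine Fintype.linearIndependent_iff.1 hv (fun j => ∑ i, c (i, j) * v i x)
        (funext fun y => ?_) j
      have h2 := congrFun hc (x, y)
      rw [Finset.sum_apply, Fintype.sum_prod_type_right] at h2
      rw [Finset.sum_apply, Pi.zero_apply]
      refine (Finset.sum_congr rfl fun j _ => ?_).trans h2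
      rw [Pi.smul_apply, smul_eq_mul, Finset.sum_mul]
      refine Finset.sum_congr rfl fun i _ => ?_
      rw [Pi.smul_apply, smul_eq_mul, mul_assoc]
    exact Fintype.linearIndependent_iff.1 hv (fun i => c (i, ij.2))
      (funext fun x => by simpa [Finset.sum_apply] using h1 x ij.2) ij.1
  -- products of lattice functions
  have hmulspan : ∀ a ∈ localLattice P L, ∀ b ∈ localLattice P L,
      (fun z : M × M => a z.1 * b z.2) ∈ Submodule.span P (Set.range w) := by
    intro a ha b hb
    obtain ⟨ca, rfl⟩ := (Submodule.mem_span_range_iff_exists_fun P).1 (hspan ha)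
    obtain ⟨cb, rfl⟩ := (Submodule.mem_span_range_iff_exists_fun P).1 (hspan hb)
    refine (Submodule.mem_span_range_iff_exists_fun P).2 ⟨fun ij => ca ij.1 * cb ij.2, ?_⟩
    funext z
    simp only [Finset.sum_apply, Finset.sum_mul_sum, Fintype.sum_prod_type]
    refine Finset.sum_congr rfl fun i _ => Finset.sum_congr rfl fun j _ => ?_
    show ((ca i : Qbar) * cb j) * (v i z.1 * v j z.2) =
        ((ca i : Qbar) * v i z.1) * ((cb j : Qbar) * v j z.2)
    ring
  have hmem : ∀ f ∈ localLattice P L, (fun z : M × M => f (z.1 + z.2)) ∈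
      Submodule.span P (Set.range w) := fun f hf => by
    induction hf using Submodule.span_induction with
    | mem x hx =>
      obtain ⟨⟨c, ψ⟩, rfl⟩ := hx
      have key : (fun z : M × M => cosetChar L c ψ (z.1 + z.2)) = ∑ q : M ⧸ L,
          fun z : M × M => cosetChar L q.out ψ z.1 * cosetChar L (c - q.out) ψ z.2 := by
        funext z
        rw [Finset.sum_apply, Finset.sum_eq_single (z.1 : M ⧸ L)]
        · have h1 : z.1 - (z.1 : M ⧸ L).out ∈ L := by
            rw [← QuotientAddGroup.eq_iff_sub_mem, QuotientAddGroup.out_eq']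
          have e : z.1 + z.2 - c =
              (z.1 - (z.1 : M ⧸ L).out) + (z.2 - (c - (z.1 : M ⧸ L).out)) := by abel
          rw [cosetChar_of_mem ψ h1]
          by_cases h2 : z.2 - (c - (z.1 : M ⧸ L).out) ∈ L
          · rw [cosetChar_of_mem ψ h2, cosetChar_of_mem ψ (e ▸ add_mem h1 h2),
              ← AddChar.map_add_eq_mul]
            exact congrArg ψ (Subtype.ext e)
          · rw [cosetChar_of_not_mem ψ h2, mul_zero, cosetChar_of_not_mem ψ fun h3 => h2 (by
              have := sub_mem (e ▸ h3) h1
              rwa [add_sub_cancel_left] at this)]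
        · intro q _ hq
          rw [cosetChar_of_not_mem ψ fun h => hq ?_, zero_mul]
          rw [← QuotientAddGroup.out_eq' q]
          exact (QuotientAddGroup.eq_iff_sub_mem.2 h).symm
        · exact fun h => absurd (Finset.mem_univ _) h
      rw [key]
      exact sum_mem fun q _ =>
        hmulspan _ (cosetChar_mem_localLattice _ _) _ (cosetChar_mem_localLattice _ _)
    | zero => exact zero_mem _
    | add a b _ _ ha hb => exact add_mem ha hb
    | smul t a _ ha => exact Submodule.smul_mem _ t ha
  obtain ⟨c, hc⟩ := (Submodule.mem_span_range_iff_exists_fun P).1 (hmem h hh.2)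
  have hcapp : ∀ z : M × M, h (z.1 + z.2) = ∑ ij, (c ij : Qbar) * w ij z := fun z => by
    have h0 := congrFun hc z
    rw [Finset.sum_apply] at h0
    exact h0.symm
  have hfix : ∀ (σ : GalQ) ij, σ (c ij : Qbar) = c ij := by
    intro σ ij
    have h1 : ∑ ij, (σ (c ij : Qbar) - c ij) • w ij = 0 := by
      funext z
      obtain ⟨x, hx⟩ := hM.act_surjective σ z.1
      obtain ⟨y, hy⟩ := hM.act_surjective σ z.2
      have e : h (z.1 + z.2) = σ (h (x + y)) := by
        rw [← hx, ← hy, ← hM.act_add, hh.1]
      rw [hcapp (x, y), hcapp z, map_sum] at e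
      rw [Finset.sum_apply, Pi.zero_apply]
      simp only [Pi.smul_apply, smul_eq_mul, sub_mul, Finset.sum_sub_distrib]
      rw [sub_eq_zero, e]
      refine Finset.sum_congr rfl fun ij _ => ?_
      rw [map_mul]
      congr 1
      show v ij.1 z.1 * v ij.2 z.2 = σ (v ij.1 x * v ij.2 y)
      rw [map_mul, ← hveq, ← hveq, hx, hy]
    exact sub_eq_zero.1 (Fintype.linearIndependent_iff.1 hw _ h1 ij)
  choose r hr using fun ij => exists_ratLocalizedAt_eq hP hp (fun σ => hfix σ ij) (c ij).2
  refine ⟨∑ ij : ι × ι, r ij • (B ij.1 ⊗ₜ[Rp p] B ij.2), funext fun z => ?_⟩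
  rw [hcapp z]
  show FlatModels.mulMap O.val O.val (∑ ij : ι × ι, r ij • (B ij.1 ⊗ₜ[Rp p] B ij.2)) z = _
  rw [map_sum, Finset.sum_apply]
  refine Finset.sum_congr rfl fun ij _ => ?_
  rw [map_smul, Pi.smul_apply, FlatModels.mulMap_tmul, Algebra.smul_def]
  exact congrArg (· * w ij z) (hr ij)

/-- A locally multiplicative module has a finite flat model. -/
theorem hasFlatModel (hP : P.LiesOverPrime p) (hp : p.Prime) :
    FlatModels.HasFlatModel p act :=
  ⟨inferInstance, globalOrder act L hP hp,
    { finite := hM.finite_globalOrder hP hp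
      equivariant := fun _ hh => hh.1
      separates := hM.globalOrder_separates hP hp
      comul := fun _ hh => hM.comp_add_mem_range_mulMap hP hp hh }⟩

end IsLocallyMultiplicative

end Fermat.Agent.OrdKummer
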