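import Fermat.Agent.OrdKummer.Frame
import Fermat.Agent.OrdKummer.FlatOrder
import Fermat.Agent.FlatModels.FlatAt

/-!
# Flatness from unit Kummer classes

An ordinary representation with cyclotomic determinant whose extension cocycle is a unit Kummer
class at every finite level is finite flat at `p`.
-/

set_option autoImplicit false

noncomputable section

open scoped Pointwise
open Fermat.Agent.GaloisBasics IsLocalRing

namespace Fermat.Agent.OrdKummer

variable {A : Type} [CommRing A] [IsLocalRing A] {ρ : GaloisRepAdic A}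
variable {P : ValuationSubring Qbar} {p : ℕ}

/-- Reduction of the coordinates. -/
def coordMap (ρ : GaloisRepAdic A) (e : Module.Basis (Fin 2) A ρ.V) (I : Ideal A) :
    ρ.V →ₗ[A] (A ⧸ I) × (A ⧸ I) :=
  LinearMap.prod ((Submodule.mkQ I).comp (e.coord 0)) ((Submodule.mkQ I).comp (e.coord 1))

theorem coordMap_apply (e : Module.Basis (Fin 2) A ρ.V) (I : Ideal A) (v : ρ.V) :
    coordMap ρ e I v = (Ideal.Quotient.mk I (e.repr v 0), Ideal.Quotient.mk I (e.repr v 1)) := rfl

theorem coordMap_surjective (e : Module.Basis (Fin 2) A ρ.V) (I : Ideal A) :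
    Function.Surjective (coordMap ρ e I) := by
  rintro ⟨s, t⟩
  obtain ⟨s, rfl⟩ := Ideal.Quotient.mk_surjective s
  obtain ⟨t, rfl⟩ := Ideal.Quotient.mk_surjective t
  exact ⟨s • e 0 + t • e 1, by simp [coordMap_apply]⟩

theorem ker_coordMap (e : Module.Basis (Fin 2) A ρ.V) (I : Ideal A) :
    LinearMap.ker (coordMap ρ e I) = I • (⊤ : Submodule A ρ.V) := by
  ext v
  rw [LinearMap.mem_ker, coordMap_apply, Prod.mk_eq_zero, Ideal.Quotient.eq_zero_iff_mem,
    Ideal.Quotient.eq_zero_iff_mem]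
  constructor
  · intro hv
    rw [← e.sum_repr v, Fin.sum_univ_two]
    exact add_mem (Submodule.smul_mem_smul hv.1 Submodule.mem_top)
      (Submodule.smul_mem_smul hv.2 Submodule.mem_top)
  · intro hv
    refine Submodule.smul_induction_on (p := fun x => e.repr x 0 ∈ I ∧ e.repr x 1 ∈ I) hv ?_ ?_
    · intro a ha x _
      rw [map_smul, Finsupp.smul_apply, Finsupp.smul_apply, smul_eq_mul, smul_eq_mul]
      exact ⟨I.mul_mem_right _ ha, I.mul_mem_right _ ha⟩
    · intro x y hx hy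
      rw [map_add, Finsupp.add_apply, Finsupp.add_apply]
      exact ⟨add_mem hx.1 hy.1, add_mem hx.2 hy.2⟩

/-- The action on reduced coordinates. -/
def coordAct (ρ : GaloisRepAdic A) (e : Module.Basis (Fin 2) A ρ.V) (I : Ideal A) (σ : GalQ)
    (m : (A ⧸ I) × (A ⧸ I)) : (A ⧸ I) × (A ⧸ I) :=
  (Ideal.Quotient.mk I (entry ρ e σ 0 0) * m.1 + Ideal.Quotient.mk I (entry ρ e σ 0 1) * m.2,
    Ideal.Quotient.mk I (entry ρ e σ 1 0) * m.1 + Ideal.Quotient.mk I (entry ρ e σ 1 1) * m.2)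

theorem coordMap_rho (e : Module.Basis (Fin 2) A ρ.V) (I : Ideal A) (σ : GalQ) (v : ρ.V) :
    coordMap ρ e I (ρ.ρ σ v) = coordAct ρ e I σ (coordMap ρ e I v) := by
  simp only [coordMap_apply, coordAct, repr_apply, map_add, map_mul]

variable {e : Module.Basis (Fin 2) A ρ.V}

/-- The level `I` of a frame with unit Kummer class is locally multiplicative. -/
theorem IsOrdFrame.isLocallyMultiplicative (h : IsOrdFrame ρ P e) (hdet : ρ.DetIsCyclotomic p)
    (hp : p.Prime) (I : Ideal A) [hI : Finite (A ⧸ I)]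
    (hb : UnitKummer P fun σ => Ideal.Quotient.mk I (frameCocycle ρ e σ)) :
    IsLocallyMultiplicative (coordAct ρ e I) P
      (AddSubgroup.prod ⊤ (⊥ : AddSubgroup (A ⧸ I))) := by
  have hmul : ∀ (σ τ : GalQ) (m : (A ⧸ I) × (A ⧸ I)),
      coordAct ρ e I (σ * τ) m = coordAct ρ e I σ (coordAct ρ e I τ m) := fun σ τ m => by
    simp only [coordAct, entry_mul, map_add, map_mul]
    exact Prod.ext (by simp only; ring) (by simp only; ring)
  have hL : ∀ (σ : GalQ), σ ∈ P.inertiaSubgroupIn ℚ → ∀ m : (A ⧸ I) × (A ⧸ I),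
      coordAct ρ e I σ m = (Ideal.Quotient.mk I (LinearMap.det (ρ.ρ σ)) * m.1 +
        Ideal.Quotient.mk I (frameCocycle ρ e σ) * m.2, m.2) := fun σ hσ m => by
    have hD := inertiaSubgroupIn_le_decompositionSubgroup (A := P) hσ
    rw [coordAct, h.lower σ hD, h.quotient σ hσ, h.cocycle_of_inertia hσ, h.det_eq hD,
      h.quotient σ hσ, mul_one, map_zero, map_one, zero_mul, one_mul, zero_add]
  refine ⟨fun σ x y => ?_, fun m => ?_, hmul, ?_, ?_, ?_, ?_, ?_⟩
  · simp only [coordAct, Prod.fst_add, Prod.snd_add]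
    exact Prod.ext (by simp only [Prod.fst_add]; ring) (by simp only [Prod.snd_add]; ring)
  · simp [coordAct, entry_one]
  · obtain ⟨F, hF, hfix⟩ := exists_level e I
    refine ⟨F, hF, fun σ hσ m => ?_⟩
    simp [coordAct, hfix σ hσ]
  · rintro σ hσ ⟨s, t⟩ ⟨-, ht⟩
    have ht0 : t = 0 := ht
    refine ⟨trivial, ?_⟩
    show (coordAct ρ e I σ (s, t)).2 = 0
    simp [coordAct, h.lower σ hσ, ht0]
  · intro σ hσ m
    refine ⟨trivial, ?_⟩
    show (coordAct ρ e I σ m - m).2 = 0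
    rw [hL σ hσ, Prod.snd_sub, sub_self]
  · intro σ hσ ψ t t' htt
    let ι : A ⧸ I →+ (AddSubgroup.prod ⊤ (⊥ : AddSubgroup (A ⧸ I))) :=
      AddMonoidHom.mk' (fun x => ⟨(x, 0), trivial, rfl⟩) fun x y =>
        Subtype.ext (Prod.ext rfl (add_zero 0).symm)
    have hι : ∀ u : (AddSubgroup.prod ⊤ (⊥ : AddSubgroup (A ⧸ I))),
        ι (u : (A ⧸ I) × (A ⧸ I)).1 = u := fun u => by
      have h2 : (u : (A ⧸ I) × (A ⧸ I)).2 = 0 := u.2.2
      exact Subtype.ext (Prod.ext rfl h2.symm)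
    have h2 : (t : (A ⧸ I) × (A ⧸ I)).2 = 0 := t.2.2
    rw [hL σ hσ] at htt
    have h1 : (t' : (A ⧸ I) × (A ⧸ I)).1 =
        Ideal.Quotient.mk I (LinearMap.det (ρ.ρ σ)) * (t : (A ⧸ I) × (A ⧸ I)).1 := by
      rw [htt, h2, mul_zero, add_zero]
    have key := isExponent_det hdet hp I σ (ψ.compAddMonoidHom ι) (t : (A ⧸ I) × (A ⧸ I)).1
    rw [AddChar.compAddMonoidHom_apply, AddChar.compAddMonoidHom_apply, ← h1, hι, hι] at key
    exact key
  · rintro ⟨s, t⟩ ψ
    let ι : A ⧸ I →+ (AddSubgroup.prod ⊤ (⊥ : AddSubgroup (A ⧸ I))) :=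
      AddMonoidHom.mk' (fun x => ⟨(x, 0), trivial, rfl⟩) fun x y =>
        Subtype.ext (Prod.ext rfl (add_zero 0).symm)
    have hU : UnitKummer P fun σ => (Ideal.Quotient.mk I (LinearMap.det (ρ.ρ σ)) - 1) * s +
        t * Ideal.Quotient.mk I (frameCocycle ρ e σ) :=
      (UnitKummer.coboundary (fun σ _ => isExponent_det hdet hp I σ) s).add (hb.const_mul t)
    obtain ⟨y, hy, hyσ⟩ := hU (ψ.compAddMonoidHom ι)
    refine ⟨y, hy, fun σ hσ u hu => ?_⟩
    rw [hyσ σ hσ]
    simp only [AddChar.compAddMonoidHom_apply]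
    congr 2
    refine Subtype.ext ?_
    rw [hu, hL σ hσ]
    exact Prod.ext (by simp only [Prod.fst_sub]; show _ = _; simp [ι]; ring)
      (by simp [ι])

/-- A frame with unit Kummer class at all finite levels gives finite flatness. -/
theorem isFlatAt_of_unitKummer (hres : Finite (ResidueField A)) (hdet : ρ.DetIsCyclotomic p)
    (hp : p.Prime) (hP : P.LiesOverPrime p) (h : IsOrdFrame ρ P e)
    (hb : ∀ I : Ideal A, Finite (A ⧸ I) →
      UnitKummer P fun σ => Ideal.Quotient.mk I (frameCocycle ρ e σ)) :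
    ρ.IsFlatAt p := by
  refine FlatModels.isFlatAt_of_hasFlatModel hres fun I hI => ?_
  have := hI
  have hM := (h.isLocallyMultiplicative hdet hp I (hb I hI)).hasFlatModel hP hp
  let Φ : (ρ.V ⧸ (I • (⊤ : Submodule A ρ.V))) ≃ₗ[A] (A ⧸ I) × (A ⧸ I) :=
    (Submodule.quotEquivOfEq _ _ (ker_coordMap e I).symm).trans
      ((coordMap ρ e I).quotKerEquivOfSurjective (coordMap_surjective e I))
  have hΦ : ∀ v, Φ (Submodule.Quotient.mk v) = coordMap ρ e I v := fun v => rfl
  refine hM.of_injective Φ.toLinearMap.toAddMonoidHom Φ.injective fun σ x => ?_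
  obtain ⟨v, rfl⟩ := Submodule.Quotient.mk_surjective _ x
  show Φ (ρ.levelAction I σ (Submodule.Quotient.mk v)) =
    coordAct ρ e I σ (Φ (Submodule.Quotient.mk v))
  rw [hΦ, ← coordMap_rho]
  exact hΦ (ρ.ρ σ v)

end Fermat.Agent.OrdKummer
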