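import Fermat.Agent.OrdKummer.Frame

/-!
# Changing frames, places and coefficients
-/

set_option autoImplicit false

noncomputable section

open scoped Pointwise TensorProduct
open Fermat.Agent.GaloisBasics IsLocalRing

namespace Fermat.Agent.OrdKummer

variable {A : Type} [CommRing A] [IsLocalRing A] {ρ : GaloisRepAdic A}
variable {P : ValuationSubring Qbar} {p : ℕ} {e : Module.Basis (Fin 2) A ρ.V}

section Map

variable {B : Type} [CommRing B] [IsLocalRing B] {ρ' : GaloisRepAdic B}
variable {e' : Module.Basis (Fin 2) B ρ'.V} {φ : A →+* B}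

/-- A frame maps to a frame. -/
theorem IsOrdFrame.of_entry_map (h : IsOrdFrame ρ P e)
    (hent : ∀ σ i j, entry ρ' e' σ i j = φ (entry ρ e σ i j)) : IsOrdFrame ρ' P e' :=
  ⟨fun σ hσ => by rw [hent, h.lower σ hσ, map_zero],
    fun σ hσ => by rw [hent, h.quotient σ hσ, map_one]⟩

/-- The frame cocycle is compatible with maps of coefficients. -/
theorem IsOrdFrame.frameCocycle_map (h : IsOrdFrame ρ P e)
    (hent : ∀ σ i j, entry ρ' e' σ i j = φ (entry ρ e σ i j)) {σ : GalQ}
    (hσ : σ ∈ P.decompositionSubgroup ℚ) :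
    frameCocycle ρ' e' σ = φ (frameCocycle ρ e σ) := by
  obtain ⟨u, hu⟩ := h.isUnit_quotient hσ
  rw [frameCocycle, frameCocycle, hent, hent, map_mul, ← hu, Ring.inverse_unit]
  congr 1
  exact (congrArg Ring.inverse (Units.coe_map (φ : A →* B) u).symm).trans (Ring.inverse_unit _)

theorem det_map_of_entry_map (hent : ∀ σ i j, entry ρ' e' σ i j = φ (entry ρ e σ i j)) (σ : GalQ) :
    LinearMap.det (ρ'.ρ σ) = φ (LinearMap.det (ρ.ρ σ)) := by
  rw [det_eq_entries (e := e'), det_eq_entries (e := e), hent, hent, hent, hent, map_sub, map_mul,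
    map_mul]

/-- A map of coefficients preserves cyclotomic determinant. -/
theorem detIsCyclotomic_of_entry_map (hdet : ρ.DetIsCyclotomic p) [IsLocalHom φ]
    (hent : ∀ σ i j, entry ρ' e' σ i j = φ (entry ρ e σ i j)) : ρ'.DetIsCyclotomic p := by
  refine ⟨?_, fun n σ a ha => ?_⟩
  · rw [← map_natCast φ]
    exact map_nonunit φ _ hdet.1
  · have h := hdet.2 n σ a ha
    rw [Ideal.mem_span_singleton] at h ⊢
    rw [det_map_of_entry_map hent, ← map_natCast φ a, ← map_natCast φ (p ^ n), ← map_sub]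
    exact map_dvd φ h

end Map

section BaseChange

variable {B : Type} [CommRing B] [IsLocalRing B] (φ : A →+* B) (hφ : IsLocalHom φ)

/-- The basis of a base change. -/
def baseChangeBasis (e : Module.Basis (Fin 2) A ρ.V) :
    Module.Basis (Fin 2) B (ρ.baseChangeAlong φ hφ).V :=
  letI : Algebra A B := φ.toAlgebra
  Algebra.TensorProduct.basis B e

/-- The entries of a base change. -/
theorem entry_baseChangeBasis (σ : GalQ) (i j : Fin 2) :
    entry (ρ.baseChangeAlong φ hφ) (baseChangeBasis φ hφ e) σ i j = φ (entry ρ e σ i j) := by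
  let : Algebra A B := φ.toAlgebra
  show (Algebra.TensorProduct.basis B e).repr
    ((ρ.ρ σ).baseChange B (Algebra.TensorProduct.basis B e j)) i = _
  rw [Algebra.TensorProduct.basis_apply, LinearMap.baseChange_tmul,
    Algebra.TensorProduct.basis_repr_tmul, Finsupp.smul_apply, smul_eq_mul, one_mul,
    Finsupp.mapRange_apply]
  rfl

end BaseChange

section Change

variable {e' : Module.Basis (Fin 2) A ρ.V}

/-- The first vector of any frame lies on the line of any other one. -/
theorem IsOrdFrame.repr_first_eq_zero (h : IsOrdFrame ρ P e) (h' : IsOrdFrame ρ P e')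
    (hdet : ρ.DetIsCyclotomic p) (hP : P.LiesOverPrime p) (hp : p.Prime) (hp2 : p ≠ 2) :
    e.repr (e' 0) 1 = 0 := by
  obtain ⟨σ, hσ, ha⟩ := LocalInertia.exists_inertia_pow_on_rootsOfUnity hP hp 1 (a := 2)
    ((Nat.coprime_primes Nat.prime_two hp).2 hp2.symm)
  have hD := inertiaSubgroupIn_le_decompositionSubgroup (A := P) hσ
  have hd := hdet.2 1 σ 2 ha
  rw [pow_one] at hd
  have h1 : IsUnit (LinearMap.det (ρ.ρ σ) - 1) := by
    by_contra hn
    have h2 : LinearMap.det (ρ.ρ σ) - (2 : ℕ) ∈ maximalIdeal A :=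
      (Ideal.span_singleton_le_iff_mem (maximalIdeal A)).2 hdet.1 hd
    refine (maximalIdeal.isMaximal A).ne_top ((Ideal.eq_top_iff_one _).2 ?_)
    convert sub_mem (show LinearMap.det (ρ.ρ σ) - 1 ∈ maximalIdeal A from hn) h2 using 1
    push_cast
    ring
  have h2 := repr_apply (e := e) σ (e' 0) 1
  rw [h.lower σ hD, h.quotient σ hσ, zero_mul, one_mul, zero_add, apply_basis (e := e'),
    h'.lower σ hD, zero_smul, add_zero, map_smul, Finsupp.smul_apply, smul_eq_mul] at h2
  rw [show entry ρ e' σ 0 0 = LinearMap.det (ρ.ρ σ) by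
    rw [h'.det_eq hD, h'.quotient σ hσ, mul_one]] at h2
  exact (h1.mul_right_eq_zero).1 (by linear_combination h2)

/-- Two frames at a place have the same unit Kummer classes. -/
theorem IsOrdFrame.unitKummer_change (h : IsOrdFrame ρ P e) (h' : IsOrdFrame ρ P e')
    (hdet : ρ.DetIsCyclotomic p) (hP : P.LiesOverPrime p) (hp : p.Prime) (hp2 : p ≠ 2)
    (I : Ideal A) [Finite (A ⧸ I)]
    (hb : UnitKummer P fun σ => Ideal.Quotient.mk I (frameCocycle ρ e σ)) :
    UnitKummer P fun σ => Ideal.Quotient.mk I (frameCocycle ρ e' σ) := by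
  have hz : e.repr (e' 0) 1 = 0 := h.repr_first_eq_zero h' hdet hP hp hp2
  have hz' : e'.repr (e 0) 1 = 0 := h'.repr_first_eq_zero h hdet hP hp hp2
  have he0 : e' 0 = e.repr (e' 0) 0 • e 0 := by
    conv_lhs => rw [← e.sum_repr (e' 0)]
    rw [Fin.sum_univ_two, hz, zero_smul, add_zero]
  have he0' : e 0 = e'.repr (e 0) 0 • e' 0 := by
    conv_lhs => rw [← e'.sum_repr (e 0)]
    rw [Fin.sum_univ_two, hz', zero_smul, add_zero]
  obtain ⟨u, hu⟩ : IsUnit (e.repr (e' 0) 0) := by
    refine IsUnit.of_mul_eq_one (e'.repr (e 0) 0) ?_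
    have h1 := congrArg (fun v => e.repr v 0) he0'
    rw [map_smul, Finsupp.smul_apply, e.repr_self, Finsupp.single_eq_same, smul_eq_mul] at h1
    rw [mul_comm]
    exact h1.symm
  set s := Ideal.Quotient.mk I (↑u⁻¹ * e.repr (e' 1) 0)
  set w := Ideal.Quotient.mk I (↑u⁻¹ * e.repr (e' 1) 1)
  refine ((hb.const_mul w).add (UnitKummer.coboundary
    (fun σ _ => isExponent_det hdet hp I σ) s)).congr fun σ hσ => ?_
  have hD := inertiaSubgroupIn_le_decompositionSubgroup (A := P) hσ
  show w * _ + (_ - 1) * s = _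
  rw [h.cocycle_of_inertia hσ, h'.cocycle_of_inertia hσ]
  simp only [s, w, ← map_mul, ← map_one (Ideal.Quotient.mk I), ← map_sub, ← map_add]
  congr 1
  have h2 := repr_apply (e := e) σ (e' 1) 0
  rw [apply_basis (e := e') σ 1, h'.quotient σ hσ, one_smul, map_add, map_smul,
    Finsupp.add_apply, Finsupp.smul_apply, smul_eq_mul, ← hu] at h2
  rw [show entry ρ e σ 0 0 = LinearMap.det (ρ.ρ σ) by
    rw [h.det_eq hD, h.quotient σ hσ, mul_one]] at h2
  linear_combination -(↑u⁻¹ : A) * h2 + (entry ρ e' σ 0 1) * u.inv_mul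

/-- Translating a frame translates unit Kummer classes. -/
theorem IsOrdFrame.unitKummer_conj (h : IsOrdFrame ρ P e) (hdet : ρ.DetIsCyclotomic p)
    (hp : p.Prime) (g : GalQ) (I : Ideal A) [Finite (A ⧸ I)]
    (hb : UnitKummer P fun σ => Ideal.Quotient.mk I (frameCocycle ρ e σ)) :
    UnitKummer (g • P) fun σ =>
      Ideal.Quotient.mk I (frameCocycle ρ (conjBasis ρ e g) σ) := by
  have hω := isExponent_det hdet hp I g
  have hω' : IsUnit (Ideal.Quotient.mk I (LinearMap.det (ρ.ρ g))) :=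
    (((Group.isUnit g).map ρ.ρ).map (LinearMap.det : Module.End A ρ.V →* A)).map _
  obtain ⟨ω, hωu⟩ := hω'
  refine ((hb.smul g hω).const_mul (↑ω⁻¹ : A ⧸ I)).congr fun σ hσ => ?_
  rw [← mul_assoc, ← hωu, ω.inv_mul, one_mul,
    (h.conj g).cocycle_of_inertia hσ, h.cocycle_of_inertia (conj_mem_of_mem_smul hσ)]
  congr 1
  conv_rhs => rw [show σ = g * (g⁻¹ * σ * g) * g⁻¹ by group, entry_conjBasis]

end Change

end Fermat.Agent.OrdKummer
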