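import Fermat.Agent.OrdKummer.Value
import Fermat.Agent.OrdKummer.Transfer
import Fermat.Agent.OrdKummer.Flat
import Mathlib.RingTheory.AdicCompletion.Basic

/-!
# The ordinary Kummer invariant

For an ordinary representation with cyclotomic determinant over a complete Noetherian local ring
with finite residue field, `κ : A` is the Kummer valuation of the extension class at a place over
`p`.  It is killed by `z g ^ 2 - 1`; if it is a unit the representation is strictly ordinary; where
it vanishes the representation is finite flat; it is in the maximal ideal exactly when the residual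
representation has unit Kummer class (`IsPeuKummer`).
-/

set_option autoImplicit false

noncomputable section

open scoped Pointwise TensorProduct
open Fermat.Agent.GaloisBasics IsLocalRing

namespace Fermat.Agent.OrdKummer

variable {A : Type} [CommRing A] [IsLocalRing A] {ρ : GaloisRepAdic A}
variable {P : ValuationSubring Qbar} {p : ℕ} {e : Module.Basis (Fin 2) A ρ.V} {ζ : ℕ → Qbar}

/-- `ρ σ` is the scalar `z` on the quotient by the line of `e 0`. -/
theorem sub_smul_sub_mem (σ : GalQ) (z : A) (hz : entry ρ e σ 1 1 = z)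
    (h0 : entry ρ e σ 1 0 = 0) (v : ρ.V) : ρ.ρ σ v - z • v ∈ A ∙ e 0 := by
  rw [← e.sum_repr (ρ.ρ σ v - z • v), Fin.sum_univ_two]
  have h1 : e.repr (ρ.ρ σ v - z • v) 1 = 0 := by
    rw [map_sub, map_smul, Finsupp.sub_apply, Finsupp.smul_apply, repr_apply, h0, hz,
      smul_eq_mul, zero_mul, zero_add, sub_self]
  rw [h1, zero_smul, add_zero]
  exact Submodule.smul_mem _ _ (Submodule.mem_span_singleton_self _)

/-- Decomposition acts on the line of `e 0` by the first diagonal entry. -/
theorem mem_line_apply (h0 : ∀ σ ∈ P.decompositionSubgroup ℚ, entry ρ e σ 1 0 = 0) {σ : GalQ}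
    (hσ : σ ∈ P.decompositionSubgroup ℚ) {w : ρ.V} (hw : w ∈ A ∙ e 0) :
    ρ.ρ σ w = entry ρ e σ 0 0 • w := by
  obtain ⟨a, rfl⟩ := Submodule.mem_span_singleton.1 hw
  rw [map_smul, apply_basis (e := e), h0 σ hσ, zero_smul, add_zero, smul_comm]

/-- The quotient character squared being trivial gives strictness. -/
theorem IsOrdFrame.isStrictOrdinaryAt (h : IsOrdFrame ρ P e) (hdet : ρ.DetIsCyclotomic p)
    (hP : P.LiesOverPrime p) (hp : p.Prime)
    (hz : ∀ σ ∈ P.decompositionSubgroup ℚ, entry ρ e σ 1 1 ^ 2 = 1) :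
    ρ.IsStrictOrdinaryAt p := by
  refine ⟨hdet.1, fun P' hP' => ?_⟩
  obtain ⟨g, rfl⟩ := GaloisBasics.exists_smul_eq hP hP' hp
  have h' := h.conj g
  refine ⟨A ∙ conjBasis ρ e g 0, ⟨_, rfl⟩, fun σ hσ v hv => ?_, fun σ hσ v => ?_, fun σ hσ => ?_⟩
  · rw [mem_line_apply h'.lower hσ hv]
    exact Submodule.smul_mem _ _ hv
  · have hD := inertiaSubgroupIn_le_decompositionSubgroup hσ
    simpa using sub_smul_sub_mem σ 1 (h'.quotient σ hσ) (h'.lower σ hD) v
  · refine ⟨entry ρ (conjBasis ρ e g) σ 0 0, entry ρ (conjBasis ρ e g) σ 1 1,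
      fun w hw => mem_line_apply h'.lower hσ hw,
      fun v => sub_smul_sub_mem σ _ rfl (h'.lower σ hσ) v, fun n a ha => ?_⟩
    have hd := hdet.2 n σ a ha
    rw [h'.det_eq hσ, Ideal.mem_span_singleton] at hd
    have hz' : entry ρ (conjBasis ρ e g) σ 1 1 ^ 2 = 1 := by
      have e1 : σ = g * (g⁻¹ * σ * g) * g⁻¹ := by group
      rw [e1, entry_conjBasis]
      exact hz _ (by rw [e1, decompositionSubgroup_smul_iff] at hσ; exact hσ)
    rw [Ideal.mem_span_singleton]
    refine dvd_trans (hd.mul_left (entry ρ (conjBasis ρ e g) σ 1 1)) (dvd_of_eq ?_)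
    linear_combination entry ρ (conjBasis ρ e g) σ 0 0 * hz'

section Invariant

/-- `κ` is the Kummer invariant of the frame `e` at `P`. -/
def IsKummerInvariant (ζ : ℕ → Qbar) (ρ : GaloisRepAdic A) (P : ValuationSubring Qbar) (p : ℕ)
    (e : Module.Basis (Fin 2) A ρ.V) (κ : A) : Prop :=
  ∀ I : Ideal A, Finite (A ⧸ I) →
    IsKummerVal p ζ P (fun σ => Ideal.Quotient.mk I (frameCocycle ρ e σ)) (Ideal.Quotient.mk I κ)

theorem IsOrdFrame.exists_isKummerVal_level (h : IsOrdFrame ρ P e) (hdet : ρ.DetIsCyclotomic p)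
    (hζ : IsRootSystem p ζ) (hP : P.LiesOverPrime p) (hp : p.Prime) (I : Ideal A)
    [Finite (A ⧸ I)] :
    ∃ κ, IsKummerVal p ζ P (fun σ => Ideal.Quotient.mk I (frameCocycle ρ e σ)) κ := by
  obtain ⟨k, hk⟩ := pow_nsmul_quotient hdet I
  refine exists_isKummerVal hζ hP hp hk _
    (fun σ t => Ideal.Quotient.mk I (LinearMap.det (ρ.ρ σ)) * t)
    (fun σ _ => isExponent_det hdet hp I σ) (fun σ hσ τ hτ => ?_) ?_
  · rw [h.cocycle (inertiaSubgroupIn_le_decompositionSubgroup hσ)
      (inertiaSubgroupIn_le_decompositionSubgroup hτ), h.ratio_of_inertia hσ, map_add, map_mul]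
  · obtain ⟨F, hF, hfix⟩ := exists_level e I
    refine ⟨F, hF, fun σ hσ => ?_⟩
    rw [frameCocycle, map_mul, hfix σ hσ 0 1, if_neg (by decide), zero_mul]

/-- The Kummer invariant exists. -/
theorem IsOrdFrame.exists_isKummerInvariant [IsNoetherianRing A]
    [IsAdicComplete (maximalIdeal A) A] (h : IsOrdFrame ρ P e) (hres : Finite (ResidueField A))
    (hdet : ρ.DetIsCyclotomic p) (hζ : IsRootSystem p ζ) (hP : P.LiesOverPrime p) (hp : p.Prime) :
    ∃ κ : A, IsKummerInvariant ζ ρ P p e κ := by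
  have : Finite (A ⧸ maximalIdeal A) := hres
  have hfin : ∀ n, Finite (A ⧸ maximalIdeal A ^ n) := fun n =>
    Ideal.finite_quotient_pow (IsNoetherian.noetherian _) n
  have hex : ∀ n, ∃ f : A, IsKummerVal p ζ P
      (fun σ => Ideal.Quotient.mk (maximalIdeal A ^ n) (frameCocycle ρ e σ))
      (Ideal.Quotient.mk (maximalIdeal A ^ n) f) := fun n => by
    have := hfin n
    obtain ⟨κ, hκ⟩ := h.exists_isKummerVal_level hdet hζ hP hp (maximalIdeal A ^ n)
    obtain ⟨f, rfl⟩ := Ideal.Quotient.mk_surjective κ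
    exact ⟨f, hκ⟩
  choose f hf using hex
  have hcompat : ∀ {m n : ℕ}, m ≤ n →
      f m ≡ f n [SMOD (maximalIdeal A ^ m • ⊤ : Submodule A A)] := by
    intro m n hmn
    have := hfin m
    rw [SModEq.sub_mem, smul_eq_mul, Ideal.mul_top]
    have h1 := ((hf n).map (Ideal.Quotient.factor (Ideal.pow_le_pow_right hmn)).toAddMonoidHom)
    simp only [RingHom.toAddMonoidHom_eq_coe, AddMonoidHom.coe_coe, Ideal.Quotient.factor_mk] at h1
    exact (Ideal.Quotient.eq).1 ((hf m).unique h1 hζ hP hp)
  obtain ⟨κ, hκ⟩ := IsPrecomplete.prec (IsAdicComplete.toIsPrecomplete) hcompat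
  refine ⟨κ, fun I hI => ?_⟩
  obtain ⟨n, hn⟩ := exists_pow_le_of_finite A I hI
  have hκn : Ideal.Quotient.mk (maximalIdeal A ^ n) (f n) =
      Ideal.Quotient.mk (maximalIdeal A ^ n) κ := by
    have := hκ n
    rw [SModEq.sub_mem, smul_eq_mul, Ideal.mul_top] at this
    exact Ideal.Quotient.eq.2 this
  have h1 := (hf n).map (Ideal.Quotient.factor hn).toAddMonoidHom
  rw [hκn] at h1
  simp only [RingHom.toAddMonoidHom_eq_coe, AddMonoidHom.coe_coe, Ideal.Quotient.factor_mk] at h1
  exact h1

/-- The quotient character squared fixes the invariant. -/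
theorem IsKummerInvariant.sq_sub_one_mul [IsNoetherianRing A] [IsAdicComplete (maximalIdeal A) A]
    {κ : A} (hκ : IsKummerInvariant ζ ρ P p e κ) (h : IsOrdFrame ρ P e)
    (hres : Finite (ResidueField A)) (hdet : ρ.DetIsCyclotomic p) (hζ : IsRootSystem p ζ)
    (hP : P.LiesOverPrime p) (hp : p.Prime) {g : GalQ} (hg : g ∈ P.decompositionSubgroup ℚ) :
    (entry ρ e g 1 1 ^ 2 - 1) * κ = 0 := by
  have : Finite (A ⧸ maximalIdeal A) := hres
  refine IsHausdorff.haus (IsAdicComplete.toIsHausdorff (I := maximalIdeal A) (M := A)) _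
    fun n => ?_
  have : Finite (A ⧸ maximalIdeal A ^ n) :=
    Ideal.finite_quotient_pow (IsNoetherian.noetherian _) n
  rw [SModEq.zero, smul_eq_mul, Ideal.mul_top, ← Ideal.Quotient.eq_zero_iff_mem]
  set π := Ideal.Quotient.mk (maximalIdeal A ^ n)
  have hκn := hκ (maximalIdeal A ^ n) inferInstance
  set u := π (entry ρ e g 1 1) ^ 2 with hu
  have hω : π (LinearMap.det (ρ.ρ g)) = u * π (frameRatio ρ e g) := by
    rw [h.det_eq_sq_mul hg, map_mul, map_pow]
  have hU : UnitKummer P fun σ => (u - 1) * π (frameCocycle ρ e σ) := fun χ => by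
    refine unitKummer_of_decomposition (δ := fun σ => π (frameRatio ρ e σ)) hg
      (isExponent_det hdet hp _ g) hω (fun σ hσ τ hτ => by rw [h.cocycle hσ hτ, map_add, map_mul])
      (fun σ hσ => by rw [h.ratio_of_inertia hσ]; exact isExponent_det hdet hp _ σ) χ ?_
    obtain ⟨y, -, -, hy0, hy, -, -⟩ := hκn χ
    exact ⟨y, hy0, hy⟩
  have h1 := (hκn.map (AddMonoidHom.mulLeft (u - 1))).unique (hU.isKummerVal_zero) hζ hP hp
  rw [map_mul, map_sub, map_one, map_pow]
  exact h1

/-- A unit invariant gives strict ordinarity. -/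
theorem IsKummerInvariant.isStrictOrdinaryAt [IsNoetherianRing A]
    [IsAdicComplete (maximalIdeal A) A] {κ : A} (hκ : IsKummerInvariant ζ ρ P p e κ)
    (h : IsOrdFrame ρ P e) (hres : Finite (ResidueField A)) (hdet : ρ.DetIsCyclotomic p)
    (hζ : IsRootSystem p ζ) (hP : P.LiesOverPrime p) (hp : p.Prime) (hu : IsUnit κ) :
    ρ.IsStrictOrdinaryAt p :=
  h.isStrictOrdinaryAt hdet hP hp fun _ hσ =>
    sub_eq_zero.1 ((hu.mul_left_eq_zero).1 (hκ.sq_sub_one_mul h hres hdet hζ hP hp hσ))

/-- Where the invariant vanishes the representation is finite flat. -/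
theorem IsKummerInvariant.isFlatAt_baseChangeAlong {B : Type} [CommRing B] [IsLocalRing B]
    [Finite B] {κ : A} (hκ : IsKummerInvariant ζ ρ P p e κ) (h : IsOrdFrame ρ P e)
    (hdet : ρ.DetIsCyclotomic p) (hζ : IsRootSystem p ζ) (hP : P.LiesOverPrime p) (hp : p.Prime)
    (φ : A →+* B) (hφ : IsLocalHom φ) (hsurj : Function.Surjective φ) (h0 : φ κ = 0) :
    (ρ.baseChangeAlong φ hφ).IsFlatAt p := by
  have := hφ
  have hent := entry_baseChangeBasis (e := e) φ hφ
  refine isFlatAt_of_unitKummer (Finite.of_surjective _ IsLocalRing.residue_surjective)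
      (detIsCyclotomic_of_entry_map hdet hent) hp hP
    (h.of_entry_map hent) fun J _ => ?_
  let ψ : A →+* B ⧸ J := (Ideal.Quotient.mk J).comp φ
  have hψ : Function.Surjective ψ := Ideal.Quotient.mk_surjective.comp hsurj
  let E := RingHom.quotientKerEquivOfSurjective hψ
  have : Finite (A ⧸ RingHom.ker ψ) := Finite.of_injective E E.injective
  have h1 := (hκ (RingHom.ker ψ) inferInstance)
  rw [show Ideal.Quotient.mk (RingHom.ker ψ) κ = 0 from
    Ideal.Quotient.eq_zero_iff_mem.2 (RingHom.mem_ker.2 (by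
      show Ideal.Quotient.mk J (φ κ) = 0
      rw [h0, map_zero]))] at h1
  refine ((h1.unitKummer hζ hp).map E.toRingHom.toAddMonoidHom).congr fun σ hσ => ?_
  rw [h.frameCocycle_map hent (inertiaSubgroupIn_le_decompositionSubgroup hσ)]
  exact RingHom.quotientKerEquivOfSurjective_apply_mk hψ _

end Invariant

section Residual

variable {k : Type} [Field k]

/-- A residual representation whose Kummer classes at `p` come from units (peu ramifiée). -/
def IsPeuKummer (r : ResidualGaloisRep k) (p : ℕ) : Prop :=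
  ∀ P : ValuationSubring Qbar, P.LiesOverPrime p →
    ∀ e : Module.Basis (Fin 2) k (GaloisRepAdic.ofResidualGaloisRep r).V,
      IsOrdFrame (GaloisRepAdic.ofResidualGaloisRep r) P e →
        UnitKummer P (frameCocycle (GaloisRepAdic.ofResidualGaloisRep r) e)

theorem finite_quotient_bot {R : Type} [CommRing R] [Finite R] : Finite (R ⧸ (⊥ : Ideal R)) :=
  Finite.of_surjective _ Ideal.Quotient.mk_surjective

theorem unitKummer_mk_bot_iff {R : Type} [CommRing R] [Finite R] (b : GalQ → R) :
    UnitKummer P (fun σ => Ideal.Quotient.mk (⊥ : Ideal R) (b σ)) ↔ UnitKummer P b := by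
  have := finite_quotient_bot (R := R)
  exact ⟨fun hb => hb.of_injective (Ideal.Quotient.mk (⊥ : Ideal R)).toAddMonoidHom
    (fun x y hxy => sub_eq_zero.1 (Ideal.mem_bot.1 (Ideal.Quotient.eq.1 hxy))),
    fun hb => hb.map (Ideal.Quotient.mk (⊥ : Ideal R)).toAddMonoidHom⟩

/-- `IsPeuKummer` can be tested on a single frame. -/
theorem isPeuKummer_iff [Finite k] {r : ResidualGaloisRep k}
    (hdet : (GaloisRepAdic.ofResidualGaloisRep r).DetIsCyclotomic p) (hp : p.Prime) (hp2 : p ≠ 2)
    (hP : P.LiesOverPrime p) {e : Module.Basis (Fin 2) k (GaloisRepAdic.ofResidualGaloisRep r).V}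
    (h : IsOrdFrame (GaloisRepAdic.ofResidualGaloisRep r) P e) :
    IsPeuKummer r p ↔ UnitKummer P (frameCocycle (GaloisRepAdic.ofResidualGaloisRep r) e) := by
  refine ⟨fun hr => hr P hP e h, fun hb P' hP' e' h' => ?_⟩
  obtain ⟨g, rfl⟩ := GaloisBasics.exists_smul_eq hP hP' hp
  have := finite_quotient_bot (R := k)
  rw [← unitKummer_mk_bot_iff] at hb ⊢
  exact (h.conj g).unitKummer_change h' hdet hP' hp hp2 ⊥ (h.unitKummer_conj hdet hp g ⊥ hb)

/-- `IsPeuKummer` is invariant under equivalence of representations. -/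
theorem IsPeuKummer.of_equiv {r r' : ResidualGaloisRep k} (hr : IsPeuKummer r p)
    (E : ResidualGaloisRep.Equiv r r') : IsPeuKummer r' p := by
  intro P hP e' h'
  let e : Module.Basis (Fin 2) k (GaloisRepAdic.ofResidualGaloisRep r).V :=
    e'.map E.toLinearEquiv.symm
  have hent : ∀ σ i j, entry (GaloisRepAdic.ofResidualGaloisRep r) e σ i j =
      entry (GaloisRepAdic.ofResidualGaloisRep r') e' σ i j := fun σ i j => by
    show e'.repr (E.toLinearEquiv (r.ρ σ (E.toLinearEquiv.symm (e' j)))) i =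
      e'.repr (r'.ρ σ (e' j)) i
    rw [E.map_apply]
    exact congrArg (fun v => e'.repr (r'.ρ σ v) i) (E.toLinearEquiv.apply_symm_apply _)
  refine (hr P hP e (h'.of_entry_map (φ := RingHom.id k) hent)).congr fun σ _ => ?_
  simp only [frameCocycle, hent]

/-- The basis of the residual representation. -/
def residualBasis (e : Module.Basis (Fin 2) A ρ.V) :
    Module.Basis (Fin 2) (ResidueField A) (GaloisRepAdic.ofResidualGaloisRep ρ.residual).V :=
  Algebra.TensorProduct.basis (ResidueField A) e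

theorem entry_residualBasis (σ : GalQ) (i j : Fin 2) :
    entry (GaloisRepAdic.ofResidualGaloisRep ρ.residual) (residualBasis e) σ i j =
      residue A (entry ρ e σ i j) := by
  show (Algebra.TensorProduct.basis (ResidueField A) e).repr
    ((ρ.ρ σ).baseChange (ResidueField A) (Algebra.TensorProduct.basis (ResidueField A) e j)) i = _
  rw [Algebra.TensorProduct.basis_apply, LinearMap.baseChange_tmul,
    Algebra.TensorProduct.basis_repr_tmul, Finsupp.smul_apply, smul_eq_mul, one_mul,
    Finsupp.mapRange_apply]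
  rfl

/-- The residual representation has cyclotomic determinant. -/
theorem residual_detIsCyclotomic (e : Module.Basis (Fin 2) A ρ.V) (hdet : ρ.DetIsCyclotomic p) :
    (GaloisRepAdic.ofResidualGaloisRep ρ.residual).DetIsCyclotomic p := by
  exact detIsCyclotomic_of_entry_map hdet (φ := residue A) (entry_residualBasis (e := e))

/-- The invariant lies in the maximal ideal exactly when the residual class comes from
units. -/
theorem IsKummerInvariant.mem_maximalIdeal_iff {κ : A} (hκ : IsKummerInvariant ζ ρ P p e κ)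
    (h : IsOrdFrame ρ P e) (hres : Finite (ResidueField A)) (hdet : ρ.DetIsCyclotomic p)
    (hζ : IsRootSystem p ζ) (hP : P.LiesOverPrime p) (hp : p.Prime) (hp2 : p ≠ 2) :
    κ ∈ maximalIdeal A ↔ IsPeuKummer ρ.residual p := by
  have := hres
  have : Finite (A ⧸ maximalIdeal A) := hres
  rw [isPeuKummer_iff (residual_detIsCyclotomic e hdet) hp hp2 hP
    (h.of_entry_map (entry_residualBasis (e := e)))]
  have hb : ∀ σ ∈ P.inertiaSubgroupIn ℚ, Ideal.Quotient.mk (maximalIdeal A) (frameCocycle ρ e σ) =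
      frameCocycle (GaloisRepAdic.ofResidualGaloisRep ρ.residual) (residualBasis e) σ :=
    fun σ hσ => (h.frameCocycle_map (entry_residualBasis (e := e))
      (inertiaSubgroupIn_le_decompositionSubgroup hσ)).symm
  have hκm := hκ (maximalIdeal A) inferInstance
  constructor
  · intro hm
    rw [Ideal.Quotient.eq_zero_iff_mem.2 hm] at hκm
    exact (hκm.unitKummer hζ hp).congr hb
  · intro hu
    exact Ideal.Quotient.eq_zero_iff_mem.1
      (hκm.unique ((hu.congr fun σ hσ => (hb σ hσ).symm).isKummerVal_zero) hζ hP hp)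

end Residual

/-- An ordinary frame, its Kummer invariant and the four properties of the invariant. -/
theorem exists_kummerInvariant [IsNoetherianRing A] [IsAdicComplete (maximalIdeal A) A]
    (hres : Finite (ResidueField A)) (hord : ρ.IsOrdinaryAt p) (hdet : ρ.DetIsCyclotomic p)
    (hp : p.Prime) (hp2 : p ≠ 2) (hP : P.LiesOverPrime p) :
    ∃ (e : Module.Basis (Fin 2) A ρ.V) (κ : A), IsOrdFrame ρ P e ∧
      (∀ g ∈ P.decompositionSubgroup ℚ, (entry ρ e g 1 1 ^ 2 - 1) * κ = 0) ∧
      (IsUnit κ → ρ.IsStrictOrdinaryAt p) ∧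
      (∀ (B : Type) (_ : CommRing B) (_ : IsLocalRing B), Finite B →
        ∀ (φ : A →+* B) (hφ : IsLocalHom φ), Function.Surjective φ → φ κ = 0 →
          (ρ.baseChangeAlong φ hφ).IsFlatAt p) ∧
      (κ ∈ maximalIdeal A ↔ IsPeuKummer ρ.residual p) := by
  obtain ⟨e, h⟩ := exists_isOrdFrame hord hP
  obtain ⟨ζ, hζ⟩ := exists_isRootSystem hp
  obtain ⟨κ, hκ⟩ := h.exists_isKummerInvariant hres hdet hζ hP hp
  exact ⟨e, κ, h, fun g hg => hκ.sq_sub_one_mul h hres hdet hζ hP hp hg,
    fun hu => hκ.isStrictOrdinaryAt h hres hdet hζ hP hp hu,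
    fun B _ _ _ φ hφ hs h0 => hκ.isFlatAt_baseChangeAlong h hdet hζ hP hp φ hφ hs h0,
    hκ.mem_maximalIdeal_iff h hres hdet hζ hP hp hp2⟩

end Fermat.Agent.OrdKummer
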