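import Fermat.Agent.FlatBound.TameField
import Mathlib.RingTheory.RootsOfUnity.PrimitiveRoots

/-!
# Elements moved by the Kummer extension of a unit

Let `H` be the inertia elements fixing a `(p - 1)`-th root of `p` and `y` a unit with `y ^ p` fixed
by inertia.  If `x` is fixed by the elements of `H` fixing `y` and `|x| ^ p` is a power of `|p|`
with exponent prime to `p`, then some `σ` in `H` moves `y` and satisfies
`|σ x - x| |t| = |x| |ζ - 1|` with `|t| ^ p = |p|`.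
-/

set_option autoImplicit false

noncomputable section

open scoped Pointwise
open Fermat.Agent.GaloisBasics (Qbar GalQ)
open Finset IsLocalRing

namespace Fermat.Agent.OrdKummer

variable {P : ValuationSubring Qbar} {p : ℕ}

local notation "v" => ValuationSubring.valuation P

/-- A unit whose `p`-th power is fixed by inertia has an inertia fixed multiple with `p`-th power
congruent to one. -/
theorem exists_normalised_root (hP : P.LiesOverPrime p) (hp : p.Prime) {y : Qbar}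
    (hy : v y = 1) :
    ∃ c : Qbar, v c = 1 ∧ (∀ σ ∈ P.inertiaSubgroupIn ℚ, σ c = c) ∧ v ((y * c) ^ p - 1) < 1 := by
  have hyi : v y⁻¹ = 1 := by rw [map_inv₀, hy, inv_one]
  set yu : P := ⟨y⁻¹, (P.valuation_le_one_iff _).1 hyi.le⟩
  obtain ⟨w, hw, hwfix⟩ := FlatBound.exists_fixed_lift hP hp (residue P yu)
  have hwy : v ((w : Qbar) - y⁻¹) < 1 := LocalInertia.valuation_sub_lt_of_residue_eq hw
  have hwv : v (w : Qbar) = 1 := by
    have := (v).map_add_eq_of_lt_left (x := y⁻¹) (y := (w : Qbar) - y⁻¹) (by rwa [hyi])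
    rwa [add_sub_cancel, hyi] at this
  refine ⟨w, hwv, hwfix, ?_⟩
  have hone : v (y * w - 1) < 1 := by
    have hy0 : y ≠ 0 := fun h => by rw [h, map_zero] at hy; exact zero_ne_one hy
    rw [show y * w - 1 = y * ((w : Qbar) - y⁻¹) by rw [mul_sub, mul_inv_cancel₀ hy0], map_mul, hy,
      one_mul]
    exact hwy
  rw [← one_pow p, ← geom_sum₂_mul, map_mul]
  refine mul_lt_one_of_nonneg_of_lt_one_right ?_ zero_le hone
  refine (v).map_sum_le fun i _ => ?_
  rw [map_mul, map_pow, map_pow, map_one, map_mul, hy, hwv, one_mul, one_pow, one_pow, one_mul]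

/-- Powers of `t + δ` for `δ` smaller than `t`. -/
theorem valuation_pow_sub_pow {s t : Qbar} (ht : t ≠ 0) (hst : v (s - t) < v t) {k : ℕ}
    (hk : v (k : Qbar) = 1) : v (s ^ k - t ^ k) = v (s - t) * v t ^ (k - 1) := by
  have ht0 : 0 < v t := zero_lt_iff.2 ((map_ne_zero _).2 ht)
  set r := s / t
  have hr : v (r - 1) < 1 := by
    rw [show r - 1 = (s - t) / t by rw [sub_div, div_self ht], map_div₀]
    exact (div_lt_one₀ ht0).2 hst
  have hr1 : v r = 1 := by
    have := (v).map_add_eq_of_lt_left (x := (1 : Qbar)) (y := r - 1) (by rwa [map_one])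
    rwa [add_sub_cancel, map_one] at this
  have hsum : v (∑ i ∈ range k, r ^ i) = 1 := by
    have h1 : v (∑ i ∈ range k, (r ^ i - 1)) < 1 := by
      refine (v).map_sum_lt one_ne_zero fun i _ => ?_
      rw [← geom_sum_mul, map_mul]
      refine mul_lt_one_of_nonneg_of_lt_one_right ?_ zero_le hr
      exact (v).map_sum_le fun j _ => by rw [map_pow, hr1, one_pow]
    rw [sum_sub_distrib, sum_const, card_range, nsmul_one] at h1
    have := (v).map_add_eq_of_lt_left (x := (k : Qbar)) (y := (∑ i ∈ range k, r ^ i) - k)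
      (by rwa [hk])
    rwa [add_sub_cancel, hk] at this
  rcases Nat.eq_zero_or_pos k with rfl | hk0
  · simp at hk
  have e : s ^ k - t ^ k = (s - t) * (t ^ (k - 1) * ∑ i ∈ range k, r ^ i) := by
    conv_lhs => rw [show s = r * t by rw [div_mul_cancel₀ _ ht], mul_pow,
      show r ^ k * t ^ k - t ^ k = (r ^ k - 1) * t ^ k by ring, ← geom_sum_mul,
      show k = (k - 1) + 1 by omega, pow_succ, ← show k = (k - 1) + 1 by omega]
    rw [show (s - t) = (r - 1) * t by rw [sub_mul, div_mul_cancel₀ _ ht, one_mul]]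
    ring
  rw [e, map_mul, map_mul, hsum, mul_one, map_pow]

/-- An element fixed by the stabiliser of `y'` is a polynomial in `y' - 1` over the fixed
field. -/
theorem exists_expansion (R : FlatBound.TameRoot P p) {y' ζ : Qbar} (hy' : y' ≠ 0)
    (hζ : IsPrimitiveRoot ζ p) (hζfix : ∀ σ ∈ R.H, σ ζ = ζ) {τ : GalQ} (hτ : τ ∈ R.H)
    (hτy : τ y' = ζ * y') (hy'p : ∀ σ ∈ R.H, σ (y' ^ p) = y' ^ p) {x : Qbar}
    (hx : ∀ σ ∈ R.H, σ y' = y' → σ x = x) :
    ∃ c : ℕ → Qbar, (∀ k, c k ∈ R.fld) ∧ x = ∑ k ∈ range p, c k * (y' - 1) ^ k := by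
  have hp := R.prime
  have hτpow : ∀ n : ℕ, (τ ^ n) y' = ζ ^ n * y' := by
    intro n
    induction n with
    | zero => simp
    | succ n ih =>
      rw [pow_succ' τ, AlgEquiv.mul_apply, ih, map_mul, map_pow, hτy, hζfix τ hτ]
      ring
  have hperiod : ∀ i j : ℕ, (ζ ^ i * y' = ζ ^ j * y') → (τ ^ i) x = (τ ^ j) x := fun i j hij => by
    have hm : (τ ^ j)⁻¹ * τ ^ i ∈ R.H := mul_mem (inv_mem (pow_mem hτ j)) (pow_mem hτ i)
    have hfix : ((τ ^ j)⁻¹ * τ ^ i) y' = y' := by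
      rw [AlgEquiv.mul_apply, hτpow, hij, ← hτpow, ← AlgEquiv.mul_apply, inv_mul_cancel,
        AlgEquiv.one_apply]
    conv_rhs => rw [← hx _ hm hfix, ← AlgEquiv.mul_apply, mul_inv_cancel_left]
  set d : ℕ → Qbar := fun i => ∑ j ∈ range p, (ζ ^ (i * j))⁻¹ * (τ ^ j) x with hd
  set f : ℕ → Qbar := fun i => d i / y' ^ i / p with hf
  have hfmem : ∀ i, f i ∈ R.fld := by
    intro i
    refine R.mem_fld.2 fun σ hσ => ?_
    obtain ⟨a, ha, hσy⟩ : ∃ a < p, σ y' = ζ ^ a * y' := by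
      obtain ⟨a, ha, h⟩ := (haveI : NeZero p := ⟨hp.ne_zero⟩; hζ.eq_pow_of_pow_eq_one
        (ξ := σ y' / y') (by rw [div_pow, ← map_pow, hy'p σ hσ, div_self (pow_ne_zero _ hy')]))
      exact ⟨a, ha, by rw [h, div_mul_cancel₀ _ hy']⟩
    have hσx : ∀ j : ℕ, σ ((τ ^ j) x) = (τ ^ ((j + a) % p)) x := fun j => by
      have hm : (τ ^ (j + a))⁻¹ * (σ * τ ^ j) ∈ R.H :=
        mul_mem (inv_mem (pow_mem hτ _)) (mul_mem hσ (pow_mem hτ j))
      have hfix : ((τ ^ (j + a))⁻¹ * (σ * τ ^ j)) y' = y' := by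
        rw [AlgEquiv.mul_apply, AlgEquiv.mul_apply, hτpow, map_mul, map_pow, hζfix σ hσ, hσy,
          ← mul_assoc, ← pow_add, ← hτpow, ← AlgEquiv.mul_apply, inv_mul_cancel, AlgEquiv.one_apply]
      have h := hx _ hm hfix
      rw [← hperiod (j + a) ((j + a) % p) (by
        congr 1
        conv_lhs => rw [← Nat.mod_add_div (j + a) p, pow_add, pow_mul, hζ.pow_eq_one, one_pow,
          mul_one]), ← AlgEquiv.mul_apply]
      conv_rhs => rw [← h, ← AlgEquiv.mul_apply, mul_inv_cancel_left]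
    have hσd : σ (d i) = ζ ^ (i * a) * d i := by
      have hb := Finset.sum_bij (s := range p) (t := range p)
        (fun j _ => (j + a) % p) (f := fun j => (ζ ^ (i * j))⁻¹ * (τ ^ ((j + a) % p)) x)
        (g := fun j => ζ ^ (i * a) * ((ζ ^ (i * j))⁻¹ * (τ ^ j) x))
        (fun j _ => mem_range.2 (Nat.mod_lt _ hp.pos)) ?_ ?_ ?_
      · rw [hd, map_sum, mul_sum, ← hb]
        refine sum_congr rfl fun j _ => ?_
        rw [map_mul, map_inv₀, map_pow, hζfix σ hσ, hσx]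
      · intro j hj k hk h
        exact Nat.ModEq.eq_of_lt_of_lt (Nat.ModEq.add_right_cancel' a h) (mem_range.1 hj)
          (mem_range.1 hk)
      · intro j hj
        have hj' := mem_range.1 hj
        refine ⟨(j + (p - a)) % p, mem_range.2 (Nat.mod_lt _ hp.pos), ?_⟩
        rw [Nat.mod_add_mod, show j + (p - a) + a = j + p by omega, Nat.add_mod_right,
          Nat.mod_eq_of_lt hj']
      · intro j _
        have hz : ∀ n, ζ ^ n ≠ 0 := fun n => pow_ne_zero _ (hζ.ne_zero hp.ne_zero)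
        rw [← mul_assoc]
        congr 1
        have e : ζ ^ (i * (j + a)) = ζ ^ (i * ((j + a) % p)) := by
          conv_lhs => rw [← Nat.mod_add_div (j + a) p, Nat.mul_add, pow_add, ← mul_assoc,
            mul_comm i p, mul_assoc, pow_mul ζ p, hζ.pow_eq_one, one_pow, mul_one]
        rw [← e, Nat.mul_add, pow_add]
        field_simp [hz]
    rw [hf]
    simp only
    rw [map_div₀, map_div₀, hσd, map_pow, hσy, map_natCast, mul_pow, ← pow_mul, mul_comm a i,
      mul_div_mul_left _ _ (pow_ne_zero _ (hζ.ne_zero hp.ne_zero))]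
  have hsum : x = ∑ i ∈ range p, f i * y' ^ i := by
    have hpne : (p : Qbar) ≠ 0 := Nat.cast_ne_zero.2 hp.ne_zero
    have h1 : ∀ j ∈ range p, ∑ i ∈ range p, (ζ ^ (i * j))⁻¹ * (τ ^ j) x =
        if j = 0 then (p : Qbar) * x else 0 := fun j hj => by
      rw [← sum_mul]
      split_ifs with h0
      · subst h0; simp
      · have hne : (ζ ^ j)⁻¹ ≠ 1 := by
          rw [ne_eq, inv_eq_one]
          exact hζ.pow_ne_one_of_pos_of_lt h0 (mem_range.1 hj)
        have hg := geom_sum_mul ((ζ ^ j)⁻¹) p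
        rw [inv_pow, pow_right_comm, hζ.pow_eq_one, one_pow, inv_one, sub_self, mul_eq_zero,
          sub_eq_zero, or_iff_left hne] at hg
        rw [sum_congr rfl fun i _ => show (ζ ^ (i * j))⁻¹ = ((ζ ^ j)⁻¹) ^ i by
          rw [inv_pow, ← pow_mul, mul_comm], hg, zero_mul]
    calc x = (∑ j ∈ range p, ∑ i ∈ range p, (ζ ^ (i * j))⁻¹ * (τ ^ j) x) / p := by
          rw [sum_congr rfl h1, sum_ite_eq', if_pos (mem_range.2 hp.pos),
            mul_div_cancel_left₀ _ hpne]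
      _ = ∑ i ∈ range p, f i * y' ^ i := by
          rw [sum_comm, sum_div]
          refine sum_congr rfl fun i _ => ?_
          rw [hf]
          simp only
          rw [div_mul_eq_mul_div, div_mul_cancel₀ _ (pow_ne_zero _ hy')]
  refine ⟨fun k => ∑ i ∈ range p, f i * (i.choose k : Qbar), fun k =>
    sum_mem fun i _ => mul_mem (hfmem i) (natCast_mem _ _), ?_⟩
  rw [hsum]
  simp only [Finset.sum_mul]
  rw [sum_comm]
  refine sum_congr rfl fun i hi => ?_
  conv_lhs => rw [show y' = (y' - 1) + 1 by ring, add_pow]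
  rw [mul_sum, ← sum_subset (s₁ := range (i + 1)) (s₂ := range p)
    (range_subset_range.2 (by have := mem_range.1 hi; omega)) (fun k _ hk => by
      rw [mem_range, not_lt] at hk
      rw [Nat.choose_eq_zero_of_lt (by omega), Nat.cast_zero, mul_zero, zero_mul])]
  exact sum_congr rfl fun k _ => by ring

/-- An element whose `p`-th power has the size of `p ^ m`, with `p ∤ m`, is not in the field of the
tame root. -/
theorem not_mem_fld_of_valuation (R : FlatBound.TameRoot P p) (hE : R.E = 1) {m : ℕ}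
    (hm : ¬ p ∣ m) {x : Qbar} (hvx : v x ^ p = v (p : Qbar) ^ m) : x ∉ R.fld := fun hxf => by
  have hp := R.prime
  have hp2 := hp.two_le
  have hvp : v (p : Qbar) = R.vπ ^ (p - 1) := by
    rw [← R.vπ_pow_ee, FlatBound.TameRoot.ee, hE, mul_one]
  have hx0 : x ≠ 0 := fun h => by
    rw [h, map_zero, zero_pow hp.ne_zero] at hvx
    exact pow_ne_zero m ((map_ne_zero _).2 (Nat.cast_ne_zero.2 hp.ne_zero)) hvx.symm
  obtain ⟨j, hj⟩ := R.exists_zpow hxf hx0
  rw [hvp, hj, ← zpow_natCast, ← zpow_natCast, ← zpow_natCast, ← zpow_mul, ← zpow_mul] at hvx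
  have h := (zpow_right_strictAnti₀ R.vπ_pos R.vπ_lt_one).injective hvx
  have hdvd : (p : ℤ) ∣ ((p - 1 : ℕ) : ℤ) * m := ⟨j, by linarith⟩
  rcases (hp.dvd_mul).1 (by exact_mod_cast hdvd : p ∣ (p - 1) * m) with h' | h'
  · exact absurd (Nat.le_of_dvd (by omega) h') (by omega)
  · exact hm h'

/-- A normalised unit with inertia fixed `p`-th power, moved by `R.H`, has `|y ^ p - 1| = |p|`. -/
theorem valuation_pow_sub_one_eq (hP : P.LiesOverPrime p) (hp : p.Prime) (hp2' : p ≠ 2)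
    (R : FlatBound.TameRoot P p) (hE : R.E = 1) {y' : Qbar} (hy' : v y' = 1)
    (hy'p : ∀ σ ∈ P.inertiaSubgroupIn ℚ, σ (y' ^ p) = y' ^ p) (hc1 : v (y' ^ p - 1) < 1)
    {τ : GalQ} (hτ : τ ∈ R.H) (hτy : τ y' ≠ y') : v (y' ^ p - 1) = v (p : Qbar) := by
  have : NeZero p := ⟨hp.ne_zero⟩
  have hp2 := hp.two_le
  have hvz : v (R.ζ - 1) = R.vπ := by rw [R.valuation_zeta, hE, pow_one]
  have hvp : v (p : Qbar) = R.vπ ^ (p - 1) := by
    rw [← R.vπ_pow_ee, FlatBound.TameRoot.ee, hE, mul_one]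
  have hp0 : 0 < v (p : Qbar) := FlatBound.valuation_natCast_prime_pos P hp
  have hp1 : v (p : Qbar) < 1 := FlatBound.valuation_natCast_prime_lt_one hP
  have hy'0 : y' ≠ 0 := fun h => by rw [h, map_zero] at hy'; exact zero_ne_one hy'
  have hu0 : y' ^ p - 1 ≠ 0 := fun h => by
    have hpow : y' ^ p = 1 := sub_eq_zero.1 h
    obtain ⟨i, -, hi⟩ := R.prim.eq_pow_of_pow_eq_one hpow
    exact hτy (by rw [← hi, map_pow, R.apply_zeta hτ])
  obtain ⟨j, hj⟩ := FlatBound.exists_zpow_of_inertia_fixed hP hp hu0 fun σ hσ => by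
    rw [map_sub, map_one, hy'p σ hσ]
  have hj1 : 1 ≤ j := by
    by_contra hcon
    exact absurd hc1 (not_lt.2 (hj ▸ one_le_zpow_of_nonpos₀ hp0 hp1.le (by omega)))
  rcases eq_or_lt_of_le hj1 with h | h
  · rw [hj, ← h, zpow_one]
  · exfalso
    obtain ⟨z, hz, -, hzfix⟩ := FlatBound.exists_root_near_one hP hp R.prim (x := y' ^ p) (by
      rw [hj, hvz, hvp, ← zpow_natCast, ← zpow_natCast, ← zpow_mul]
      refine zpow_lt_zpow_right_of_lt_one₀ R.vπ_pos R.vπ_lt_one ?_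
      have h2 : (2 : ℤ) ≤ j := h
      have h3 : ((p - 1 : ℕ) : ℤ) = p - 1 := by omega
      rw [h3]
      have h4 : (3 : ℤ) ≤ p := by omega
      nlinarith)
    have hz0 : z ≠ 0 := fun h0 => by
      rw [h0, zero_pow hp.ne_zero] at hz
      exact pow_ne_zero p hy'0 hz.symm
    obtain ⟨i, -, hi⟩ := R.prim.eq_pow_of_pow_eq_one
      (show (y' / z) ^ p = 1 by rw [div_pow, hz, div_self (pow_ne_zero _ hy'0)])
    refine hτy ?_
    rw [show y' = R.ζ ^ i * z by rw [hi, div_mul_cancel₀ _ hz0], map_mul, map_pow,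
      R.apply_zeta hτ, hzfix τ (R.H_le_decomposition hτ) (hy'p τ (R.H_le hτ))]

/-- If `|y ^ p - 1| = |p|` then `t = y - 1` satisfies `|t| ^ p = |p|` and `|ζ - 1| < |t|`. -/
theorem valuation_sub_one_of_pow (hP : P.LiesOverPrime p) (hp : p.Prime)
    (R : FlatBound.TameRoot P p) (hE : R.E = 1) {y' : Qbar}
    (hvu : v (y' ^ p - 1) = v (p : Qbar)) :
    v (y' - 1) ^ p = v (p : Qbar) ∧ R.vπ < v (y' - 1) := by
  have : NeZero p := ⟨hp.ne_zero⟩
  have hp2 := hp.two_le
  have hvz : v (R.ζ - 1) = R.vπ := by rw [R.valuation_zeta, hE, pow_one]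
  have hvp : v (p : Qbar) = R.vπ ^ (p - 1) := by
    rw [← R.vπ_pow_ee, FlatBound.TameRoot.ee, hE, mul_one]
  set t := y' - 1
  have hprod : v (y' ^ p - 1) = ∏ μ ∈ Polynomial.nthRootsFinset p (1 : Qbar), v (y' - μ) := by
    rw [← one_pow p, R.prim.pow_sub_pow_eq_prod_sub_mul y' 1 hp.pos, map_prod]
    simp
  have hroots : ∀ μ ∈ Polynomial.nthRootsFinset p (1 : Qbar), v (μ - 1) ≤ R.vπ := fun μ hμ => by
    rw [Polynomial.mem_nthRootsFinset hp.pos] at hμ
    rcases eq_or_ne μ 1 with rfl | hne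
    · simp
    · rw [FlatBound.valuation_root_sub_one hP hp R.prim hμ hne, hvz]
  have hbig : R.vπ < v t := by
    by_contra hle
    rw [not_lt] at hle
    have : v (y' ^ p - 1) ≤ R.vπ ^ p := by
      rw [hprod]
      calc ∏ μ ∈ Polynomial.nthRootsFinset p (1 : Qbar), v (y' - μ)
          ≤ ∏ _μ ∈ Polynomial.nthRootsFinset p (1 : Qbar), R.vπ :=
            prod_le_prod' fun μ hμ => by
              rw [show y' - μ = t - (μ - 1) by ring]
              exact (v).map_sub_le hle (hroots μ hμ)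
        _ = R.vπ ^ p := by rw [prod_const, R.prim.card_nthRootsFinset]
    rw [hvu, hvp] at this
    exact absurd this (not_le.2 (R.pow_lt_pow (by omega)))
  have hvt : v t ^ p = v (p : Qbar) := by
    rw [← hvu, hprod, ← R.prim.card_nthRootsFinset, ← prod_const, R.prim.card_nthRootsFinset]
    refine prod_congr rfl fun μ hμ => ?_
    rw [show y' - μ = t - (μ - 1) by ring,
      (v).map_sub_eq_of_lt_left ((hroots μ hμ).trans_lt hbig)]
  exact ⟨hvt, hbig⟩

/-- In an expansion of `x` in powers of `t`, with `|t| ^ p = |p|` and coefficients in the field of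
the tame root, a single term of positive exponent dominates when the exponent of `|x| ^ p` is
prime to `p`. -/
theorem exists_dominant_term (R : FlatBound.TameRoot P p) (hE : R.E = 1) {t x : Qbar} (ht0 : t ≠ 0)
    (hvt : v t ^ p = v (p : Qbar)) {cf : ℕ → Qbar} (hcf : ∀ k, cf k ∈ R.fld)
    (hxsum : x = ∑ k ∈ range p, cf k * t ^ k) {m : ℕ} (hm : ¬ p ∣ m)
    (hvx : v x ^ p = v (p : Qbar) ^ m) :
    ∃ k₀ ∈ range p, 0 < k₀ ∧ cf k₀ * t ^ k₀ ≠ 0 ∧ v x = v (cf k₀ * t ^ k₀) ∧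
      ∀ k ∈ range p \ {k₀}, v (cf k * t ^ k) < v (cf k₀ * t ^ k₀) := by
  have hp := R.prime
  have hp2 := hp.two_le
  have hvp : v (p : Qbar) = R.vπ ^ (p - 1) := by
    rw [← R.vπ_pow_ee, FlatBound.TameRoot.ee, hE, mul_one]
  have hπinj : ∀ i j : ℤ, R.vπ ^ i = R.vπ ^ j → i = j :=
    fun i j h => (zpow_right_strictAnti₀ R.vπ_pos R.vπ_lt_one).injective h
  have hx0 : x ≠ 0 := fun h => by
    rw [h, map_zero, zero_pow hp.ne_zero] at hvx
    exact pow_ne_zero m ((map_ne_zero _).2 (Nat.cast_ne_zero.2 hp.ne_zero)) hvx.symm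
  have hvπt : ∀ k : ℕ, ∀ j : ℤ, (R.vπ ^ j * v t ^ k) ^ p =
      R.vπ ^ (j * p + ((p - 1 : ℕ) : ℤ) * k) := by
    intro k j
    rw [mul_pow, ← pow_mul, mul_comm k p, pow_mul, hvt, hvp, ← pow_mul, zpow_add₀ R.vπ_pos.ne',
      zpow_mul, zpow_natCast]
    congr 1
  have hdist : ∀ k ∈ range p, ∀ l ∈ range p, k ≠ l → cf k ≠ 0 →
      v (cf k * t ^ k) ≠ v (cf l * t ^ l) := by
    intro k hk l hl hkl hck heq
    have hcl : cf l ≠ 0 := fun h => by
      rw [h, zero_mul, map_zero, map_eq_zero, mul_eq_zero, or_iff_right hck] at heq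
      exact pow_ne_zero _ ht0 heq
    obtain ⟨jk, hjk⟩ := R.exists_zpow (hcf k) hck
    obtain ⟨jl, hjl⟩ := R.exists_zpow (hcf l) hcl
    have h := congrArg (· ^ p) heq
    simp only [map_mul, map_pow, hjk, hjl, hvπt] at h
    have h2 := hπinj _ _ h
    have hdvd : (p : ℤ) ∣ ((p - 1 : ℕ) : ℤ) * ((l : ℤ) - k) := ⟨jk - jl, by linarith⟩
    rcases (Nat.prime_iff_prime_int.1 hp).dvd_mul.1 hdvd with h' | h'
    · exact absurd (Nat.le_of_dvd (by omega) (Int.natCast_dvd_natCast.1 h')) (by omega)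
    · refine hkl ?_
      have hk' := mem_range.1 hk
      have hl' := mem_range.1 hl
      have := Int.eq_zero_of_abs_lt_dvd h' (by rw [abs_lt]; omega)
      omega
  obtain ⟨k₀, hk₀, hmax⟩ := exists_max_image (range p) (fun k => v (cf k * t ^ k))
    ⟨0, mem_range.2 hp.pos⟩
  have hk₀0 : cf k₀ * t ^ k₀ ≠ 0 := fun h => hx0 (by
    rw [hxsum]
    refine sum_eq_zero fun k hk => ?_
    have := hmax k hk
    rw [h, map_zero, le_zero_iff, map_eq_zero] at this
    exact this)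
  have hstrict : ∀ k ∈ range p \ {k₀}, v (cf k * t ^ k) < v (cf k₀ * t ^ k₀) := fun k hk => by
    rw [mem_sdiff, mem_singleton] at hk
    refine lt_of_le_of_ne (hmax k hk.1) ?_
    exact Ne.symm (hdist k₀ hk₀ k hk.1 (Ne.symm hk.2) (left_ne_zero_of_mul hk₀0))
  have hvxk : v x = v (cf k₀ * t ^ k₀) := by
    rw [hxsum]
    exact (v).map_sum_eq_of_lt hk₀ hstrict
  have hk₀pos : 0 < k₀ := by
    by_contra h
    obtain rfl : k₀ = 0 := by omega
    rw [pow_zero, mul_one] at hvxk hk₀0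
    exact not_mem_fld_of_valuation R hE hm (show v (cf 0) ^ p = v (p : Qbar) ^ m by rwa [← hvxk])
      (hcf 0)
  exact ⟨k₀, hk₀, hk₀pos, hk₀0, hvxk, hstrict⟩

/-- The break of the Kummer extension of a unit: some `σ` in `R.H` moves `y`, and moves `x` by
`|x| |ζ - 1| / |t|` with `|t| ^ p = |p|`. -/
theorem exists_moved (hP : P.LiesOverPrime p) (hp : p.Prime) (hp2' : p ≠ 2)
    (R : FlatBound.TameRoot P p)
    (hE : R.E = 1) {y x : Qbar} (hy : v y = 1)
    (hfix : ∀ σ ∈ P.inertiaSubgroupIn ℚ, σ (y ^ p) = y ^ p)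
    (hx : ∀ σ ∈ R.H, σ y = y → σ x = x) {m : ℕ} (hm : ¬ p ∣ m)
    (hvx : v x ^ p = v (p : Qbar) ^ m) :
    ∃ σ ∈ R.H, ∃ t : Qbar, σ y ≠ y ∧ v t ^ p = v (p : Qbar) ∧
      v (σ x - x) * v t = v x * v (R.ζ - 1) := by
  have : NeZero p := ⟨hp.ne_zero⟩
  have hvz : v (R.ζ - 1) = R.vπ := by rw [R.valuation_zeta, hE, pow_one]
  -- some element of `H` moves `y`
  obtain ⟨τ, hτ, hτy⟩ : ∃ τ ∈ R.H, τ y ≠ y := by
    by_contra! h
    exact not_mem_fld_of_valuation R hE hm hvx (R.mem_fld.2 fun σ hσ => hx σ hσ (h σ hσ))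
  obtain ⟨c, hc, hcfix, hc1⟩ := exists_normalised_root hP hp hy
  set y' := y * c
  have hy' : v y' = 1 := by rw [map_mul, hy, hc, one_mul]
  have hy'0 : y' ≠ 0 := fun h => by rw [h, map_zero] at hy'; exact zero_ne_one hy'
  have hc0 : c ≠ 0 := fun h => by rw [h, map_zero] at hc; exact zero_ne_one hc
  have hiff : ∀ σ ∈ P.inertiaSubgroupIn ℚ, σ y' = y' ↔ σ y = y := fun σ hσ => by
    show σ (y * c) = y * c ↔ _
    rw [map_mul, hcfix σ hσ, mul_left_inj' hc0]
  have hy'p : ∀ σ ∈ P.inertiaSubgroupIn ℚ, σ (y' ^ p) = y' ^ p := fun σ hσ => by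
    rw [mul_pow, map_mul, hfix σ hσ, map_pow, hcfix σ hσ]
  set t := y' - 1 with ht
  have hτy' : τ y' ≠ y' := fun h => hτy ((hiff τ (R.H_le hτ)).1 h)
  obtain ⟨hvt, hbig⟩ := valuation_sub_one_of_pow hP hp R hE
    (valuation_pow_sub_one_eq hP hp hp2' R hE hy' hy'p hc1 hτ hτy')
  have ht0 : t ≠ 0 := fun h => by
    rw [← ht, h, map_zero] at hbig
    exact absurd hbig (not_lt.2 zero_le)
  -- the root of unity moving `y'`
  obtain ⟨a, ha, hτa⟩ : ∃ a < p, τ y' = R.ζ ^ a * y' := by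
    obtain ⟨a, ha, h⟩ := R.prim.eq_pow_of_pow_eq_one (ξ := τ y' / y') (by
      rw [div_pow, ← map_pow, hy'p τ (R.H_le hτ), div_self (pow_ne_zero _ hy'0)])
    exact ⟨a, ha, by rw [h, div_mul_cancel₀ _ hy'0]⟩
  have ha0 : a ≠ 0 := fun h => by
    subst h
    rw [pow_zero, one_mul] at hτa
    exact hτy ((hiff τ (R.H_le hτ)).1 hτa)
  have hcop : a.Coprime p := (hp.coprime_iff_not_dvd.2 (Nat.not_dvd_of_pos_of_lt
    (Nat.pos_of_ne_zero ha0) ha)).symm
  obtain ⟨cf, hcf, hxsum⟩ := exists_expansion R hy'0 (R.prim.pow_of_coprime a hcop)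
    (fun σ hσ => by rw [map_pow, R.apply_zeta hσ]) hτ hτa (fun σ hσ => hy'p σ (R.H_le hσ))
    (fun σ hσ h => hx σ hσ ((hiff σ (R.H_le hσ)).1 h))
  obtain ⟨k₀, hk₀, hk₀pos, hk₀0, hvxk, hstrict⟩ := exists_dominant_term R hE ht0 hvt hcf hxsum hm
    hvx
  -- the effect of `τ`
  have hδ : v (τ t - t) = R.vπ := by
    rw [show τ t - t = (R.ζ ^ a - 1) * y' by
      show τ (y' - 1) - (y' - 1) = _
      rw [map_sub, map_one, hτa]; ring, map_mul, hy', mul_one]
    rw [← hvz]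
    refine FlatBound.valuation_root_sub_one hP hp R.prim (by
      rw [pow_right_comm, R.prim.pow_eq_one, one_pow]) (R.prim.pow_ne_one_of_pos_of_lt ha0 ha)
  have hterm : ∀ k ∈ range p, v (τ (cf k * t ^ k) - cf k * t ^ k) * v t =
      if k = 0 then 0 else v (cf k * t ^ k) * R.vπ := fun k hk => by
    rw [map_mul, R.mem_fld.1 (hcf k) τ hτ, map_pow, ← mul_sub, map_mul]
    split_ifs with h
    · subst h; simp
    · have hkv : v (k : Qbar) = 1 := by
        refine le_antisymm ((P.valuation_le_one_iff _).2 (natCast_mem P _)) ?_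
        by_contra hlt
        exact Nat.not_dvd_of_pos_of_lt (Nat.pos_of_ne_zero h) (mem_range.1 hk)
          ((GaloisBasics.natCast_mem_nonunits_iff hP hp _).1 (P.mem_nonunits_iff.2 (not_le.1 hlt)))
      rw [valuation_pow_sub_pow ht0 (by rwa [hδ]) hkv, hδ, map_mul, map_pow]
      have hk1 : v t ^ k = v t ^ (k - 1) * v t := by rw [← pow_succ, show k - 1 + 1 = k by omega]
      rw [hk1]
      ac_rfl
  refine ⟨τ, hτ, t, hτy, hvt, ?_⟩
  have hsub : τ x - x = ∑ k ∈ range p, (τ (cf k * t ^ k) - cf k * t ^ k) := by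
    rw [hxsum, map_sum, sum_sub_distrib]
  have hvt0 : (0 : P.ValueGroup) < v t := zero_lt_iff.2 ((map_ne_zero _).2 ht0)
  rw [hsub, (v).map_sum_eq_of_lt hk₀ fun k hk => ?_, hterm k₀ hk₀, if_neg hk₀pos.ne', hvxk, hvz]
  refine lt_of_mul_lt_mul_right' (a := v t) ?_
  rw [hterm k (mem_sdiff.1 hk).1, hterm k₀ hk₀, if_neg hk₀pos.ne']
  split_ifs
  · exact mul_pos (zero_lt_iff.2 ((map_ne_zero _).2 hk₀0)) R.vπ_pos
  · exact mul_lt_mul_of_pos_right (hstrict k hk) R.vπ_pos

end Fermat.Agent.OrdKummer
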