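import Fermat.Agent.OrdKummer.Main
import Fermat.Agent.OrdKummer.WildBreak
import Fermat.Agent.Multiplicative.Torsion
import Fermat.Prelude.Def_GaloisRep_Residual

/-!
# `E[p]` is très ramifié when `p` does not divide `v_p(Δ)`

For `W` over `ℤ` with multiplicative reduction at an odd prime `p` and `p ∤ v_p(Δ)`, the Kummer
class of `E[p]` on inertia does not come from units.
-/

set_option autoImplicit false

noncomputable section

open scoped Pointwise TensorProduct WeierstrassCurve.Affine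
open Fermat.Agent.GaloisBasics (Qbar GalQ)

namespace Fermat.Agent.OrdKummer

open WeierstrassCurve WeierstrassCurve.Affine Fermat.Agent.Multiplicative

section Nodal

variable {K : Type*} [Field K] [DecidableEq K] {a b : K} {A : ValuationSubring K}

local notation "v" => ValuationSubring.valuation A

/-- A conjugate of a branch point moves the abscissa by the size of the smooth difference. -/
theorem valuation_conj_xc_sub (hN : IsNodal A a b) {σ : K →+* K} (hiso : ∀ x, v (σ x) = v x)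
    (ha : σ a = a) {P P' : NPoint a b} (hc : Conj σ P P') (hP : InPlus A P) (hne : P' ≠ P)
    (hlt : v (σ (xc P) - xc P) < v (xc P)) {z : K} (hu : v (uPt (P' - P)) = v z) :
    v (σ (xc P) - xc P) = v (xc P) * v z := by
  have hD : InG0 A (P' - P) := hN.conj_sub_inG0 hiso ha hc
  match P, hP, hc with
  | .some x y hns, hP, ⟨h', he⟩ =>
  subst he
  simp only [xc_some] at hlt ⊢
  obtain ⟨hx1, hxb, hyx⟩ := hP
  have hw := hN.val_w_of_inPlus hns ⟨hx1, hxb, hyx⟩
  have hσne : σ x ≠ x := by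
    intro hx
    apply hne
    rw [Point.some.injEq]
    refine ⟨hx, ?_⟩
    have e1 := hN.eqn hns
    have e2 : σ y * (σ y + a * x) = x ^ 3 + b := by simpa [hx] using hN.eqn h'
    have hfac : (σ y - y) * (σ y + (y + a * x)) = 0 := by linear_combination e2 - e1
    rcases mul_eq_zero.mp hfac with h3 | h3
    · exact sub_eq_zero.mp h3
    · rw [add_eq_zero_iff_eq_neg] at h3
      have := congrArg v h3
      rw [Valuation.map_neg, hw, hiso] at this
      exact absurd this hyx.ne
  have hvσy : v (σ y) < v x := by rwa [hiso]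
  rw [sub_eq_add_neg, Point.neg_some] at hu hD
  obtain ⟨l, m, x₃, h₃, hadd, -, hl1, hl2, e₁, -, -⟩ :=
    exists_line h' ((nonsingular_neg ..).mpr hns) (fun hh => hσne hh.1)
  rw [hadd] at hu hD
  rw [inG0_some] at hD
  have hl : v l * v (σ x - x) = v x := by
    rw [← map_mul, show l * (σ x - x) = σ y + (y + a * x) by
      have h1 : σ y = l * σ x + m := hl1
      have h2 : -(y + a * x) = l * x + m := by rw [← nodal_negY]; exact hl2
      linear_combination h2 - h1, Valuation.map_add_eq_of_lt_right _ (by rw [hw]; exact hvσy), hw]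
  have hl1' : 1 < v l := by
    by_contra hle
    rw [not_lt] at hle
    exact absurd hl (ne_of_lt (lt_of_le_of_lt (mul_le_of_le_one_left' hle) hlt))
  have hbig : (1 : A.ValueGroup) < v l * v l := one_lt_mul_of_le_of_lt hl1'.le hl1'
  have hla : v (l + a) = v l := Valuation.map_add_eq_of_lt_left _ (by rwa [hN.val_a])
  have hx₃ : v x₃ = v l * v l := by
    rw [show x₃ = l * (l + a) - (σ x + x) by linear_combination e₁,
      Valuation.map_sub_eq_of_lt_left, map_mul, hla]
    rw [map_mul, hla]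
    exact ((Valuation.map_add _ _ _).trans_lt (max_lt (by rwa [hiso]) hx1)).trans hbig
  have hu2 := hN.val_uPt_sq h₃ hD
  rw [hu, hx₃, ← sq, ← mul_pow] at hu2
  have hzl : v z * v l = 1 := (pow_eq_one_iff.mp hu2).resolve_right two_ne_zero
  rw [← hl, mul_comm (v l), mul_assoc, mul_comm (v l) (v z), hzl, mul_one]

end Nodal

variable {W : WeierstrassCurve ℤ} {A : ValuationSubring Qbar} {p : ℕ}

local notation "v" => ValuationSubring.valuation A

/-- An element whose `p`-th power has the size of a power of `p` is moved by less than itself. -/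
theorem valuation_apply_sub_lt (hA : A.LiesOverPrime p) (hp : p.Prime) {σ : GalQ}
    (hσ : σ ∈ A.inertiaSubgroupIn ℚ) {x : Qbar} {m : ℕ} (hx : v x ^ p = v (p : Qbar) ^ m) :
    v (σ x - x) < v x := by
  have := Fact.mk hp
  have := charP_residueField (A := A) hp (val_q_lt_one hA)
  have hp0 : (p : Qbar) ≠ 0 := Nat.cast_ne_zero.mpr hp.ne_zero
  have hx0 : x ≠ 0 := fun h => by
    rw [h, map_zero, zero_pow hp.ne_zero] at hx
    exact pow_ne_zero m ((Valuation.ne_zero_iff _).mpr hp0) hx.symm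
  obtain ⟨hd, hres⟩ := LocalInertia.mem_inertiaSubgroupIn_iff.mp hσ
  set u := x ^ p / (p : Qbar) ^ m
  have hu : v u = 1 := by
    rw [map_div₀, map_pow, map_pow, hx,
        div_self (pow_ne_zero m ((Valuation.ne_zero_iff _).mpr hp0))]
  set w := σ x / x
  have hw : v w = 1 := by
    rw [map_div₀, LocalInertia.valuation_apply hd, div_self ((Valuation.ne_zero_iff _).mpr hx0)]
  have hwp : w ^ p = σ u / u := by
    rw [div_pow, map_div₀, map_pow, map_pow, map_natCast,
      div_div_div_cancel_right₀ (pow_ne_zero m hp0)]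
  have h1 : v (w ^ p - 1) < 1 := by
    rw [hwp, div_sub_one ((Valuation.ne_zero_iff (v)).mp (by rw [hu]; exact one_ne_zero)), map_div₀,
      hu, div_one]
    exact hres u ((A.valuation_le_one_iff _).mp hu.le)
  have h2 : v (w - 1) < 1 := by
    rw [← res_eq_iff hw.le (map_one _).le]
    have h3 : (res A w - res A 1) ^ p = 0 := by
      rw [sub_pow_char, ← res_pow hw.le, res_one, one_pow, sub_eq_zero, ← res_one (A := A),
        res_eq_iff (by rw [map_pow, hw, one_pow]) (map_one _).le]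
      exact h1
    exact sub_eq_zero.mp ((pow_eq_zero_iff hp.ne_zero).mp h3)
  rw [show σ x - x = (w - 1) * x by rw [sub_mul, div_mul_cancel₀ _ hx0, one_mul], map_mul]
  exact mul_lt_of_lt_one_left (zero_lt_iff.mpr ((Valuation.ne_zero_iff _).mpr hx0)) h2

/-- At a multiplicative prime some `Q ∈ E[p]` off the identity component completes an ordinary
frame of `E[p]`, whose cocycle vanishes at `σ` in inertia exactly when `σ` fixes `Q`. -/
theorem exists_torsion_frame (h : MultAt W A p) [Fact p.Prime]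
    (hcard : Nat.card (Submodule.torsionBy ℤ (curveQbar W).Point p) = p ^ 2)
    (hker : GaloisFactorsThroughFiniteLevel
      (Point.galoisRepModuleEnd (K := AlgebraicClosure ℚ) ℚ (W.map (Int.castRingHom ℚ)) p)) :
    ∃ (Q : (curveQbar W).Point)
      (e : Module.Basis (Fin 2) (ZMod p) (GaloisRepAdic.ofResidualGaloisRep
        ((W.map (Int.castRingHom ℚ)).residualGaloisRepOf p hcard hker)).V),
      p • Q = 0 ∧ ¬ W.InZeroComponentAt A Q ∧
      IsOrdFrame (GaloisRepAdic.ofResidualGaloisRep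
        ((W.map (Int.castRingHom ℚ)).residualGaloisRepOf p hcard hker)) A e ∧
      ∀ σ ∈ A.inertiaSubgroupIn ℚ, frameCocycle (GaloisRepAdic.ofResidualGaloisRep
        ((W.map (Int.castRingHom ℚ)).residualGaloisRepOf p hcard hker)) e σ = 0 ↔ σ • Q = Q := by
  classical
  have hp : p.Prime := h.prime
  set r := (W.map (Int.castRingHom ℚ)).residualGaloisRepOf p hcard hker
  obtain ⟨G, Q, hG, hQ, hG0, hGdvd, hQdvd, -, hzero⟩ := exists_generators h hp 1
  rw [pow_one] at hG hQ hGdvd hQdvd hzero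
  have hmem : ∀ X : (curveQbar W).Point, p • X = 0 →
      X ∈ Submodule.torsionBy ℤ (curveQbar W).Point p := fun X hX => by
    rw [Submodule.mem_torsionBy_iff, natCast_zsmul, hX]
  let g : r.V := ⟨G, hmem G hG⟩
  let q : r.V := ⟨Q, hmem Q hQ⟩
  have hsmul : ∀ (c : ZMod p) (x : r.V), c • x = c.val • x := fun c x => by
    rw [← Nat.cast_smul_eq_nsmul (ZMod p) c.val x, ZMod.natCast_zmod_val]
  have hli : LinearIndependent (ZMod p) ![g, q] := by
    rw [LinearIndependent.pair_iff]
    intro s t hst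
    rw [hsmul, hsmul] at hst
    have hst' : s.val • G + t.val • Q = 0 := congrArg Subtype.val hst
    have hz : ∀ c : ZMod p, p ∣ c.val → c = 0 := fun c hc =>
      (ZMod.val_eq_zero c).1 (Nat.eq_zero_of_dvd_of_lt hc (ZMod.val_lt c))
    have ht : t = 0 := hz t (hQdvd _ (by
      have h1 := (zeroComponent h).neg_mem ((zeroComponent h).nsmul_mem hG0 s.val)
      rw [← eq_neg_of_add_eq_zero_right hst'] at h1
      exact h1))
    refine ⟨hz s (hGdvd _ ?_), ht⟩
    simpa [ht] using hst'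
  let e : Module.Basis (Fin 2) (ZMod p) r.V :=
    basisOfLinearIndependentOfCardEqFinrank hli (by rw [Fintype.card_fin]; exact r.finrank_eq.symm)
  have he : ⇑e = ![g, q] := coe_basisOfLinearIndependentOfCardEqFinrank hli _
  have hval : ∀ (σ : GalQ) (x : r.V), (r.ρ σ x).1 = σ • x.1 := fun _ _ => rfl
  have hline : ∀ x : r.V, W.InZeroComponentAt A x.1 →
      ∃ i : ℕ, x = (i : ZMod p) • g := by
    intro x hx
    obtain ⟨i, hi⟩ := hzero _ (nsmul_coe_torsion x) hx
    exact ⟨i, by rw [Nat.cast_smul_eq_nsmul]; exact Subtype.ext hi⟩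
  have hcol0 : ∀ σ ∈ A.decompositionSubgroup ℚ,
      entry (GaloisRepAdic.ofResidualGaloisRep r) e σ 1 0 = 0 := by
    intro σ hσ
    obtain ⟨i, hi⟩ := hline (r.ρ σ g) (by rw [hval]; exact smul_inZeroComponentAt h hσ hG0)
    show e.repr (r.ρ σ (e 0)) 1 = 0
    rw [show e 0 = g by rw [he]; rfl, hi, show g = e 0 by rw [he]; rfl, map_smul, e.repr_self]
    simp
  have hcol1 : ∀ σ ∈ A.inertiaSubgroupIn ℚ, ∃ i : ZMod p, r.ρ σ q = i • g + q ∧
      entry (GaloisRepAdic.ofResidualGaloisRep r) e σ 1 1 = 1 ∧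
      entry (GaloisRepAdic.ofResidualGaloisRep r) e σ 0 1 = i := by
    intro σ hσ
    obtain ⟨i, hi⟩ := hline (r.ρ σ q - q) (smul_sub_inZeroComponentAt h hσ Q)
    rw [sub_eq_iff_eq_add] at hi
    refine ⟨i, hi, ?_, ?_⟩ <;>
    · show e.repr (r.ρ σ (e 1)) _ = _
      rw [show e 1 = q by rw [he]; rfl, hi, show g = e 0 by rw [he]; rfl,
        show q = e 1 by rw [he]; rfl, map_add, map_smul, e.repr_self, e.repr_self]
      simp
  have hfr : IsOrdFrame (GaloisRepAdic.ofResidualGaloisRep r) A e :=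
    ⟨hcol0, fun σ hσ => by obtain ⟨i, -, h11, -⟩ := hcol1 σ hσ; exact h11⟩
  refine ⟨Q, e, hQ, fun h0 => hp.one_lt.ne' (Nat.dvd_one.1 (hQdvd 1 (by rwa [one_nsmul]))),
    hfr, fun σ hσ => ?_⟩
  obtain ⟨i, hi, -, h01⟩ := hcol1 σ hσ
  erw [hfr.cocycle_of_inertia hσ, h01]
  constructor
  · intro hc
    rw [hc, zero_smul, zero_add] at hi
    exact congrArg Subtype.val hi
  · intro hQσ
    have hi' : r.ρ σ q = q := Subtype.ext hQσ
    rw [hi', right_eq_add] at hi
    have hg0 : g ≠ 0 := fun h0 => hp.one_lt.ne' (Nat.dvd_one.1 (hGdvd 1 (by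
      rw [one_nsmul]; exact congrArg Subtype.val h0)))
    exact (smul_eq_zero.1 hi).resolve_right hg0

/-- A point of order `p ≠ 2` off the identity component lies, up to sign, on the positive branch
of the nodal frame. -/
theorem exists_inPlus_point (h : MultAt W A p) (hp2 : p ≠ 2) {Q : (curveQbar W).Point}
    (hQ : p • Q = 0) (hQ0 : ¬ W.InZeroComponentAt A Q) :
    ∃ Q' : (curveQbar W).Point, p • Q' = 0 ∧ InPlus A (h.frame.Φ Q') ∧
      ∀ σ : GalQ, σ • Q' = Q' ↔ σ • Q = Q := by
  classical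
  have hp : p.Prime := h.prime
  set F := h.frame
  have hnG : ¬ InG0 A (F.Φ Q) := fun h0 => hQ0 ((F.inG0_Φ_iff Q).1 h0)
  rcases F.nodal.trichotomy hnG with h' | h' | h'
  · have h2 := F.nodal.mid_torsion_even h' (n := p) (by
        rw [← map_nsmul, hQ, map_zero]; exact inG0_zero)
    exact absurd ((Nat.prime_dvd_prime_iff_eq Nat.prime_two hp).1 h2).symm hp2
  · exact ⟨Q, hQ, h', fun _ => Iff.rfl⟩
  · refine ⟨-Q, by rw [neg_nsmul, hQ, neg_zero], by rwa [map_neg], fun σ => ?_⟩
    rw [← smulHom_apply, ← smulHom_apply, map_neg, neg_inj]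

/-- If the Kummer class of a representation over `ZMod p` comes from units, some unit with inertia
fixed `p`-th power is fixed by exactly the inertia elements killed by the cocycle. -/
theorem exists_unit_of_isPeuKummer [Fact p.Prime] (hA : A.LiesOverPrime p)
    {r : ResidualGaloisRep (ZMod p)} (hpeu : IsPeuKummer r p)
    {e : Module.Basis (Fin 2) (ZMod p) (GaloisRepAdic.ofResidualGaloisRep r).V}
    (hfr : IsOrdFrame (GaloisRepAdic.ofResidualGaloisRep r) A e) :
    ∃ y : Qbar, v y = 1 ∧ (∀ σ ∈ A.inertiaSubgroupIn ℚ, σ (y ^ p) = y ^ p) ∧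
      ∀ σ ∈ A.inertiaSubgroupIn ℚ,
        σ y = y ↔ frameCocycle (GaloisRepAdic.ofResidualGaloisRep r) e σ = 0 := by
  obtain ⟨χ, hχ⟩ := exists_addChar_ne_one (M := ZMod p) one_ne_zero
  obtain ⟨y, hy, hyσ⟩ := hpeu A hA e hfr χ
  have hχinj : ∀ c : ZMod p, χ c = 1 → c = 0 := fun c hc => by
    by_contra hc0
    refine hχ ?_
    rw [← inv_mul_cancel₀ hc0, ← ZMod.natCast_zmod_val c⁻¹, ← nsmul_eq_mul,
      AddChar.map_nsmul_eq_pow, hc, one_pow]
  have hy0 : y ≠ 0 := fun h0 => by rw [h0, map_zero] at hy; exact zero_ne_one hy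
  have hfix : ∀ σ ∈ A.inertiaSubgroupIn ℚ, σ (y ^ p) = y ^ p := fun σ hσ => by
    have := addChar_pow_eq_one χ (frameCocycle (GaloisRepAdic.ofResidualGaloisRep r) e σ)
    rw [Nat.card_zmod] at this
    rw [map_pow, hyσ σ hσ, mul_pow, this, one_mul]
  refine ⟨y, hy, hfix, fun σ hσ => ?_⟩
  rw [hyσ σ hσ, mul_eq_right₀ hy0]
  exact ⟨hχinj _, fun h0 => (congrArg χ h0).trans χ.map_zero_eq_one⟩

/-- The Kummer class of `E[p]` at a multiplicative `p ∤ v_p(Δ)` does not come from units. -/
theorem not_isPeuKummer_of_mult (h : MultAt W A p) [Fact p.Prime] (hp2 : p ≠ 2)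
    (hndvd : ¬ p ∣ padicValInt p W.Δ)
    (hcard : Nat.card (Submodule.torsionBy ℤ (curveQbar W).Point p) = p ^ 2)
    (hker : GaloisFactorsThroughFiniteLevel
      (Point.galoisRepModuleEnd (K := AlgebraicClosure ℚ) ℚ (W.map (Int.castRingHom ℚ)) p)) :
    ¬ IsPeuKummer ((W.map (Int.castRingHom ℚ)).residualGaloisRepOf p hcard hker) p := by
  classical
  intro hpeu
  have hp : p.Prime := h.prime
  have hA := h.liesOver
  set r := (W.map (Int.castRingHom ℚ)).residualGaloisRepOf p hcard hker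
  obtain ⟨Q, e, hQ, hQ0, hfr, hcocycle⟩ := exists_torsion_frame h hcard hker
  obtain ⟨y, hy, hfix, hyfix⟩ := exists_unit_of_isPeuKummer hA hpeu hfr
  have hiff : ∀ σ ∈ A.inertiaSubgroupIn ℚ, (σ y = y ↔ σ • Q = Q) := fun σ hσ =>
    (hyfix σ hσ).trans (hcocycle σ hσ)
  set F := h.frame
  obtain ⟨Q', hQ', hplus, hQσ⟩ := exists_inPlus_point h hp2 hQ hQ0
  set P := F.Φ Q' with hP
  set x := xc P with hx
  obtain ⟨hx1, hxb, -⟩ := hplus.xc_lt
  have hx0 : x ≠ 0 := fun h0 => by
    rw [← hx, h0, map_zero, zero_pow two_ne_zero] at hxb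
    exact not_lt.2 zero_le hxb
  obtain ⟨j, hj0, hj2, hj⟩ := F.nodal.torsion_level hplus hp.pos
    (by rw [← map_nsmul, hQ', map_zero]; exact inG0_zero) (F.val_commensurable h x hx0 hx1)
  set M := padicValInt p W.Δ
  have hvx : v x ^ p = v (p : Qbar) ^ (M * j) := by
    rw [hj, F.val_b, val_intCast_eq_pow hA hp h.Δ_ne_zero, pow_mul]
  have hm : ¬ p ∣ M * j := fun hd => by
    rcases hp.dvd_mul.1 hd with h' | h'
    · exact hndvd h'
    · exact absurd (Nat.le_of_dvd hj0 h') (by omega)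
  obtain ⟨R, hE⟩ := FlatBound.exists_tameRoot hA hp (E := 1) one_pos (by
    rw [mul_one]
    exact Nat.not_dvd_of_pos_of_lt (by have := hp.two_le; omega) (by have := hp.two_le; omega))
  have hconj : ∀ σ ∈ A.inertiaSubgroupIn ℚ, Conj σ.toAlgHom.toRingHom P (F.Φ (σ • Q')) :=
    fun σ hσ => by
      obtain ⟨hr, ht, -, hs, -⟩ := F.inertia_fixes hσ
      exact F.conj_smul hr ht hs Q'
  obtain ⟨σ, hσ, t, hσy, hvt, hkey⟩ := exists_moved hA hp hp2 R hE (x := x) hy hfix
    (fun σ hσ hσy => by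
      have hc := hconj σ (R.H_le hσ)
      rw [(hQσ σ).2 ((hiff σ (R.H_le hσ)).1 hσy), ← hP] at hc
      rw [hx]
      revert hc
      rcases P with _ | ⟨x₀, y₀, hns⟩
      · exact fun _ => map_zero σ
      · rintro ⟨h', he'⟩
        simp only [Point.some.injEq] at he'
        exact he'.1.symm) hm hvx
  have hI := R.H_le hσ
  have hne : F.Φ (σ • Q') ≠ P := fun h0 =>
    hσy ((hiff σ hI).2 ((hQσ σ).1 (F.Φ.injective h0)))
  obtain ⟨-, -, -, -, ha⟩ := F.inertia_fixes hI
  have hu : v (uPt (F.Φ (σ • Q') - P)) = v (R.ζ - 1) := by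
    rw [hP, ← map_sub]
    refine (F.nodal.torsion_prime_val hp (val_q_lt_one hA) (val_b_le_q h) R.prim.pow_eq_one
      (R.prim.ne_one hp.one_lt) ((F.inG1_Φ_iff _).2 (inKernelAt_of_pow_nsmul h (k := 1)
        (smul_sub_inZeroComponentAt h hI Q') ?_)) ?_).2.2 ?_
    · rw [pow_one, nsmul_sub, ← smul_nsmul_point, hQ', smul_zero_point, sub_zero]
    · rw [← map_nsmul, nsmul_sub, ← smul_nsmul_point, hQ', smul_zero_point, sub_zero, map_zero]
    · rw [map_sub, sub_ne_zero]; exact hne
  have hd := R.H_le_decomposition hσ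
  have hmove := valuation_conj_xc_sub F.nodal (σ := σ.toAlgHom.toRingHom)
    (LocalInertia.valuation_apply hd) ha (hconj σ hI) hplus hne
    (valuation_apply_sub_lt hA hp hI hvx) hu
  have hpos : v x * v (R.ζ - 1) ≠ 0 := mul_ne_zero ((Valuation.ne_zero_iff _).2 hx0)
    ((Valuation.ne_zero_iff _).2 (sub_ne_zero.2 (R.prim.ne_one hp.one_lt)))
  rw [show v (σ x - x) = v x * v (R.ζ - 1) from hmove, mul_eq_left₀ hpos] at hkey
  rw [hkey, one_pow] at hvt
  exact (val_q_lt_one hA).ne hvt.symm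

/-- A representation is peu ramifiée if an extension of scalars is. -/
theorem IsPeuKummer.of_baseChange {F k : Type} [Field F] [Field k] [Algebra F k] [Finite k]
    {r : ResidualGaloisRep F} (h : IsPeuKummer (r.baseChange k) p) : IsPeuKummer r p := by
  intro P hP e hfr
  let e' : Module.Basis (Fin 2) k (GaloisRepAdic.ofResidualGaloisRep (r.baseChange k)).V :=
    Algebra.TensorProduct.basis k e
  have hent : ∀ σ i j, entry (GaloisRepAdic.ofResidualGaloisRep (r.baseChange k)) e' σ i j =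
      algebraMap F k (entry (GaloisRepAdic.ofResidualGaloisRep r) e σ i j) := fun σ i j => by
    show (Algebra.TensorProduct.basis k e).repr
      (((GaloisRepAdic.ofResidualGaloisRep r).ρ σ).baseChange k
          (Algebra.TensorProduct.basis k e j)) i = _
    rw [Algebra.TensorProduct.basis_apply, LinearMap.baseChange_tmul,
      Algebra.TensorProduct.basis_repr_tmul, Finsupp.smul_apply, smul_eq_mul, one_mul,
      Finsupp.mapRange_apply]
    rfl
  refine ((h P hP e' (hfr.of_entry_map hent)).congr fun σ hσ => ?_).of_injective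
    (algebraMap F k).toAddMonoidHom (algebraMap F k).injective
  exact hfr.frameCocycle_map hent
    (LocalInertia.inertiaSubgroupIn_le_decompositionSubgroup hσ)

/-- The curve form: `p ∣ Δ`, `p ∤ c₄` and `p ∤ v_p(Δ)`. -/
theorem not_isPeuKummer_residualGaloisRepOf (W : WeierstrassCurve ℤ) [Fact p.Prime] (hp2 : p ≠ 2)
    (hΔ : W.Δ ≠ 0) (hpΔ : (p : ℤ) ∣ W.Δ) (hc₄ : ¬ (p : ℤ) ∣ W.c₄)
    (hndvd : ¬ p ∣ padicValInt p W.Δ)
    (hcard : Nat.card (Submodule.torsionBy ℤ (curveQbar W).Point p) = p ^ 2)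
    (hker : GaloisFactorsThroughFiniteLevel
      (Point.galoisRepModuleEnd (K := AlgebraicClosure ℚ) ℚ (W.map (Int.castRingHom ℚ)) p)) :
    ¬ IsPeuKummer ((W.map (Int.castRingHom ℚ)).residualGaloisRepOf p hcard hker) p := by
  obtain ⟨A, hA⟩ := GaloisBasics.exists_liesOverPrime (Fact.out : p.Prime)
  exact not_isPeuKummer_of_mult (A := A) ⟨Fact.out, hA, hpΔ, hc₄, hΔ⟩ hp2 hndvd hcard hker

/-- The same over a larger coefficient field. -/
theorem not_isPeuKummer_baseChange (W : WeierstrassCurve ℤ) [Fact p.Prime] (hp2 : p ≠ 2)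
    (hΔ : W.Δ ≠ 0) (hpΔ : (p : ℤ) ∣ W.Δ) (hc₄ : ¬ (p : ℤ) ∣ W.c₄)
    (hndvd : ¬ p ∣ padicValInt p W.Δ)
    (hcard : Nat.card (Submodule.torsionBy ℤ (curveQbar W).Point p) = p ^ 2)
    (hker : GaloisFactorsThroughFiniteLevel
      (Point.galoisRepModuleEnd (K := AlgebraicClosure ℚ) ℚ (W.map (Int.castRingHom ℚ)) p))
    (k : Type) [Field k] [Algebra (ZMod p) k] [Finite k] :
    ¬ IsPeuKummer (((W.map (Int.castRingHom ℚ)).residualGaloisRepOf p hcard hker).baseChange k) p :=
  fun h => not_isPeuKummer_residualGaloisRepOf W hp2 hΔ hpΔ hc₄ hndvd hcard hker h.of_baseChange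

end Fermat.Agent.OrdKummer
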