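import Fermat.Agent.OrdKummer.Lattice
import Fermat.Agent.GaloisBasics.Finite
import Fermat.Agent.LocalCond.FixedApprox
import Mathlib.RingTheory.Nakayama
import Mathlib.LinearAlgebra.Dual.Lemmas
import Mathlib.LinearAlgebra.LinearIndependent.Basic

/-!
# Descent of the lattice

The lattice at one place is spanned by the globally equivariant functions it contains
(`localLattice_le_span`).

By Nakayama it suffices to treat a function `f` of the lattice fixed by inertia, modulo the maximal
ideal (`fixed_mem_span_sup`). Let `K` be a finite Galois field containing the level and the values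
of `f`, with group `G` and inertia group `Γ`. For an integer `a` of `K` invariant under `Γ` the
sum over `G ⧸ Γ` of the translates of `f` weighted by the conjugates of `a` is equivariant
(`isEquivariant_sum_smul_translate`). Taking `a = u ^ N * b`, with `u` as in
`exists_inertia_invariant_separating`, only the cosets in the decomposition group survive modulo
the maximal ideal. Their residue characters on the invariants are distinct
(`mem_inertia_of_smul_sub_mem`), so a combination isolates the trivial coset, whose translate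
is `f`.
-/

set_option autoImplicit false

noncomputable section

open scoped Pointwise NumberField
open Fermat.Agent.GaloisBasics IsLocalRing

namespace Fermat.Agent.OrdKummer

variable {M : Type*} [AddCommGroup M] {p : ℕ}
variable {act : GalQ → M → M} {P : ValuationSubring Qbar} {L : AddSubgroup M}

/-- The equivariant functions in the lattice. -/
def equivariantPart (act : GalQ → M → M) (P : ValuationSubring Qbar) (L : AddSubgroup M) :
    Set (M → Qbar) :=
  {h | FlatModels.IsEquivariant act h ∧ h ∈ localLattice P L}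

theorem valuation_pow_le_eventually (hP : P.LiesOverPrime p) (hp : p.Prime) {u : Qbar}
    (hu : P.valuation u < 1) {c : Qbar} (hc : c ≠ 0) :
    ∃ N : ℕ, ∀ n, N ≤ n → P.valuation u ^ n ≤ P.valuation c := by
  have hp0 : 0 < P.valuation (p : Qbar) :=
    zero_lt_iff.2 ((map_ne_zero _).2 (Nat.cast_ne_zero.2 hp.ne_zero))
  have hp1 : P.valuation (p : Qbar) < 1 := P.mem_nonunits_iff.1 hP
  have := IntermediateField.adjoin.finiteDimensional
    (x := c) (Algebra.IsAlgebraic.isAlgebraic (R := ℚ) c).isIntegral
  obtain ⟨j, hj⟩ := LocalInertia.exists_valuation_pow_factorial hp hP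
    (IntermediateField.adjoin ℚ ({c} : Set Qbar))
    (IntermediateField.mem_adjoin_simple_self ℚ c) hc
  set k := (Module.finrank ℚ (IntermediateField.adjoin ℚ ({c} : Set Qbar))).factorial
  have hk : 0 < k := Nat.factorial_pos _
  rcases eq_or_ne u 0 with rfl | hu0
  · exact ⟨1, fun n hn => by rw [map_zero, zero_pow (by omega)]; exact zero_le⟩
  have := IntermediateField.adjoin.finiteDimensional
    (x := u) (Algebra.IsAlgebraic.isAlgebraic (R := ℚ) u).isIntegral
  obtain ⟨i, hi⟩ := LocalInertia.exists_valuation_pow_factorial hp hP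
    (IntermediateField.adjoin ℚ ({u} : Set Qbar))
    (IntermediateField.mem_adjoin_simple_self ℚ u) hu0
  set l := (Module.finrank ℚ (IntermediateField.adjoin ℚ ({u} : Set Qbar))).factorial
  have hl : 0 < l := Nat.factorial_pos _
  have hi1 : 1 ≤ i := by
    by_contra hcon
    have h1 : (1 : P.ValueGroup) ≤ P.valuation u ^ l := by
      rw [hi]
      exact one_le_zpow_of_nonpos₀ hp0 hp1.le (by omega)
    exact (pow_lt_one₀ zero_le hu hl.ne').not_ge h1
  refine ⟨l * j.natAbs, fun n hn => (pow_le_pow_right_of_le_one' hu.le hn).trans ?_⟩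
  refine le_of_pow_le_pow_left₀ hk.ne' zero_le ?_
  rw [pow_mul, hi, hj, ← zpow_natCast, ← zpow_natCast, ← zpow_mul, ← zpow_mul]
  refine zpow_le_zpow_right_of_le_one₀ hp0 hp1.le ?_
  have h1 : j ≤ (j.natAbs : ℤ) := Int.le_natAbs
  have h2 : (1 : ℤ) ≤ k := by exact_mod_cast hk
  have h3 : (j.natAbs : ℤ) ≤ i * (j.natAbs : ℤ) := le_mul_of_one_le_left (by positivity) hi1
  exact h1.trans (h3.trans (mul_le_mul_of_nonneg_left
    (le_mul_of_one_le_right (by positivity) h2) (by omega)))

/-- A high power of a non-unit pushes every function into `𝔪` times the lattice. -/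
theorem exists_pow_mul_mem_smul [Finite M] (hP : P.LiesOverPrime p) (hp : p.Prime) {x : Qbar}
    (hx : P.valuation x < 1) (h : M → Qbar) :
    ∃ N : ℕ, ∀ n, N ≤ n → ∀ y ∈ P,
      (fun m => x ^ n * y * h m) ∈ maximalIdeal P • localLattice P L := by
  have hc : (p : Qbar) * (charCount L : Qbar) ≠ 0 :=
    mul_ne_zero (Nat.cast_ne_zero.2 hp.ne_zero) (Nat.cast_ne_zero.2 (charCount_ne_zero L))
  have hm : ∀ m, ∃ N : ℕ, ∀ n, N ≤ n →
      P.valuation x ^ n * P.valuation (h m) ≤ P.valuation ((p : Qbar) * charCount L) := by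
    intro m
    rcases eq_or_ne (h m) 0 with h0 | h0
    · exact ⟨0, fun n _ => by rw [h0, map_zero, mul_zero]; exact zero_le⟩
    obtain ⟨N, hN⟩ := valuation_pow_le_eventually hP hp hx (div_ne_zero hc h0)
    refine ⟨N, fun n hn => ?_⟩
    have := hN n hn
    rwa [map_div₀, le_div_iff₀ (zero_lt_iff.2 ((map_ne_zero _).2 h0))] at this
  choose N hN using hm
  have := Fintype.ofFinite M
  refine ⟨Finset.univ.sup N, fun n hn y hy => ?_⟩
  have hpI : (p : P) ∈ maximalIdeal P := by
    rw [P.valuation_lt_one_iff]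
    exact_mod_cast P.mem_nonunits_iff.1 hP
  refine mem_smul_of_valuation_le hpI (by exact_mod_cast hp.ne_zero) fun m => ?_
  rw [map_mul, map_mul, map_pow, mul_right_comm]
  exact (mul_le_of_le_one_right' ((P.valuation_le_one_iff y).2 hy)).trans
    (by simpa using hN m n ((Finset.le_sup (Finset.mem_univ m)).trans hn))

section Inertia

variable {A G : Type*} [CommRing A] [Group G] [Finite G] [MulSemiringAction G A]

/-- Some invariant of the inertia group of a maximal ideal `Q` is congruent to `1` modulo `Q` at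
the conjugates fixing `Q`, and to `0` at the others. -/
theorem exists_inertia_invariant_separating (Q : Ideal A) [Q.IsMaximal] :
    ∃ u : A, (∀ γ ∈ Q.inertia G, γ • u = u) ∧ (∀ g : G, g • Q = Q → g • u - 1 ∈ Q) ∧
      ∀ g : G, g • Q ≠ Q → g • u ∈ Q := by
  classical
  have := Fintype.ofFinite G
  let others : Finset G := Finset.univ.filter fun g => g • Q ≠ Q
  have hQI : Q ⊔ ∏ g ∈ others, g • Q = ⊤ := by
    rw [sup_comm]
    refine Ideal.prod_sup_eq_top fun g hg => ?_
    have hmax : (g • Q).IsMaximal := by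
      rw [Ideal.pointwise_smul_eq_comap]
      exact Ideal.comap_isMaximal_of_surjective _
        (MulSemiringAction.toRingEquiv G A g).symm.surjective
    exact hmax.coprime_of_ne ‹_› (Finset.mem_filter.1 hg).2
  obtain ⟨v, hv, u₀, hu₀, hvu⟩ :=
    Submodule.mem_sup.1 (hQI.ge (Submodule.mem_top (x := (1 : A))))
  have hu₀1 : u₀ - 1 ∈ Q := by
    rw [← hvu, sub_add_cancel_right]
    exact Q.neg_mem hv
  refine ⟨∏ γ : Q.inertia G, (γ : G) • u₀, fun δ hδ => ?_, fun g hg => ?_, fun g hg => ?_⟩
  · rw [Finset.smul_prod']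
    exact Fintype.prod_equiv (Equiv.mulLeft (⟨δ, hδ⟩ : Q.inertia G)) _ _ fun γ => by
      rw [Equiv.coe_mulLeft, Subgroup.coe_mul, mul_smul]
  · rw [← Ideal.Quotient.eq, Finset.smul_prod', map_prod, map_one]
    refine Finset.prod_eq_one fun γ _ => ?_
    rw [← map_one (Ideal.Quotient.mk Q), Ideal.Quotient.eq]
    have h1 : (γ : G) • u₀ - 1 ∈ Q := by simpa using Q.add_mem (γ.2 u₀) hu₀1
    simpa [smul_sub, hg] using Ideal.smul_mem_pointwise_smul g _ Q h1
  · rw [Finset.smul_prod', ← Finset.mul_prod_erase _ _ (Finset.mem_univ (1 : Q.inertia G))]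
    refine Ideal.mul_mem_right _ _ ?_
    rw [OneMemClass.coe_one, one_smul, ← Ideal.mem_inv_pointwise_smul_iff]
    refine Finset.inf_le (f := fun g => g • Q) ?_ (Ideal.prod_le_inf hu₀)
    exact Finset.mem_filter.2 ⟨Finset.mem_univ _, fun h => hg (by
      conv_lhs => rw [← h]
      rw [smul_inv_smul])⟩

/-- An element fixing a prime `Q` and acting trivially modulo `Q` on the invariants of inertia
lies in inertia. -/
theorem mem_inertia_of_smul_sub_mem {Q : Ideal A} [Q.IsPrime] {e : G} (he : e • Q = Q)
    (hfix : ∀ a : A, (∀ γ ∈ Q.inertia G, γ • a = a) → e • a - a ∈ Q) : e ∈ Q.inertia G := by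
  classical
  have := Fintype.ofFinite G
  intro θ
  rw [Submodule.mem_toAddSubgroup, ← Ideal.Quotient.eq]
  let Pol : Polynomial A := ∏ γ : Q.inertia G, (Polynomial.X - Polynomial.C ((γ : G) • θ))
  have hcoeff : ∀ n, ∀ δ ∈ Q.inertia G, δ • Pol.coeff n = Pol.coeff n := fun n δ hδ => by
    rw [← Polynomial.coeff_smul]
    congr 1
    rw [Finset.smul_prod']
    simp only [smul_sub, Polynomial.smul_X, Polynomial.smul_C, ← mul_smul]
    exact Fintype.prod_equiv (Equiv.mulLeft (⟨δ, hδ⟩ : Q.inertia G)) _ _ fun γ => rfl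
  have hmap : Pol.map (Ideal.Quotient.mk Q) = (e • Pol).map (Ideal.Quotient.mk Q) := by
    ext n
    rw [Polynomial.coeff_map, Polynomial.coeff_map, Polynomial.coeff_smul]
    exact (Ideal.Quotient.eq.2 (hfix _ (hcoeff n))).symm
  have hγθ : ∀ γ : Q.inertia G, Ideal.Quotient.mk Q ((γ : G) • θ) = Ideal.Quotient.mk Q θ :=
    fun γ => Ideal.Quotient.eq.2 (γ.2 θ)
  have hγeθ : ∀ γ : Q.inertia G,
      Ideal.Quotient.mk Q (e • (γ : G) • θ) = Ideal.Quotient.mk Q (e • θ) := fun γ => by
    rw [Ideal.Quotient.eq, ← smul_sub]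
    simpa only [he] using Ideal.smul_mem_pointwise_smul e _ Q (γ.2 θ)
  have h1 : Pol.map (Ideal.Quotient.mk Q) =
      (Polynomial.X - Polynomial.C (Ideal.Quotient.mk Q θ)) ^ Fintype.card (Q.inertia G) := by
    simp [Pol, Polynomial.map_prod, hγθ]
  have h2 : (e • Pol).map (Ideal.Quotient.mk Q) =
      (Polynomial.X - Polynomial.C (Ideal.Quotient.mk Q (e • θ))) ^
        Fintype.card (Q.inertia G) := by
    simp only [Pol, Finset.smul_prod', smul_sub, Polynomial.smul_X, Polynomial.smul_C,
      Polynomial.map_prod, Polynomial.map_sub, Polynomial.map_X, Polynomial.map_C, hγeθ,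
      Finset.prod_const, Finset.card_univ]
  have h3 := congrArg (Polynomial.eval (Ideal.Quotient.mk Q (e • θ)))
    (h1.symm.trans (hmap.trans h2))
  simp only [Polynomial.eval_pow, Polynomial.eval_sub, Polynomial.eval_X, Polynomial.eval_C,
    sub_self, zero_pow Fintype.card_ne_zero] at h3
  exact sub_eq_zero.1 ((pow_eq_zero_iff Fintype.card_ne_zero).1 h3)

end Inertia

/-- The value vectors of finitely many distinct characters span the whole coordinate space. -/
theorem span_range_eval_eq_top {R k ι : Type*} [Monoid R] [Field k] [Fintype ι] {φ : ι → R →* k}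
    (hφ : Function.Injective φ) :
    Submodule.span k (Set.range fun b q => φ q b) = ⊤ := by
  classical
  by_contra hne
  obtain ⟨l, hl0, hl⟩ := Submodule.exists_dual_map_eq_bot_of_lt_top (lt_top_iff_ne_top.2 hne)
    inferInstance
  have hsum : ∑ q, l (Pi.single q 1) • (φ q : R → k) = 0 := by
    funext b
    have hb : l (fun q => φ q b) = 0 := (Submodule.mem_bot _).1 (hl ▸ Submodule.mem_map_of_mem
      (Submodule.subset_span (Set.mem_range_self (f := fun b q => φ q b) b)))
    have hd : (fun q => φ q b) = ∑ q, φ q b • (Pi.single q 1 : ι → k) := by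
      funext q'
      simp [Finset.sum_apply, Pi.single_apply]
    rw [hd, map_sum] at hb
    rw [Finset.sum_apply, Pi.zero_apply]
    refine (Finset.sum_congr rfl fun q _ => ?_).trans hb
    rw [Pi.smul_apply, map_smul, smul_eq_mul, smul_eq_mul, mul_comm]
  have h0 := Fintype.linearIndependent_iff.1 ((linearIndependent_monoidHom R k).comp φ hφ) _ hsum
  exact hl0 (LinearMap.pi_ext' fun q => LinearMap.ext_ring (by simpa using h0 q))

/-- A finite extension of `ℚ` and finitely many algebraic numbers lie in a finite normal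
extension of `ℚ`. -/
theorem exists_finite_normal_containing {ι : Type*} [Finite ι] (F : IntermediateField ℚ Qbar)
    [FiniteDimensional ℚ F] (f : ι → Qbar) :
    ∃ K : IntermediateField ℚ Qbar,
      F ≤ K ∧ (∀ m, f m ∈ K) ∧ FiniteDimensional ℚ K ∧ Normal ℚ K := by
  have : Finite (Set.range f) := (Set.finite_range f).to_subtype
  have : FiniteDimensional ℚ (IntermediateField.adjoin ℚ (Set.range f)) :=
    IntermediateField.finiteDimensional_adjoin
      fun x _ => (Algebra.IsAlgebraic.isAlgebraic (R := ℚ) x).isIntegral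
  have : FiniteDimensional ℚ (F ⊔ IntermediateField.adjoin ℚ (Set.range f) :
      IntermediateField ℚ Qbar) := IntermediateField.finiteDimensional_sup _ _
  have hle := IntermediateField.le_normalClosure (F ⊔ IntermediateField.adjoin ℚ (Set.range f))
  exact ⟨_, le_sup_left.trans hle,
    fun m => hle (le_sup_right (α := IntermediateField ℚ Qbar)
      (IntermediateField.subset_adjoin ℚ _ ⟨m, rfl⟩)),
    normalClosure.is_finiteDimensional ℚ _ Qbar, normalClosure.normal ℚ _ Qbar⟩

namespace IsLocallyMultiplicative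

section Span

variable (hM : IsLocallyMultiplicative act P L)
include hM

/-- Let `K` contain the level and the values of a function fixed by inertia. Its translates depend
only on the restriction to `K` modulo inertia. -/
theorem translate_eq_of_mem_inertia (hP : P.LiesOverPrime p) (hp : p.Prime)
    {K F : IntermediateField ℚ Qbar} [IsGalois ℚ K] (hFK : F ≤ K)
    (hFact : ∀ σ : GalQ, (∀ x ∈ F, σ x = x) → ∀ m, act σ m = m) {f : M → Qbar}
    (hfK : ∀ m, f m ∈ K) (hfix : ∀ σ ∈ P.inertiaSubgroupIn ℚ, translate act σ f = f)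
    {g g' : GalQ}
    (h : (restrictK K g')⁻¹ * restrictK K g ∈ (intIdeal K P).inertia (K ≃ₐ[ℚ] K)) :
    translate act g f = translate act g' f := by
  rw [← map_inertiaSubgroupIn K hP hp] at h
  obtain ⟨γ, hγ, hγg⟩ := Subgroup.mem_map.1 h
  conv_rhs => rw [← hfix γ hγ, hM.translate_translate]
  have hgg : restrictK K g = restrictK K (g' * γ) := by rw [map_mul, hγg, mul_inv_cancel_left]
  generalize g' * γ = g₁ at hgg ⊢
  have hx : ∀ x ∈ K, g x = g₁ x := fun x hx => by
    have := congrArg (fun e : K ≃ₐ[ℚ] K => ((e ⟨x, hx⟩ : K) : Qbar)) hgg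
    simpa [coe_restrictK_apply] using this
  have hact : ∀ m, act g⁻¹ m = act g₁⁻¹ m := fun m => by
    have h0 : act (g * g₁⁻¹) m = m := hFact _ (fun x hx' => by
      have h2 : g₁⁻¹ x ∈ K := by
        rw [← coe_restrictK_apply K g₁⁻¹ ⟨x, hFK hx'⟩]
        exact SetLike.coe_mem _
      rw [AlgEquiv.mul_apply, hx _ h2]
      exact g₁.apply_symm_apply x) m
    rw [hM.act_mul] at h0
    conv_lhs => rw [← h0, hM.act_inv_act]
  funext m
  simp only [translate, hact]
  exact hx _ (hfK _)

/-- If the translates of `f` depend only on the coset modulo `Γ`, then the coset sums of `f`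
weighted by the conjugates of a `Γ`-invariant integer are equivariant. -/
theorem isEquivariant_sum_smul_translate {K : IntermediateField ℚ Qbar} [IsGalois ℚ K]
    (Γ : Subgroup (K ≃ₐ[ℚ] K)) [Fintype ((K ≃ₐ[ℚ] K) ⧸ Γ)] {f : M → Qbar}
    {lift : (K ≃ₐ[ℚ] K) ⧸ Γ → GalQ} (hlift : ∀ q, restrictK K (lift q) = q.out)
    (htr : ∀ g g', (restrictK K g')⁻¹ * restrictK K g ∈ Γ →
      translate act g f = translate act g' f)
    {a : 𝓞 K} (ha : ∀ γ ∈ Γ, γ • a = a) :
    FlatModels.IsEquivariant act
      fun m => ∑ q, (((q.out • a : 𝓞 K) : K) : Qbar) * translate act (lift q) f m := by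
  intro σ m
  simp only [map_sum, map_mul]
  refine (Fintype.sum_equiv
    (MulAction.toPerm (restrictK K σ) : ((K ≃ₐ[ℚ] K) ⧸ Γ) ≃ ((K ≃ₐ[ℚ] K) ⧸ Γ)) _ _
    fun q => ?_).symm
  have hmem : (restrictK K σ * q.out)⁻¹ * (restrictK K σ • q).out ∈ Γ := by
    rw [← QuotientGroup.eq, QuotientGroup.out_eq', ← smul_eq_mul, ← MulAction.Quotient.smul_coe,
      QuotientGroup.out_eq']
  have hq : (restrictK K σ • q).out =
      restrictK K σ * q.out * ((restrictK K σ * q.out)⁻¹ * (restrictK K σ • q).out) :=
    (mul_inv_cancel_left _ _).symm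
  rw [MulAction.toPerm_apply, htr (lift (restrictK K σ • q)) (σ * lift q)
    (by rw [map_mul, hlift, hlift]; exact hmem), ← hM.translate_translate]
  congr 1
  · rw [hq, mul_smul, ha _ hmem, mul_smul]
    exact (coe_restrictK_apply K σ _).symm
  · show _ = σ (translate act (lift q) f (act σ⁻¹ (act σ m)))
    rw [hM.act_inv_act]

variable [Finite M] (hP : P.LiesOverPrime p) (hp : p.Prime)
include hP hp

/-- A function in the lattice fixed by inertia is, modulo the maximal ideal, a combination of
equivariant functions of the lattice. -/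
theorem fixed_mem_span_sup {f : M → Qbar} (hf : f ∈ localLattice P L)
    (hfix : ∀ σ ∈ P.inertiaSubgroupIn ℚ, translate act σ f = f) :
    f ∈ Submodule.span P (equivariantPart act P L) ⊔
      maximalIdeal P • localLattice P L := by
  classical
  obtain ⟨F, hF, hFact⟩ := hM.level
  have := hF
  obtain ⟨K, hFK, hfK, hKfin, hKnormal⟩ := exists_finite_normal_containing F f
  have := hKfin
  have := hKnormal
  have : IsGalois ℚ K := ⟨⟩
  have := intIdeal_isMaximal K hP hp
  let G := K ≃ₐ[ℚ] K
  let Q : Ideal (𝓞 K) := intIdeal K P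
  let Γ : Subgroup G := Q.inertia G
  let res : 𝓞 K →+* ResidueField P := (zbarResidue P).comp (intIncl K)
  have hres : ∀ a b, res a = res b ↔ a - b ∈ Q := fun a b => by
    rw [← sub_eq_zero, ← map_sub]; exact zbarResidue_eq_zero_iff
  have htr : ∀ g g', (restrictK K g')⁻¹ * restrictK K g ∈ Γ →
      translate act g f = translate act g' f :=
    fun g g' => hM.translate_eq_of_mem_inertia hP hp hFK hFact hfK hfix
  -- for each coset: a lift, the translate of `f`, and the conjugate of a coefficient
  let lift : G ⧸ Γ → GalQ := fun q => Function.surjInv (restrictK_surjective K) q.out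
  have hlift : ∀ q, restrictK K (lift q) = q.out := fun q =>
    Function.surjInv_eq (restrictK_surjective K) _
  let T : G ⧸ Γ → (M → Qbar) := fun q => translate act (lift q) f
  let coef : 𝓞 K → G ⧸ Γ → P := fun a q =>
    ⟨((q.out • a : 𝓞 K) : K), coe_mem P (intIncl K (q.out • a))⟩
  let Dec : Finset (G ⧸ Γ) := Finset.univ.filter fun q => q.out • Q = Q
  have hDec : ∀ {q}, q ∈ Dec ↔ q.out • Q = Q := by simp [Dec]
  have hdecT : ∀ q ∈ Dec, T q ∈ localLattice P L := fun q hq => by
    obtain ⟨d, hd, hdg⟩ := LocalCond.exists_decomposition_restrict_eq hP hp K (hDec.1 hq)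
    rw [show T q = translate act d f from
      htr _ _ (by rw [hlift, hdg, inv_mul_cancel]; exact Γ.one_mem)]
    exact hM.translate_mem hd hf
  -- weighting by `u ^ N` makes the cosets outside the decomposition group negligible
  obtain ⟨u, huΓ, hu1, hu0⟩ := exists_inertia_invariant_separating (G := G) Q
  have hsmall : ∀ q, ∃ N, q ∉ Dec → ∀ n, N ≤ n → ∀ b : 𝓞 K,
      coef (u ^ n * b) q • T q ∈ maximalIdeal P • localLattice P L := fun q => by
    by_cases hq : q ∈ Dec
    · exact ⟨0, fun h => absurd hq h⟩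
    obtain ⟨N, hN⟩ := exists_pow_mul_mem_smul hP hp
      (P.mem_nonunits_iff.1 ((mem_intIdeal K).1 (hu0 _ (mt hDec.2 hq)))) (T q)
    refine ⟨N, fun _ n hn b => ?_⟩
    convert hN n hn (coef b q) (coef b q).2 using 1
    funext m
    show (((q.out • (u ^ n * b) : 𝓞 K) : K) : Qbar) * T q m = _
    rw [smul_mul', smul_pow']
    push_cast
    rfl
  choose N hN using hsmall
  let U : 𝓞 K := u ^ Finset.univ.sup N
  have hnondec : ∀ b, ∀ q ∉ Dec, coef (U * b) q • T q ∈ maximalIdeal P • localLattice P L :=
    fun b q hq => hN q hq _ (Finset.le_sup (Finset.mem_univ q)) b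
  -- the equivariant sums, split by the decomposition group
  let R : Submonoid (𝓞 K) :=
    { carrier := {b | ∀ γ ∈ Γ, γ • b = b}
      one_mem' := fun γ _ => smul_one γ
      mul_mem' := fun ha hb γ hγ => by rw [smul_mul', ha γ hγ, hb γ hγ] }
  let H : R → (M → Qbar) := fun b => ∑ q, coef (U * b) q • T q
  let rest : R → (M → Qbar) := fun b => ∑ q ∈ Decᶜ, coef (U * b) q • T q
  have hsplit : ∀ b : R, H b = (∑ q : Dec, coef (U * b) q • T q) + rest b := fun b => by
    rw [Finset.sum_coe_sort Dec (fun q => coef (U * b) q • T q), Finset.sum_add_sum_compl]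
  have hrest : ∀ b, rest b ∈ maximalIdeal P • localLattice P L := fun b =>
    sum_mem fun q hq => hnondec b q (Finset.mem_compl.1 hq)
  have hH : ∀ b : R, H b ∈ equivariantPart act P L := fun b => by
    refine ⟨?_, ?_⟩
    · convert hM.isEquivariant_sum_smul_translate Γ hlift htr
        (R.mul_mem (R.pow_mem huΓ _) b.2) using 1
      funext m
      simp only [H, Finset.sum_apply]
      rfl
    · rw [hsplit]
      exact add_mem (sum_mem fun q _ => Submodule.smul_mem _ _ (hdecT _ q.2))
        (Submodule.smul_le_right (hrest b))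
  -- distinct decomposition cosets give distinct residue characters of the invariants
  let φ : Dec → (R →* ResidueField P) := fun q =>
    (res : 𝓞 K →* ResidueField P).comp
      ((MulSemiringAction.toRingHom G (𝓞 K) (q : G ⧸ Γ).out : 𝓞 K →* 𝓞 K).comp R.subtype)
  have hφ : Function.Injective φ := fun q q' hqq => by
    refine Subtype.ext ?_
    rw [← QuotientGroup.out_eq' (q : G ⧸ Γ), ← QuotientGroup.out_eq' (q' : G ⧸ Γ),
      QuotientGroup.eq]
    have hq : (q : G ⧸ Γ).out⁻¹ • Q = Q := by rw [inv_smul_eq_iff, hDec.1 q.2]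
    refine mem_inertia_of_smul_sub_mem (by rw [mul_smul, hDec.1 q'.2, hq]) fun a ha => ?_
    have h0 : res ((q' : G ⧸ Γ).out • a) = res ((q : G ⧸ Γ).out • a) :=
      (DFunLike.congr_fun hqq ⟨a, ha⟩).symm
    have h1 := Ideal.smul_mem_pointwise_smul (q : G ⧸ Γ).out⁻¹ _ Q ((hres _ _).1 h0)
    rwa [hq, smul_sub, ← mul_smul, inv_smul_smul] at h1
  -- separate the trivial coset
  obtain ⟨γ, hγ⟩ := QuotientGroup.mk_out_eq_mul Γ (1 : G)
  rw [one_mul] at hγ
  have h1Dec : ((1 : G) : G ⧸ Γ) ∈ Dec :=
    hDec.2 (by rw [hγ]; exact Ideal.inertia_le_stabilizer Q γ.2)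
  set q₁ : Dec := ⟨_, h1Dec⟩
  have hTq₁ : T q₁ = f := by
    show translate act (lift (q₁ : G ⧸ Γ)) f = f
    rw [htr _ 1 (by rw [map_one, inv_one, one_mul, hlift]; exact hγ ▸ γ.2)]
    funext m
    simp [translate, hM.act_one]
  obtain ⟨c, hc⟩ := (Finsupp.mem_span_range_iff_exists_finsupp).1 ((span_range_eval_eq_top hφ).ge
    (Submodule.mem_top (x := (Pi.single q₁ 1 : Dec → ResidueField P))))
  choose cl hcl using fun b => IsLocalRing.residue_surjective (R := P) (c b)
  let x : Dec → P := fun q => ∑ b ∈ c.support, cl b * coef (U * b) q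
  have hx : ∀ q : Dec, x q - (if q = q₁ then 1 else 0) ∈ maximalIdeal P := fun q => by
    rw [← IsLocalRing.residue_eq_zero_iff, map_sub, sub_eq_zero]
    rw [show residue P (if q = q₁ then (1 : P) else 0) =
        (Pi.single q₁ 1 : Dec → ResidueField P) q by rw [Pi.single_apply]; split <;> simp]
    rw [← hc, Finsupp.sum, Finset.sum_apply, map_sum]
    refine Finset.sum_congr rfl fun b _ => ?_
    rw [map_mul, hcl]
    refine congrArg (c b * ·) ?_
    show res ((q : G ⧸ Γ).out • (U * (b : 𝓞 K))) = res ((q : G ⧸ Γ).out • (b : 𝓞 K))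
    rw [smul_mul', smul_pow', map_mul, map_pow, (hres _ 1).2 (hu1 _ (hDec.1 q.2)), map_one,
      one_pow, one_mul]
  have hz : f = (∑ b ∈ c.support, cl b • H b) +
      -((∑ q : Dec, (x q - if q = q₁ then 1 else 0) • T q) + ∑ b ∈ c.support, cl b • rest b) := by
    have h1 : ∑ b ∈ c.support, cl b • H b =
        (∑ q : Dec, x q • T q) + ∑ b ∈ c.support, cl b • rest b := by
      simp only [hsplit, smul_add, Finset.smul_sum, smul_smul, Finset.sum_add_distrib, x,
        Finset.sum_smul]
      rw [Finset.sum_comm]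
    have h2 : ∑ q : Dec, (x q - if q = q₁ then 1 else 0) • T q =
        (∑ q : Dec, x q • T q) - f := by
      simp only [sub_smul, Finset.sum_sub_distrib, ite_smul, one_smul, zero_smul,
        Finset.sum_ite_eq', Finset.mem_univ, if_true, hTq₁]
    rw [h1, h2]
    abel
  rw [hz]
  exact Submodule.add_mem_sup
    (sum_mem fun b _ => Submodule.smul_mem _ _ (Submodule.subset_span (hH b)))
    (neg_mem (add_mem (sum_mem fun q _ => Submodule.smul_mem_smul (hx q) (hdecT _ q.2))
      (sum_mem fun b _ => Submodule.smul_mem _ _ (hrest b))))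

/-- The lattice is spanned by equivariant functions. -/
theorem localLattice_le_span :
    localLattice P L ≤ Submodule.span P (equivariantPart act P L) := by
  refine Submodule.le_of_le_smul_of_le_jacobson_bot fg_localLattice
    (IsLocalRing.maximalIdeal_le_jacobson ⊥) (Submodule.span_le.2 ?_)
  rintro _ ⟨⟨c, ψ⟩, rfl⟩
  obtain ⟨u, hu⟩ := hM.exists_fixed_multiple c ψ
  have h := hM.fixed_mem_span_sup hP hp
    (Submodule.smul_mem _ (u : P) (cosetChar_mem_localLattice c ψ)) hu
  show cosetChar L c ψ ∈ _
  have h' := Submodule.smul_mem _ (↑u⁻¹ : P) h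
  rwa [smul_smul, Units.inv_mul, one_smul] at h'

end Span

end IsLocallyMultiplicative

end Fermat.Agent.OrdKummer
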