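import Mathlib.GroupTheory.FiniteAbelian.Duality
import Mathlib.RingTheory.RootsOfUnity.AlgebraicallyClosed
import Mathlib.Algebra.Group.AddChar
import Mathlib.LinearAlgebra.LinearIndependent.Lemmas
import Mathlib.Algebra.Algebra.Hom.Rat
import Mathlib.FieldTheory.Fixed
import Fermat.Agent.GaloisBasics.Galois
import Fermat.Agent.LocalInertia.Tame

/-!
# Unit Kummer classes on inertia

For a finite abelian group `M` and a function `b` on inertia, twisted by the cyclotomic character,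
`UnitKummer P b` says that the Kummer class of `b` comes from units: for every character `χ` of
`M` the function `χ ∘ b` is `σ y / y` for some unit `y`.
-/

set_option autoImplicit false

noncomputable section

open scoped Pointwise
open Fermat.Agent.GaloisBasics

namespace Fermat.Agent.OrdKummer

variable {P : ValuationSubring Qbar}

/-- `f` is, on inertia at `P`, the Kummer function of a unit. -/
def UnitSplit (P : ValuationSubring Qbar) (f : GalQ → Qbar) : Prop :=
  ∃ y : Qbar, P.valuation y = 1 ∧ ∀ σ ∈ P.inertiaSubgroupIn ℚ, σ y = f σ * y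

/-- The Kummer class of `b` comes from units. -/
def UnitKummer (P : ValuationSubring Qbar) {M : Type*} [AddCommGroup M] (b : GalQ → M) : Prop :=
  ∀ χ : AddChar M Qbar, UnitSplit P fun σ => χ (b σ)

/-- `UnitSplit` depends only on the values on inertia. -/
theorem UnitSplit.congr {f g : GalQ → Qbar} (h : UnitSplit P f)
    (hfg : ∀ σ ∈ P.inertiaSubgroupIn ℚ, f σ = g σ) : UnitSplit P g := by
  obtain ⟨y, hy, hyσ⟩ := h
  exact ⟨y, hy, fun σ hσ => by rw [hyσ σ hσ, hfg σ hσ]⟩

/-- The constant `1` is split by a unit. -/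
theorem UnitSplit.one : UnitSplit P fun _ => 1 :=
  ⟨1, map_one _, fun σ _ => by rw [map_one, mul_one]⟩

/-- `UnitSplit` is stable under products. -/
theorem UnitSplit.mul {f g : GalQ → Qbar} (hf : UnitSplit P f) (hg : UnitSplit P g) :
    UnitSplit P fun σ => f σ * g σ := by
  obtain ⟨y, hy, hyσ⟩ := hf
  obtain ⟨z, hz, hzσ⟩ := hg
  exact ⟨y * z, by rw [map_mul, hy, hz, one_mul], fun σ hσ => by
    rw [map_mul, hyσ σ hσ, hzσ σ hσ]; ring⟩

section Characters

variable {M N : Type*} [AddCommGroup M] [AddCommGroup N]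

/-- A character takes nonzero values. -/
theorem addChar_ne_zero (χ : AddChar M Qbar) (t : M) : χ t ≠ 0 := fun h => by
  have := χ.map_add_eq_mul t (-t)
  rw [add_neg_cancel, AddChar.map_zero_eq_one, h, zero_mul] at this
  exact one_ne_zero this

/-- The values of a character of a finite group are roots of unity. -/
theorem addChar_pow_eq_one [Finite M] (χ : AddChar M Qbar) (t : M) : χ t ^ Nat.card M = 1 := by
  rw [← AddChar.map_nsmul_eq_pow, card_nsmul_eq_zero', AddChar.map_zero_eq_one]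

/-- The values of a character of a finite group are units. -/
theorem valuation_addChar [Finite M] (χ : AddChar M Qbar) (t : M) : P.valuation (χ t) = 1 := by
  have h : P.valuation (χ t) ^ Nat.card M = 1 := by
    rw [← map_pow, addChar_pow_eq_one, map_one]
  exact (pow_eq_one_iff.1 h).resolve_right Nat.card_pos.ne'

instance instNeZeroNatCastQbar (n : ℕ) [NeZero n] : NeZero (n : Qbar) :=
  ⟨Nat.cast_ne_zero.2 (NeZero.ne n)⟩

/-- Characters separate points. -/
theorem exists_addChar_ne_one [Finite M] {t : M} (ht : t ≠ 0) : ∃ χ : AddChar M Qbar, χ t ≠ 1 := by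
  have : NeZero (Monoid.exponent (Multiplicative M)) :=
    ⟨Monoid.exponent_ne_zero_of_finite⟩
  obtain ⟨φ, hφ⟩ := CommGroup.exists_apply_ne_one_of_hasEnoughRootsOfUnity (Multiplicative M) Qbar
    (a := Multiplicative.ofAdd t) (fun h => ht (Multiplicative.ofAdd.injective h))
  refine ⟨AddChar.toMonoidHomEquiv.symm ((Units.coeHom Qbar).comp φ), fun h => hφ (Units.ext ?_)⟩
  exact h

/-- Characters extend along injective maps. -/
theorem exists_addChar_extend [Finite M] (i : N →+ M) (hi : Function.Injective i)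
    (ψ : AddChar N Qbar) : ∃ χ : AddChar M Qbar, ∀ x, χ (i x) = ψ x := by
  have : NeZero (Monoid.exponent (Multiplicative M)) :=
    ⟨Monoid.exponent_ne_zero_of_finite⟩
  let i' : Multiplicative N →* Multiplicative M := AddMonoidHom.toMultiplicative i
  have hi' : Function.Injective i' := hi
  let e : Multiplicative N ≃* i'.range := MonoidHom.ofInjective hi'
  obtain ⟨φ, hφ⟩ := MonoidHom.domRestrict_surjective Qbar i'.range
    (ψ.toMonoidHom.toHomUnits.comp e.symm.toMonoidHom)
  refine ⟨AddChar.toMonoidHomEquiv.symm ((Units.coeHom Qbar).comp φ), fun x => ?_⟩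
  have h := congrArg (fun u : Qbarˣ => (u : Qbar)) (DFunLike.congr_fun hφ (e (.ofAdd x)))
  simp only [MonoidHom.coe_comp, MulEquiv.coe_toMonoidHom, Function.comp_apply,
    MulEquiv.symm_apply_apply] at h
  exact h

/-- `UnitKummer` depends only on the values on inertia. -/
theorem UnitKummer.congr {b b' : GalQ → M} (h : UnitKummer P b)
    (hb : ∀ σ ∈ P.inertiaSubgroupIn ℚ, b σ = b' σ) : UnitKummer P b' :=
  fun χ => (h χ).congr fun σ hσ => by rw [hb σ hσ]

/-- `UnitKummer` is preserved by homomorphisms. -/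
theorem UnitKummer.map {b : GalQ → M} (h : UnitKummer P b) (f : M →+ N) :
    UnitKummer P fun σ => f (b σ) := fun χ => h (χ.compAddMonoidHom f)

/-- `UnitKummer` is stable under sums. -/
theorem UnitKummer.add {b b' : GalQ → M} (h : UnitKummer P b) (h' : UnitKummer P b') :
    UnitKummer P fun σ => b σ + b' σ := fun χ =>
  ((h χ).mul (h' χ)).congr fun _ _ => (χ.map_add_eq_mul _ _).symm

/-- The zero class comes from units. -/
theorem UnitKummer.zero : UnitKummer P fun _ => (0 : M) := fun χ =>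
  (UnitSplit.one (P := P)).congr fun _ _ => χ.map_zero_eq_one.symm

/-- `UnitKummer` descends along injective homomorphisms. -/
theorem UnitKummer.of_injective [Finite N] {b : GalQ → M} (f : M →+ N) (hf : Function.Injective f)
    (h : UnitKummer P fun σ => f (b σ)) : UnitKummer P b := fun χ => by
  obtain ⟨χ', hχ'⟩ := exists_addChar_extend f hf χ
  exact (h χ').congr fun σ _ => hχ' _

end Characters

/-- Inertia at a translated place. -/
theorem conj_mem_of_mem_smul {g σ : GalQ} (hσ : σ ∈ (g • P).inertiaSubgroupIn ℚ) :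
    g⁻¹ * σ * g ∈ P.inertiaSubgroupIn ℚ := by
  rw [← inertiaSubgroupIn_smul_iff (g⁻¹ * σ * g) g]
  rwa [show g * (g⁻¹ * σ * g) * g⁻¹ = σ by group]

section Twisted

variable {A : Type*} [CommRing A] [Finite A]

/-- `a` gives the action of `σ` on the values of the characters of `A`. -/
def IsExponent (σ : GalQ) (a : A) : Prop :=
  ∀ (χ : AddChar A Qbar) (t : A), σ (χ t) = χ (a * t)

/-- Coboundaries come from units. -/
theorem UnitKummer.coboundary {a : GalQ → A}
    (ha : ∀ σ ∈ P.inertiaSubgroupIn ℚ, IsExponent σ (a σ)) (t : A) :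
    UnitKummer P fun σ => (a σ - 1) * t := by
  intro χ
  refine ⟨χ t, valuation_addChar χ t, fun σ hσ => ?_⟩
  rw [ha σ hσ χ t, ← AddChar.map_add_eq_mul]
  congr 1
  ring

omit [Finite A] in
/-- `UnitKummer` is stable under scalar multiples. -/
theorem UnitKummer.const_mul {b : GalQ → A} (h : UnitKummer P b) (r : A) :
    UnitKummer P fun σ => r * b σ := h.map (AddMonoidHom.mulLeft r)

omit [Finite A] in
/-- Translating a unit Kummer class by an element of `Gal(ℚ̄/ℚ)`. -/
theorem UnitKummer.smul {b : GalQ → A} (h : UnitKummer P b) (g : GalQ) {ω : A}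
    (hω : IsExponent g ω) :
    UnitKummer (g • P) fun σ => ω * b (g⁻¹ * σ * g) := by
  intro χ
  obtain ⟨y, hy, hyσ⟩ := h χ
  have hy0 : y ≠ 0 := fun h0 => by rw [h0, map_zero] at hy; exact zero_ne_one hy
  refine ⟨g y, le_antisymm ?_ ?_, fun σ hσ => ?_⟩
  · rw [ValuationSubring.valuation_le_one_iff, apply_mem_smul_iff,
      ← ValuationSubring.valuation_le_one_iff, hy]
  · have : (g • P).valuation (g y⁻¹) ≤ 1 := by
      rw [ValuationSubring.valuation_le_one_iff, apply_mem_smul_iff,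
        ← ValuationSubring.valuation_le_one_iff, map_inv₀, hy, inv_one]
    rw [map_inv₀, map_inv₀] at this
    exact (inv_le_one₀ (zero_lt_iff.2 ((map_ne_zero _).2 ((map_ne_zero g).2 hy0)))).1 this
  · have hmem := conj_mem_of_mem_smul hσ
    have e : σ (g y) = g ((g⁻¹ * σ * g) y) := by
      rw [AlgEquiv.mul_apply, AlgEquiv.mul_apply]
      exact (g.apply_symm_apply _).symm
    rw [e, hyσ _ hmem, map_mul, hω χ]

/-- The key identity: conjugating by `g` in the decomposition group multiplies the class of `b`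
by `ω g / δ g`, so that `ω g / δ g - 1` kills it. -/
theorem unitKummer_of_decomposition {δ b : GalQ → A} {g : GalQ}
    (hg : g ∈ P.decompositionSubgroup ℚ) {ω u : A} (hω : IsExponent g ω) (hu : ω = u * δ g)
    (hcoc : ∀ σ ∈ P.decompositionSubgroup ℚ, ∀ τ ∈ P.decompositionSubgroup ℚ,
      b (σ * τ) = b σ + δ σ * b τ)
    (hδ : ∀ σ ∈ P.inertiaSubgroupIn ℚ, IsExponent σ (δ σ))
    (χ : AddChar A Qbar) (hsplit : ∃ y : Qbar, y ≠ 0 ∧
      ∀ σ ∈ P.inertiaSubgroupIn ℚ, σ y = χ (b σ) * y) :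
    UnitSplit P fun σ => χ ((u - 1) * b σ) := by
  obtain ⟨y, hy0, hyσ⟩ := hsplit
  have hgP : g • P = P := mem_decompositionSubgroup_iff_eq.1 hg
  obtain ⟨s, hs, hsσ⟩ := UnitKummer.coboundary hδ (u * b g) χ
  have hs0 : s ≠ 0 := fun h0 => by rw [h0, map_zero] at hs; exact zero_ne_one hs
  refine ⟨g y / y / s, ?_, fun σ hσ => ?_⟩
  · rw [map_div₀, map_div₀, hs, div_one, LocalInertia.valuation_apply hg,
      div_self ((map_ne_zero _).2 hy0)]
  have hσ' : g⁻¹ * σ * g ∈ P.inertiaSubgroupIn ℚ :=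
    conj_mem_of_mem_smul (P := P) (by rw [hgP]; exact hσ)
  have hD := inertiaSubgroupIn_le_decompositionSubgroup (A := P) hσ
  have hD' := inertiaSubgroupIn_le_decompositionSubgroup (A := P) hσ'
  have e : σ (g y) = g ((g⁻¹ * σ * g) y) := by
    rw [AlgEquiv.mul_apply, AlgEquiv.mul_apply]
    exact (g.apply_symm_apply _).symm
  have key : b g + δ g * b (g⁻¹ * σ * g) = b σ + δ σ * b g := by
    rw [← hcoc g hg _ hD', ← hcoc σ hD g hg]
    congr 1
    group
  have hsplit' : ω * b (g⁻¹ * σ * g) = ((u - 1) * b σ + (δ σ - 1) * (u * b g)) + b σ := by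
    rw [hu]
    linear_combination u * key
  rw [map_div₀, map_div₀, e, hyσ _ hσ', map_mul, hω χ, hyσ σ hσ, hsσ σ hσ, hsplit',
    AddChar.map_add_eq_mul, AddChar.map_add_eq_mul]
  field_simp [addChar_ne_zero]

end Twisted

section Hilbert

/-- Hilbert 90 for a locally constant cocycle on a subgroup. -/
theorem exists_apply_eq_mul (H : Subgroup GalQ) (f : GalQ → Qbar) (hf0 : ∀ σ ∈ H, f σ ≠ 0)
    (hf : ∀ σ ∈ H, ∀ τ ∈ H, f (σ * τ) = f σ * σ (f τ))
    (hlev : ∃ F : IntermediateField ℚ Qbar, FiniteDimensional ℚ F ∧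
      ∀ σ ∈ H, (∀ x ∈ F, σ x = x) → f σ = 1) :
    ∃ y : Qbar, y ≠ 0 ∧ ∀ σ ∈ H, σ y = f σ * y := by
  classical
  obtain ⟨F, hF, hgF⟩ := hlev
  have := hF
  let rs : GalQ → (F →ₐ[ℚ] Qbar) := fun σ =>
    ((σ : Qbar ≃+* Qbar).toRingHom.comp (algebraMap F Qbar)).toRatAlgHom
  let act : GalQ → (F →ₐ[ℚ] Qbar) → (F →ₐ[ℚ] Qbar) := fun σ h =>
    ((σ : Qbar ≃+* Qbar).toRingHom.comp (h : F →+* Qbar)).toRatAlgHom
  have hrs : ∀ σ (x : F), rs σ x = σ x := fun _ _ => rfl
  have hact : ∀ σ h x, act σ h x = σ (h x) := fun _ _ _ => rfl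
  have hwell : ∀ σ ∈ H, ∀ τ ∈ H, (∀ x : F, σ x = τ x) → f σ = f τ := fun σ hσ τ hτ h => by
    have hm : σ⁻¹ * τ ∈ H := H.mul_mem (H.inv_mem hσ) hτ
    have h0 : f (σ⁻¹ * τ) = 1 := hgF _ hm fun x hx => by
      rw [AlgEquiv.mul_apply, ← h ⟨x, hx⟩]
      exact σ.symm_apply_apply x
    conv_rhs => rw [← mul_inv_cancel_left σ τ, hf σ hσ _ hm, h0, map_one, mul_one]
  let c : (F →ₐ[ℚ] Qbar) → Qbar := fun h => if hh : ∃ σ ∈ H, rs σ = h then f hh.choose else 0
  have hc : ∀ σ ∈ H, c (rs σ) = f σ := fun σ hσ => by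
    have hh : ∃ τ ∈ H, rs τ = rs σ := ⟨σ, hσ, rfl⟩
    simp only [c]
    rw [dif_pos hh, hwell _ hh.choose_spec.1 σ hσ fun x => by
      rw [← hrs, ← hrs, hh.choose_spec.2]]
  have key : ∀ σ ∈ H, ∀ h : F →ₐ[ℚ] Qbar, c (act σ h) = f σ * σ (c h) := by
    intro σ hσ h
    by_cases hh : ∃ τ ∈ H, rs τ = h
    · obtain ⟨τ, hτ, rfl⟩ := hh
      rw [show act σ (rs τ) = rs (σ * τ) from AlgHom.ext fun x => rfl, hc _ (H.mul_mem hσ hτ),
        hc τ hτ, hf σ hσ τ hτ]
    · have h2 : ¬ ∃ τ ∈ H, rs τ = act σ h := by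
        rintro ⟨τ, hτ, hτh⟩
        refine hh ⟨σ⁻¹ * τ, H.mul_mem (H.inv_mem hσ) hτ, AlgHom.ext fun x => ?_⟩
        have h3 := congrArg σ.symm (AlgHom.congr_fun hτh x)
        rw [hrs, hact, AlgEquiv.symm_apply_apply] at h3
        rw [hrs, ← h3]
        rfl
      simp only [c]
      rw [dif_neg hh, dif_neg h2, map_zero, mul_zero]
  obtain ⟨x, hx⟩ : ∃ x : F, ∑ h : F →ₐ[ℚ] Qbar, c h * h x ≠ 0 := by
    by_contra! h0
    have hli := Fintype.linearIndependent_iff.1 (linearIndependent_toLinearMap ℚ F Qbar) c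
      (LinearMap.ext fun x => by simpa [smul_eq_mul] using h0 x) (rs 1)
    rw [hc 1 H.one_mem] at hli
    exact hf0 1 H.one_mem hli
  refine ⟨(∑ h : F →ₐ[ℚ] Qbar, c h * h x)⁻¹, inv_ne_zero hx, fun σ hσ => ?_⟩
  have hy : f σ * σ (∑ h : F →ₐ[ℚ] Qbar, c h * h x) = ∑ h : F →ₐ[ℚ] Qbar, c h * h x := by
    rw [map_sum, Finset.mul_sum]
    let e : (F →ₐ[ℚ] Qbar) ≃ (F →ₐ[ℚ] Qbar) :=
      { toFun := act σ
        invFun := act σ.symm
        left_inv := fun h => AlgHom.ext fun z => σ.symm_apply_apply (h z)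
        right_inv := fun h => AlgHom.ext fun z => σ.apply_symm_apply (h z) }
    refine Fintype.sum_equiv e _ (fun h => c h * h x) fun h => ?_
    show f σ * σ (c h * h x) = c (act σ h) * σ (h x)
    rw [key σ hσ, map_mul, mul_assoc]
  have hne := (map_ne_zero σ).2 hx
  conv_rhs => rw [← hy]
  rw [map_inv₀, mul_inv, ← mul_assoc, mul_inv_cancel₀ (hf0 σ hσ), one_mul]

end Hilbert

end Fermat.Agent.OrdKummer
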