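import Fermat.Prelude.Def_GaloisRep_StrictOrdinary
import Fermat.Agent.OrdKummer.Kummer
import Fermat.Agent.LocalInertia.Cyclotomic
import Mathlib.LinearAlgebra.Determinant
import Mathlib.RingTheory.Ideal.Quotient.Operations
import Mathlib.RingTheory.Artinian.Ring

/-!
# Ordinary frames

An ordinary frame of a two dimensional representation at a place over `p` is a basis in which the
decomposition group is upper triangular and inertia acts trivially on the quotient line.
-/

set_option autoImplicit false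

noncomputable section

open scoped Pointwise
open Fermat.Agent.GaloisBasics IsLocalRing

namespace Fermat.Agent.OrdKummer

variable {A : Type} [CommRing A] [IsLocalRing A] {ρ : GaloisRepAdic A}
variable {P : ValuationSubring Qbar} {p : ℕ} {e : Module.Basis (Fin 2) A ρ.V}

/-- The matrix entries of `ρ σ` in the basis `e`. -/
def entry (ρ : GaloisRepAdic A) (e : Module.Basis (Fin 2) A ρ.V) (σ : GalQ) (i j : Fin 2) : A :=
  e.repr (ρ.ρ σ (e j)) i

/-- `e` is an ordinary frame of `ρ` at `P`. -/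
structure IsOrdFrame (ρ : GaloisRepAdic A) (P : ValuationSubring Qbar)
    (e : Module.Basis (Fin 2) A ρ.V) : Prop where
  lower : ∀ σ ∈ P.decompositionSubgroup ℚ, entry ρ e σ 1 0 = 0
  quotient : ∀ σ ∈ P.inertiaSubgroupIn ℚ, entry ρ e σ 1 1 = 1

/-- The extension cocycle of a frame. -/
def frameCocycle (ρ : GaloisRepAdic A) (e : Module.Basis (Fin 2) A ρ.V) (σ : GalQ) : A :=
  entry ρ e σ 0 1 * Ring.inverse (entry ρ e σ 1 1)

/-- The ratio of the diagonal characters of a frame. -/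
def frameRatio (ρ : GaloisRepAdic A) (e : Module.Basis (Fin 2) A ρ.V) (σ : GalQ) : A :=
  entry ρ e σ 0 0 * Ring.inverse (entry ρ e σ 1 1)

/-- The image of a basis vector in terms of the entries. -/
theorem apply_basis (σ : GalQ) (j : Fin 2) :
    ρ.ρ σ (e j) = entry ρ e σ 0 j • e 0 + entry ρ e σ 1 j • e 1 := by
  conv_lhs => rw [← e.sum_repr (ρ.ρ σ (e j))]
  rw [Fin.sum_univ_two]
  rfl

/-- The coordinates of `ρ σ v` in terms of the entries. -/
theorem repr_apply (σ : GalQ) (v : ρ.V) (i : Fin 2) :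
    e.repr (ρ.ρ σ v) i = entry ρ e σ i 0 * e.repr v 0 + entry ρ e σ i 1 * e.repr v 1 := by
  conv_lhs => rw [← e.sum_repr v]
  simp only [Fin.sum_univ_two, map_add, map_smul, Finsupp.add_apply, Finsupp.smul_apply,
    smul_eq_mul, entry]
  ring

/-- The entries of a product. -/
theorem entry_mul (σ τ : GalQ) (i j : Fin 2) :
    entry ρ e (σ * τ) i j =
      entry ρ e σ i 0 * entry ρ e τ 0 j + entry ρ e σ i 1 * entry ρ e τ 1 j := by
  show e.repr (ρ.ρ (σ * τ) (e j)) i = _
  rw [map_mul, Module.End.mul_apply, repr_apply]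
  rfl

/-- The entries of the identity. -/
theorem entry_one (i j : Fin 2) : entry ρ e 1 i j = if i = j then 1 else 0 := by
  show e.repr (ρ.ρ 1 (e j)) i = _
  rw [map_one, Module.End.one_apply, e.repr_self, Finsupp.single_apply]
  simp only [eq_comm]

/-- The determinant in terms of the entries. -/
theorem det_eq_entries (σ : GalQ) : LinearMap.det (ρ.ρ σ) =
    entry ρ e σ 0 0 * entry ρ e σ 1 1 - entry ρ e σ 0 1 * entry ρ e σ 1 0 := by
  rw [← LinearMap.det_toMatrix e, Matrix.det_fin_two]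
  simp only [LinearMap.toMatrix_apply]
  rfl

/-- An ordinary representation has a frame at every place over `p`. -/
theorem exists_isOrdFrame (h : ρ.IsOrdinaryAt p) (hP : P.LiesOverPrime p) :
    ∃ e : Module.Basis (Fin 2) A ρ.V, IsOrdFrame ρ P e := by
  obtain ⟨L, ⟨e, rfl⟩, hD, hI⟩ := h P hP
  refine ⟨e, ⟨fun σ hσ => ?_, fun σ hσ => ?_⟩⟩
  · obtain ⟨a, ha⟩ := Submodule.mem_span_singleton.1
      (hD σ hσ _ (Submodule.mem_span_singleton_self _))
    show e.repr _ 1 = 0
    rw [← ha]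
    simp
  · obtain ⟨a, ha⟩ := Submodule.mem_span_singleton.1 (hI σ hσ (e 1))
    show e.repr _ 1 = 1
    rw [← sub_add_cancel (ρ.ρ σ (e 1)) (e 1), ← ha]
    simp

namespace IsOrdFrame

variable (h : IsOrdFrame ρ P e)
include h

/-- On decomposition the determinant is the product of the diagonal entries. -/
theorem det_eq {σ : GalQ} (hσ : σ ∈ P.decompositionSubgroup ℚ) :
    LinearMap.det (ρ.ρ σ) = entry ρ e σ 0 0 * entry ρ e σ 1 1 := by
  rw [det_eq_entries, h.lower σ hσ, mul_zero, sub_zero]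

/-- On decomposition the quotient character is a unit. -/
theorem isUnit_quotient {σ : GalQ} (hσ : σ ∈ P.decompositionSubgroup ℚ) :
    IsUnit (entry ρ e σ 1 1) := by
  have h1 : entry ρ e (σ⁻¹ * σ) 1 1 = 1 := by rw [inv_mul_cancel, entry_one, if_pos rfl]
  rw [entry_mul, h.lower _ (inv_mem hσ), zero_mul, zero_add, mul_comm] at h1
  exact IsUnit.of_mul_eq_one _ h1

theorem quotient_mul {σ τ : GalQ} (hσ : σ ∈ P.decompositionSubgroup ℚ) :
    entry ρ e (σ * τ) 1 1 = entry ρ e σ 1 1 * entry ρ e τ 1 1 := by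
  rw [entry_mul, h.lower σ hσ, zero_mul, zero_add]

/-- The frame cocycle identity on decomposition. -/
theorem cocycle {σ τ : GalQ} (hσ : σ ∈ P.decompositionSubgroup ℚ)
    (hτ : τ ∈ P.decompositionSubgroup ℚ) :
    frameCocycle ρ e (σ * τ) = frameCocycle ρ e σ + frameRatio ρ e σ * frameCocycle ρ e τ := by
  obtain ⟨u, hu⟩ := h.isUnit_quotient hσ
  obtain ⟨w, hw⟩ := h.isUnit_quotient hτ
  have huw : Ring.inverse ((u : A) * w) = (↑u⁻¹ : A) * ↑w⁻¹ := by
    rw [← Units.val_mul, Ring.inverse_unit, mul_inv, Units.val_mul]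
  simp only [frameCocycle, frameRatio, h.quotient_mul hσ, entry_mul σ τ 0 1, ← hu, ← hw, huw,
    Ring.inverse_unit]
  linear_combination (entry ρ e σ 0 1 * (↑u⁻¹ : A)) * w.mul_inv

/-- On inertia the ratio of the diagonal entries is the determinant. -/
theorem ratio_of_inertia {σ : GalQ} (hσ : σ ∈ P.inertiaSubgroupIn ℚ) :
    frameRatio ρ e σ = LinearMap.det (ρ.ρ σ) := by
  rw [frameRatio, h.det_eq (inertiaSubgroupIn_le_decompositionSubgroup hσ), h.quotient σ hσ,
    Ring.inverse_one]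

/-- On inertia the frame cocycle is the upper right entry. -/
theorem cocycle_of_inertia {σ : GalQ} (hσ : σ ∈ P.inertiaSubgroupIn ℚ) :
    frameCocycle ρ e σ = entry ρ e σ 0 1 := by
  rw [frameCocycle, h.quotient σ hσ, Ring.inverse_one, mul_one]

/-- The determinant is the quotient character squared times the ratio. -/
theorem det_eq_sq_mul {σ : GalQ} (hσ : σ ∈ P.decompositionSubgroup ℚ) :
    LinearMap.det (ρ.ρ σ) = entry ρ e σ 1 1 ^ 2 * frameRatio ρ e σ := by
  obtain ⟨u, hu⟩ := h.isUnit_quotient hσ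
  rw [h.det_eq hσ, frameRatio, ← hu, Ring.inverse_unit]
  linear_combination -(entry ρ e σ 0 0 * (u : A)) * u.mul_inv

end IsOrdFrame

section Conjugate

/-- The translate of a basis by `ρ g`. -/
def conjBasis (ρ : GaloisRepAdic A) (e : Module.Basis (Fin 2) A ρ.V) (g : GalQ) :
    Module.Basis (Fin 2) A ρ.V :=
  e.map (LinearEquiv.ofLinearMap (ρ.ρ g) (ρ.ρ g⁻¹)
    (by rw [← Module.End.mul_eq_comp, ← map_mul, mul_inv_cancel, map_one]; rfl)
    (by rw [← Module.End.mul_eq_comp, ← map_mul, inv_mul_cancel, map_one]; rfl))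

/-- The entries in a conjugate basis. -/
theorem entry_conjBasis (g σ : GalQ) (i j : Fin 2) :
    entry ρ (conjBasis ρ e g) (g * σ * g⁻¹) i j = entry ρ e σ i j := by
  show e.repr (ρ.ρ g⁻¹ (ρ.ρ (g * σ * g⁻¹) (ρ.ρ g (e j)))) i = _
  rw [← Module.End.mul_apply, ← map_mul, ← Module.End.mul_apply, ← map_mul]
  congr
  group

/-- The conjugate of an ordinary frame is one at the conjugate place. -/
theorem IsOrdFrame.conj (h : IsOrdFrame ρ P e) (g : GalQ) :
    IsOrdFrame ρ (g • P) (conjBasis ρ e g) := by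
  constructor
  · intro σ hσ
    have e1 : σ = g * (g⁻¹ * σ * g) * g⁻¹ := by group
    rw [e1, decompositionSubgroup_smul_iff] at hσ
    rw [e1, entry_conjBasis]
    exact h.lower _ hσ
  · intro σ hσ
    have e1 : σ = g * (g⁻¹ * σ * g) * g⁻¹ := by group
    rw [e1, entry_conjBasis]
    exact h.quotient _ (conj_mem_of_mem_smul hσ)

end Conjugate

section Exponent

/-- The exponent of `σ` on `p ^ n`-th roots of unity. -/
theorem exists_exponent (hp : p.Prime) (n : ℕ) (σ : GalQ) :
    ∃ a : ℕ, ∀ μ : Qbar, μ ^ p ^ n = 1 → σ μ = μ ^ a := by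
  have : NeZero (p ^ n) := ⟨pow_ne_zero n hp.ne_zero⟩
  obtain ⟨z, hz⟩ := HasEnoughRootsOfUnity.exists_primitiveRoot Qbar (p ^ n)
  obtain ⟨a, -, ha⟩ := hz.eq_pow_of_pow_eq_one
    (show σ z ^ p ^ n = 1 by rw [← map_pow, hz.pow_eq_one, map_one])
  refine ⟨a, fun μ hμ => ?_⟩
  obtain ⟨i, -, rfl⟩ := hz.eq_pow_of_pow_eq_one hμ
  rw [map_pow, ← ha, ← pow_mul, ← pow_mul, mul_comm]

variable (A) in
/-- A finite quotient of a local ring kills a power of the maximal ideal. -/
theorem exists_pow_le_of_finite (I : Ideal A) (hI : Finite (A ⧸ I)) :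
    ∃ n : ℕ, maximalIdeal A ^ n ≤ I := by
  have := hI
  obtain ⟨n, hn⟩ := IsArtinianRing.isNilpotent_jacobson_bot (R := A ⧸ I)
  refine ⟨n, ?_⟩
  have hmap : (maximalIdeal A).map (Ideal.Quotient.mk I) ≤ Ideal.jacobson ⊥ := by
    rw [Ideal.map_le_iff_le_comap]
    intro x hx
    rw [Ideal.mem_comap, Ideal.mem_jacobson_bot]
    intro y
    obtain ⟨y, rfl⟩ := Ideal.Quotient.mk_surjective y
    rw [← map_mul, ← map_one (Ideal.Quotient.mk I), ← map_add]
    exact ((IsLocalRing.notMem_maximalIdeal).1 fun h =>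
      (IsLocalRing.maximalIdeal.isMaximal A).ne_top ((Ideal.eq_top_iff_one _).2
        (by simpa using sub_mem h ((maximalIdeal A).mul_mem_right y hx)))).map _
  have h := (Ideal.pow_right_mono hmap n).trans hn.le
  rw [← Ideal.map_pow, Ideal.map_le_iff_le_comap] at h
  intro x hx
  have h0 : Ideal.Quotient.mk I x ∈ (⊥ : Ideal (A ⧸ I)) := h hx
  exact Ideal.Quotient.eq_zero_iff_mem.1 (Ideal.mem_bot.1 h0)

/-- With cyclotomic determinant, the determinant is the exponent on characters of finite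
quotients. -/
theorem isExponent_det (hdet : ρ.DetIsCyclotomic p) (hp : p.Prime) (I : Ideal A)
    [hI : Finite (A ⧸ I)] (σ : GalQ) :
    IsExponent σ (Ideal.Quotient.mk I (LinearMap.det (ρ.ρ σ))) := by
  obtain ⟨n, hn⟩ := exists_pow_le_of_finite A I hI
  have hpn : Ideal.Quotient.mk I ((p : A) ^ n) = 0 :=
    Ideal.Quotient.eq_zero_iff_mem.2 (hn (Ideal.pow_mem_pow hdet.1 n))
  obtain ⟨a, ha⟩ := exists_exponent hp n σ
  have hd := hdet.2 n σ a ha
  rw [Ideal.mem_span_singleton] at hd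
  obtain ⟨w, hw⟩ := hd
  intro χ t
  have h1 : Ideal.Quotient.mk I (LinearMap.det (ρ.ρ σ)) = a := by
    rw [← sub_eq_zero, ← map_natCast (Ideal.Quotient.mk I), ← map_sub, hw, map_mul]
    rw [Nat.cast_pow, hpn, zero_mul]
  have h2 : χ t ^ p ^ n = 1 := by
    rw [← AddChar.map_nsmul_eq_pow, nsmul_eq_mul, Nat.cast_pow, ← map_natCast (Ideal.Quotient.mk I),
      ← map_pow, hpn, zero_mul, AddChar.map_zero_eq_one]
  rw [ha _ h2, ← AddChar.map_nsmul_eq_pow, nsmul_eq_mul, h1]

/-- A finite quotient of `A` is killed by a power of `p`. -/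
theorem pow_nsmul_quotient (hdet : ρ.DetIsCyclotomic p) (I : Ideal A) [hI : Finite (A ⧸ I)] :
    ∃ k : ℕ, ∀ x : A ⧸ I, p ^ k • x = 0 := by
  obtain ⟨n, hn⟩ := exists_pow_le_of_finite A I hI
  refine ⟨n, fun x => ?_⟩
  rw [nsmul_eq_mul, Nat.cast_pow, ← map_natCast (Ideal.Quotient.mk I), ← map_pow,
    Ideal.Quotient.eq_zero_iff_mem.2 (hn (Ideal.pow_mem_pow hdet.1 n)), zero_mul]

/-- The frame cocycle vanishes modulo `I` on an open subgroup. -/
theorem exists_level (e : Module.Basis (Fin 2) A ρ.V) (I : Ideal A) [hI : Finite (A ⧸ I)] :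
    ∃ F : IntermediateField ℚ Qbar, FiniteDimensional ℚ F ∧ ∀ σ : GalQ, (∀ x ∈ F, σ x = x) →
      ∀ i j, Ideal.Quotient.mk I (entry ρ e σ i j) = if i = j then 1 else 0 := by
  obtain ⟨n, hn⟩ := exists_pow_le_of_finite A I hI
  obtain ⟨F, hF, hσ⟩ := ρ.isAdicContinuous n
  refine ⟨F, hF, fun σ hfix i j => ?_⟩
  have hmem := hσ σ hfix (e j)
  have : e.repr (ρ.ρ σ (e j) - e j) i ∈ I := by
    refine Submodule.smul_induction_on (p := fun x => e.repr x i ∈ I) hmem ?_ ?_
    · intro a ha v _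
      rw [map_smul, Finsupp.smul_apply, smul_eq_mul]
      exact I.mul_mem_right _ (hn ha)
    · intro x y hx hy
      rw [map_add, Finsupp.add_apply]
      exact add_mem hx hy
  rw [map_sub, Finsupp.sub_apply, e.repr_self, Finsupp.single_apply,
    ← Ideal.Quotient.eq_zero_iff_mem, map_sub, sub_eq_zero] at this
  show Ideal.Quotient.mk I (e.repr (ρ.ρ σ (e j)) i) = _
  rw [this]
  split_ifs with h1 h2 h3
  · exact map_one _
  · exact absurd h1.symm h2
  · exact absurd h3.symm h1
  · exact map_zero _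

end Exponent

end Fermat.Agent.OrdKummer
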