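import Fermat.Agent.OrdKummer.Kummer
import Fermat.Agent.FlatModels.Functions
import Fermat.Agent.LocalInertia.CyclicTame

/-!
# Locally multiplicative finite Galois modules

A finite Galois module with a subgroup `L`, stable under decomposition, on whose characters
inertia acts as on roots of unity and with unit Kummer classes for the quotient.  We define the
lattice of functions spanned by characters supported on cosets of `L`.
-/

set_option autoImplicit false

noncomputable section

open scoped Pointwise
open Fermat.Agent.GaloisBasics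

namespace Fermat.Agent.OrdKummer

variable {M : Type*} [AddCommGroup M] {p : ℕ}

/-- A finite Galois module with a unit Kummer multiplicative filtration at `P`. -/
structure IsLocallyMultiplicative (act : GalQ → M → M) (P : ValuationSubring Qbar)
    (L : AddSubgroup M) : Prop where
  act_add : ∀ σ x y, act σ (x + y) = act σ x + act σ y
  act_one : ∀ x, act 1 x = x
  act_mul : ∀ σ τ x, act (σ * τ) x = act σ (act τ x)
  level : ∃ F : IntermediateField ℚ Qbar, FiniteDimensional ℚ F ∧
    ∀ σ : GalQ, (∀ x ∈ F, σ x = x) → ∀ m, act σ m = m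
  stable : ∀ σ ∈ P.decompositionSubgroup ℚ, ∀ t ∈ L, act σ t ∈ L
  inertia_sub : ∀ σ ∈ P.inertiaSubgroupIn ℚ, ∀ m, act σ m - m ∈ L
  character : ∀ σ ∈ P.inertiaSubgroupIn ℚ, ∀ (ψ : AddChar L Qbar) (t t' : L),
    (t' : M) = act σ t → σ (ψ t) = ψ t'
  unit : ∀ (c : M) (ψ : AddChar L Qbar), ∃ y : Qbar, P.valuation y = 1 ∧
    ∀ σ ∈ P.inertiaSubgroupIn ℚ, ∀ t : L, (t : M) = act σ c - c → σ y = ψ t * y

open Classical in
/-- A character of `L` placed on the coset of `c`. -/
def cosetChar (L : AddSubgroup M) (c : M) (ψ : AddChar L Qbar) : M → Qbar :=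
  fun m => if h : m - c ∈ L then ψ ⟨m - c, h⟩ else 0

/-- The lattice spanned by characters on cosets. -/
def localLattice (P : ValuationSubring Qbar) (L : AddSubgroup M) : Submodule P (M → Qbar) :=
  Submodule.span P (Set.range fun x : M × AddChar L Qbar => cosetChar L x.1 x.2)

/-- The translate of a function. -/
def translate (act : GalQ → M → M) (g : GalQ) (f : M → Qbar) : M → Qbar :=
  fun m => g (f (act g⁻¹ m))

variable {act : GalQ → M → M} {P : ValuationSubring Qbar} {L : AddSubgroup M}

/-- The value of `cosetChar` on the coset. -/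
theorem cosetChar_of_mem {c m : M} (ψ : AddChar L Qbar) (h : m - c ∈ L) :
    cosetChar L c ψ m = ψ ⟨m - c, h⟩ := dif_pos h

/-- `cosetChar` vanishes off the coset. -/
theorem cosetChar_of_not_mem {c m : M} (ψ : AddChar L Qbar) (h : m - c ∉ L) :
    cosetChar L c ψ m = 0 := dif_neg h

/-- The functions `cosetChar` lie in the lattice. -/
theorem cosetChar_mem_localLattice (c : M) (ψ : AddChar L Qbar) :
    cosetChar L c ψ ∈ localLattice P L := Submodule.subset_span ⟨(c, ψ), rfl⟩

section Finite

variable [Finite M]

theorem finite_addChar (L : AddSubgroup M) : Finite (AddChar L Qbar) := by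
  classical
  have : NeZero (Monoid.exponent (Multiplicative L)) :=
    ⟨Monoid.exponent_ne_zero_of_finite⟩
  have : Finite (Multiplicative L →* Qbarˣ) :=
    Nat.finite_of_card_ne_zero (by
      rw [CommGroup.card_monoidHom_of_hasEnoughRootsOfUnity]
      exact Nat.card_pos.ne')
  refine Finite.of_injective (fun ψ : AddChar L Qbar => ψ.toMonoidHom.toHomUnits) fun a b h => ?_
  ext t
  exact congrArg Units.val (DFunLike.congr_fun h (Multiplicative.ofAdd t))

/-- The lattice is finitely generated. -/
theorem fg_localLattice : (localLattice P L).FG := by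
  have := finite_addChar L
  exact Submodule.fg_span (Set.finite_range _)

theorem valuation_cosetChar_le (c : M) (ψ : AddChar L Qbar) (m : M) :
    P.valuation (cosetChar L c ψ m) ≤ 1 := by
  by_cases h : m - c ∈ L
  · rw [cosetChar_of_mem ψ h, valuation_addChar]
  · rw [cosetChar_of_not_mem ψ h, map_zero]
    exact zero_le

/-- Functions in the lattice have integral values. -/
theorem apply_mem_of_mem_localLattice {f : M → Qbar} (hf : f ∈ localLattice P L) (m : M) :
    f m ∈ P := by
  induction hf using Submodule.span_induction with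
  | mem x hx =>
    obtain ⟨⟨c, ψ⟩, rfl⟩ := hx
    exact (P.valuation_le_one_iff _).1 (valuation_cosetChar_le c ψ m)
  | zero => exact zero_mem P
  | add x y _ _ hx hy => exact add_mem hx hy
  | smul a x _ hx => exact mul_mem a.2 hx

/-- The number of characters. -/
def charCount (L : AddSubgroup M) : ℕ := Nat.card (AddChar L Qbar)

/-- There is at least one character. -/
theorem charCount_ne_zero (L : AddSubgroup M) : charCount L ≠ 0 := by
  have := finite_addChar L
  exact Nat.card_pos.ne'

open Classical in
/-- Orthogonality: multiples of point masses lie in the lattice. -/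
theorem single_mem_localLattice (m : M) :
    (Pi.single m (charCount L : Qbar) : M → Qbar) ∈ localLattice P L := by
  have := finite_addChar L
  have := Fintype.ofFinite (AddChar L Qbar)
  suffices h : (Pi.single m (charCount L : Qbar) : M → Qbar) = ∑ ψ, cosetChar L m ψ by
    rw [h]
    exact sum_mem fun ψ _ => cosetChar_mem_localLattice m ψ
  funext z
  rw [Finset.sum_apply]
  rcases eq_or_ne z m with rfl | hz
  · have h0 : z - z ∈ L := by rw [sub_self]; exact zero_mem L
    have : ∀ ψ : AddChar L Qbar, cosetChar L z ψ z = 1 := fun ψ => by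
      rw [cosetChar_of_mem ψ h0, show (⟨z - z, h0⟩ : L) = 0 from Subtype.ext (sub_self z),
        AddChar.map_zero_eq_one]
    simp [this, charCount, Nat.card_eq_fintype_card]
  rw [Pi.single_eq_of_ne hz]
  by_cases h : z - m ∈ L
  · obtain ⟨χ, hχ⟩ := exists_addChar_ne_one (M := L) (t := ⟨z - m, h⟩)
      (fun h' => hz (sub_eq_zero.1 congr(($h' : M))))
    refine (mul_right_eq_self₀.1 ?_).resolve_left hχ |>.symm
    conv_rhs => rw [← Equiv.sum_comp (Equiv.mulRight χ)]
    rw [Finset.sum_mul]
    refine Finset.sum_congr rfl fun ψ _ => ?_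
    rw [cosetChar_of_mem _ h, cosetChar_of_mem _ h]
    rfl
  · simp [cosetChar_of_not_mem _ h]

/-- Small functions lie in the maximal multiple of the lattice. -/
theorem mem_smul_of_valuation_le {I : Ideal P} {π : P} (hπ : π ∈ I) (hπ0 : π ≠ 0) {h : M → Qbar}
    (hh : ∀ m, P.valuation (h m) ≤ P.valuation ((π : Qbar) * charCount L)) :
    h ∈ I • localLattice P L := by
  classical
  have := Fintype.ofFinite M
  have hπ' : (π : Qbar) * charCount L ≠ 0 :=
    mul_ne_zero (by exact_mod_cast hπ0) (Nat.cast_ne_zero.2 (charCount_ne_zero L))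
  have hq : ∀ m, h m / ((π : Qbar) * charCount L) ∈ P := fun m => by
    rw [← P.valuation_le_one_iff, map_div₀,
      div_le_one₀ (zero_lt_iff.2 ((map_ne_zero _).2 hπ'))]
    exact hh m
  have : h = ∑ m, π • ((⟨_, hq m⟩ : P) • (Pi.single m (charCount L : Qbar) : M → Qbar)) := by
    funext z
    rw [Finset.sum_apply, Finset.sum_eq_single z]
    · show h z = (π : Qbar) * (h z / ((π : Qbar) * charCount L) *
        (Pi.single z (charCount L : Qbar) : M → Qbar) z)
      rw [Pi.single_eq_same, mul_comm (_ / _), ← mul_assoc, mul_div_cancel₀ _ hπ']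
    · intro m _ hm
      show (π : Qbar) * (_ * (Pi.single m (charCount L : Qbar) : M → Qbar) z) = 0
      rw [Pi.single_eq_of_ne (Ne.symm hm), mul_zero, mul_zero]
    · exact fun h => absurd (Finset.mem_univ z) h
  rw [this]
  exact sum_mem fun m _ =>
    Submodule.smul_mem_smul hπ (Submodule.smul_mem _ _ (single_mem_localLattice m))

end Finite

namespace IsLocallyMultiplicative

variable (hM : IsLocallyMultiplicative act P L)
include hM

theorem act_zero (σ : GalQ) : act σ 0 = 0 := by
  have h := hM.act_add σ 0 0
  simpa using h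

theorem act_sub (σ : GalQ) (x y : M) : act σ (x - y) = act σ x - act σ y := by
  rw [eq_sub_iff_add_eq, ← hM.act_add, sub_add_cancel]

/-- `act σ⁻¹` inverts `act σ`. -/
theorem act_inv_act (σ : GalQ) (x : M) : act σ⁻¹ (act σ x) = x := by
  rw [← hM.act_mul, inv_mul_cancel, hM.act_one]

theorem act_act_inv (σ : GalQ) (x : M) : act σ (act σ⁻¹ x) = x := by
  rw [← hM.act_mul, mul_inv_cancel, hM.act_one]

/-- `act σ` is surjective. -/
theorem act_surjective (σ : GalQ) : Function.Surjective (act σ) :=
  fun x => ⟨_, hM.act_act_inv σ x⟩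

/-- Translates compose. -/
theorem translate_translate (g h : GalQ) (f : M → Qbar) :
    translate act g (translate act h f) = translate act (g * h) f := by
  funext m
  simp only [translate, mul_inv_rev, hM.act_mul, AlgEquiv.mul_apply]

/-- Decomposition preserves the lattice. -/
theorem translate_mem {d : GalQ} (hd : d ∈ P.decompositionSubgroup ℚ) {f : M → Qbar}
    (hf : f ∈ localLattice P L) : translate act d f ∈ localLattice P L := by
  have hd' := inv_mem hd
  induction hf using Submodule.span_induction with
  | mem x hx =>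
    obtain ⟨⟨c, ψ⟩, rfl⟩ := hx
    let ψ' : AddChar L Qbar :=
      { toFun := fun t => d (ψ ⟨act d⁻¹ t, hM.stable _ hd' t t.2⟩)
        map_zero_eq_one' := by
          rw [show (⟨act d⁻¹ ((0 : L) : M), hM.stable _ hd' (0 : L) (0 : L).2⟩ : L) = 0 from
            Subtype.ext (hM.act_zero _), AddChar.map_zero_eq_one, map_one]
        map_add_eq_mul' := fun s t => by
          rw [← map_mul, ← AddChar.map_add_eq_mul]
          exact congrArg (fun u => d (ψ u)) (Subtype.ext (hM.act_add _ _ _)) }
    suffices translate act d (cosetChar L c ψ) = cosetChar L (act d c) ψ' by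
      rw [this]
      exact cosetChar_mem_localLattice _ _
    funext m
    have key : act d⁻¹ (m - act d c) = act d⁻¹ m - c := by
      rw [hM.act_sub, hM.act_inv_act]
    by_cases h : m - act d c ∈ L
    · have h' : act d⁻¹ m - c ∈ L := key ▸ hM.stable _ hd' _ h
      rw [translate, cosetChar_of_mem _ h', cosetChar_of_mem _ h]
      exact congrArg (fun u => d (ψ u)) (Subtype.ext key.symm)
    · have h' : act d⁻¹ m - c ∉ L := fun h' => h (by
        have := hM.stable _ hd _ h'
        rwa [hM.act_sub, hM.act_act_inv] at this)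
      rw [translate, cosetChar_of_not_mem _ h', cosetChar_of_not_mem _ h, map_zero]
  | zero =>
    rw [show translate act d (0 : M → Qbar) = 0 from funext fun m => map_zero d]
    exact zero_mem _
  | add x y _ _ hx hy =>
    rw [show translate act d (x + y) = translate act d x + translate act d y from
      funext fun m => map_add d _ _]
    exact add_mem hx hy
  | smul a x _ hx =>
    rw [show translate act d (a • x) =
      (⟨d a, (apply_mem_iff hd _).2 a.2⟩ : P) • translate act d x from
      funext fun m => map_mul d _ _]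
    exact Submodule.smul_mem _ _ hx

/-- Each coset character has a unit multiple fixed by inertia. -/
theorem exists_fixed_multiple (c : M) (ψ : AddChar L Qbar) :
    ∃ u : Pˣ, ∀ σ ∈ P.inertiaSubgroupIn ℚ,
      translate act σ ((u : P) • cosetChar L c ψ) = (u : P) • cosetChar L c ψ := by
  obtain ⟨y, hy, hyσ⟩ := hM.unit c ψ
  have hu : IsUnit (⟨y, (P.valuation_le_one_iff y).1 hy.le⟩ : P) :=
    (P.valuation_eq_one_iff _).2 hy
  refine ⟨hu.unit, fun σ hσ => ?_⟩
  rw [IsUnit.unit_spec]
  have key : ∀ m, (y * cosetChar L c ψ (act σ m)) = σ (y * cosetChar L c ψ m) := by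
    intro m
    have hc : act σ c - c ∈ L := hM.inertia_sub σ hσ c
    have e : act σ m - c = act σ (m - c) + (act σ c - c) := by
      rw [hM.act_sub]; abel
    by_cases h : m - c ∈ L
    · have hD := inertiaSubgroupIn_le_decompositionSubgroup (A := P) hσ
      have h1 : act σ (m - c) ∈ L := hM.stable σ hD _ h
      have h2 : act σ m - c ∈ L := e ▸ add_mem h1 hc
      rw [cosetChar_of_mem _ h, cosetChar_of_mem _ h2, map_mul, hyσ σ hσ ⟨_, hc⟩ rfl,
        hM.character σ hσ ψ ⟨_, h⟩ ⟨_, h1⟩ rfl,
        show (⟨act σ m - c, h2⟩ : L) = ⟨_, h1⟩ + ⟨_, hc⟩ from Subtype.ext e,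
        AddChar.map_add_eq_mul]
      ring
    · have h2 : act σ m - c ∉ L := fun h2 => h (by
        have := sub_mem h2 (hM.inertia_sub σ hσ m)
        rwa [show act σ m - c - (act σ m - m) = m - c by abel] at this)
      rw [cosetChar_of_not_mem _ h, cosetChar_of_not_mem _ h2, mul_zero, map_zero]
  funext m
  have := key (act σ⁻¹ m)
  rw [hM.act_act_inv] at this
  exact this.symm

end IsLocallyMultiplicative

end Fermat.Agent.OrdKummer
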