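import Fermat.Agent.OrdKummer.Kummer
import Fermat.Agent.FlatBound.InertiaField

/-!
# The Kummer valuation

Fix a compatible system `ζ` of `p`-power roots of unity.  A function `b` on inertia with values
in a finite `p`-group `M`, twisted by the cyclotomic character, has a valuation `κ : M`,
characterised by `χ κ = ζ k ^ e` when `χ ∘ b` is the Kummer function of `y` and
`v y ^ p ^ k = v p ^ e`.  It vanishes exactly when the class comes from units.
-/

set_option autoImplicit false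

noncomputable section

open scoped Pointwise
open Fermat.Agent.GaloisBasics

namespace Fermat.Agent.OrdKummer

variable {P : ValuationSubring Qbar} {p : ℕ}

/-- A compatible system of primitive `p`-power roots of unity. -/
structure IsRootSystem (p : ℕ) (ζ : ℕ → Qbar) : Prop where
  primitive : ∀ k, IsPrimitiveRoot (ζ k) (p ^ k)
  compatible : ∀ k, ζ (k + 1) ^ p = ζ k

/-- Compatible systems of `p`-power roots of unity exist. -/
theorem exists_isRootSystem (hp : p.Prime) : ∃ ζ : ℕ → Qbar, IsRootSystem p ζ := by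
  have : NeZero p := ⟨hp.ne_zero⟩
  obtain ⟨z, hz⟩ := HasEnoughRootsOfUnity.exists_primitiveRoot Qbar p
  have hroot : ∀ x : Qbar, ∃ y, y ^ p = x := fun x => IsAlgClosed.exists_pow_nat_eq x hp.pos
  choose r hr using hroot
  let f : ℕ → Qbar := fun k => Nat.rec z (fun _ x => r x) k
  have hf : ∀ k, IsPrimitiveRoot (f k) (p ^ (k + 1)) := by
    intro k
    induction k with
    | zero => rw [zero_add, pow_one]; exact hz
    | succ k ih =>
      have he : f (k + 1) ^ p = f k := hr _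
      have : Fact p.Prime := ⟨hp⟩
      refine IsPrimitiveRoot.iff_orderOf.2 (orderOf_eq_prime_pow ?_ ?_)
      · rw [pow_succ', pow_mul, he]
        exact ih.pow_ne_one_of_pos_of_lt (pow_ne_zero _ hp.ne_zero)
          (Nat.pow_lt_pow_right hp.one_lt (by omega))
      · rw [pow_succ', pow_mul, he]
        exact ih.pow_eq_one
  refine ⟨fun k => Nat.rec (1 : Qbar) (fun j _ => f j) k, ?_, ?_⟩
  · rintro (_ | k)
    · rw [pow_zero]; exact IsPrimitiveRoot.one
    · exact hf k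
  · rintro (_ | k)
    · exact hz.pow_eq_one
    · exact hr _

namespace IsRootSystem

variable {ζ : ℕ → Qbar} (hζ : IsRootSystem p ζ)
include hζ

theorem zpow_eq (k j : ℕ) (e : ℤ) : ζ (k + j) ^ (e * (p : ℤ) ^ j) = ζ k ^ e := by
  induction j with
  | zero => rw [pow_zero, mul_one, Nat.add_zero]
  | succ j ih =>
    rw [← ih, pow_succ, ← mul_assoc, mul_comm _ (p : ℤ), zpow_mul, zpow_natCast, ← Nat.add_assoc,
      hζ.compatible]

/-- The roots of unity of a system are nonzero. -/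
theorem ne_zero (hp : p.Prime) (k : ℕ) : ζ k ≠ 0 :=
  (hζ.primitive k).ne_zero (pow_ne_zero k hp.ne_zero)

end IsRootSystem

variable {M N : Type*} [AddCommGroup M] [AddCommGroup N]

/-- `κ` is the Kummer valuation of `b`. -/
def IsKummerVal (p : ℕ) (ζ : ℕ → Qbar) (P : ValuationSubring Qbar) (b : GalQ → M) (κ : M) : Prop :=
  ∀ χ : AddChar M Qbar, ∃ (y : Qbar) (k : ℕ) (e : ℤ), y ≠ 0 ∧
    (∀ σ ∈ P.inertiaSubgroupIn ℚ, σ y = χ (b σ) * y) ∧
    P.valuation y ^ p ^ k = P.valuation (p : Qbar) ^ e ∧ χ κ = ζ k ^ e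

variable {ζ : ℕ → Qbar}

theorem root_eq_of_data (hζ : IsRootSystem p ζ) (hP : P.LiesOverPrime p) (hp : p.Prime)
    {f : GalQ → Qbar} {y y' : Qbar} {k k' : ℕ} {e e' : ℤ}
    (hy0 : y ≠ 0) (hy : ∀ σ ∈ P.inertiaSubgroupIn ℚ, σ y = f σ * y)
    (hv : P.valuation y ^ p ^ k = P.valuation (p : Qbar) ^ e)
    (hy0' : y' ≠ 0) (hy' : ∀ σ ∈ P.inertiaSubgroupIn ℚ, σ y' = f σ * y')
    (hv' : P.valuation y' ^ p ^ k' = P.valuation (p : Qbar) ^ e') :
    ζ k ^ e = ζ k' ^ e' := by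
  obtain ⟨j, hj⟩ := FlatBound.exists_zpow_of_inertia_fixed hP hp (div_ne_zero hy0 hy0')
    (fun σ hσ => by
      have hf : f σ ≠ 0 := fun h0 => by
        have := hy σ hσ
        rw [h0, zero_mul, map_eq_zero] at this
        exact hy0 this
      rw [map_div₀, hy σ hσ, hy' σ hσ, mul_div_mul_left _ _ hf])
  have hp0 : 0 < P.valuation (p : Qbar) :=
    zero_lt_iff.2 ((map_ne_zero _).2 (Nat.cast_ne_zero.2 hp.ne_zero))
  have hp1 : P.valuation (p : Qbar) < 1 := P.mem_nonunits_iff.1 hP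
  have key : e * (p : ℤ) ^ k' = e' * (p : ℤ) ^ k + j * (p : ℤ) ^ (k + k') := by
    refine (zpow_right_strictAnti₀ hp0 hp1).injective ?_
    show P.valuation (p : Qbar) ^ _ = P.valuation (p : Qbar) ^ _
    have h1 : P.valuation y = P.valuation (p : Qbar) ^ j * P.valuation y' := by
      rw [← hj, map_div₀, div_mul_cancel₀ _ ((map_ne_zero _).2 hy0')]
    rw [zpow_add₀ hp0.ne', zpow_mul, zpow_mul, zpow_mul, ← hv, ← hv', h1, ← Nat.cast_pow,
      ← Nat.cast_pow, ← Nat.cast_pow, zpow_natCast, zpow_natCast, zpow_natCast, ← pow_mul,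
      ← pow_mul, mul_pow, pow_add, mul_comm (p ^ k') (p ^ k), mul_comm]
  rw [← hζ.zpow_eq k k' e, ← hζ.zpow_eq k' k e', key, zpow_add₀ (hζ.ne_zero hp _),
    Nat.add_comm k' k]
  have : ζ (k + k') ^ (j * (p : ℤ) ^ (k + k')) = 1 := by
    rw [mul_comm, zpow_mul, ← Nat.cast_pow, zpow_natCast, (hζ.primitive _).pow_eq_one, one_zpow]
  rw [this, mul_one]

theorem IsKummerVal.apply_eq {b : GalQ → M} {κ : M} (h : IsKummerVal p ζ P b κ)
    (hζ : IsRootSystem p ζ) (hP : P.LiesOverPrime p) (hp : p.Prime) (χ : AddChar M Qbar)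
    {y : Qbar} {k : ℕ} {e : ℤ} (hy0 : y ≠ 0)
    (hy : ∀ σ ∈ P.inertiaSubgroupIn ℚ, σ y = χ (b σ) * y)
    (hv : P.valuation y ^ p ^ k = P.valuation (p : Qbar) ^ e) : χ κ = ζ k ^ e := by
  obtain ⟨y', k', e', hy0', hy', hv', hκ⟩ := h χ
  rw [hκ]
  exact root_eq_of_data hζ hP hp hy0' hy' hv' hy0 hy hv

theorem eq_of_forall_addChar [Finite M] {x y : M} (h : ∀ χ : AddChar M Qbar, χ x = χ y) :
    x = y := by
  by_contra hne
  obtain ⟨χ, hχ⟩ := exists_addChar_ne_one (sub_ne_zero.2 hne)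
  have h1 := χ.map_add_eq_mul (x - y) y
  rw [sub_add_cancel, h χ] at h1
  exact hχ (mul_right_cancel₀ (addChar_ne_zero χ y) (h1.symm.trans (one_mul _).symm))

/-- The Kummer valuation is unique. -/
theorem IsKummerVal.unique [Finite M] {b : GalQ → M} {κ κ' : M} (h : IsKummerVal p ζ P b κ)
    (h' : IsKummerVal p ζ P b κ') (hζ : IsRootSystem p ζ) (hP : P.LiesOverPrime p)
    (hp : p.Prime) : κ = κ' := eq_of_forall_addChar fun χ => by
  obtain ⟨y, k, e, hy0, hy, hv, hκ⟩ := h' χ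
  rw [hκ]
  exact h.apply_eq hζ hP hp χ hy0 hy hv

/-- The Kummer valuation commutes with homomorphisms. -/
theorem IsKummerVal.map {b : GalQ → M} {κ : M} (h : IsKummerVal p ζ P b κ) (f : M →+ N) :
    IsKummerVal p ζ P (fun σ => f (b σ)) (f κ) := fun χ => h (χ.compAddMonoidHom f)

/-- The Kummer valuation depends only on the values on inertia. -/
theorem IsKummerVal.congr {b b' : GalQ → M} {κ : M} (h : IsKummerVal p ζ P b κ)
    (hb : ∀ σ ∈ P.inertiaSubgroupIn ℚ, b σ = b' σ) : IsKummerVal p ζ P b' κ := fun χ => by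
  obtain ⟨y, k, e, hy0, hy, hv, hκ⟩ := h χ
  exact ⟨y, k, e, hy0, fun σ hσ => by rw [← hb σ hσ]; exact hy σ hσ, hv, hκ⟩

/-- The valuation vanishes on classes coming from units. -/
theorem UnitKummer.isKummerVal_zero {b : GalQ → M} (h : UnitKummer P b) :
    IsKummerVal p ζ P b 0 := fun χ => by
  obtain ⟨y, hy, hyσ⟩ := h χ
  refine ⟨y, 0, 0, fun h0 => ?_, hyσ, by rw [hy, one_pow, zpow_zero],
    by rw [AddChar.map_zero_eq_one, zpow_zero]⟩
  rw [h0, map_zero] at hy
  exact zero_ne_one hy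

/-- A class with valuation zero comes from units. -/
theorem IsKummerVal.unitKummer {b : GalQ → M} (h : IsKummerVal p ζ P b 0)
    (hζ : IsRootSystem p ζ) (hp : p.Prime) : UnitKummer P b := fun χ => by
  obtain ⟨y, k, e, hy0, hy, hv, hκ⟩ := h χ
  rw [AddChar.map_zero_eq_one, eq_comm, (hζ.primitive k).zpow_eq_one_iff_dvd] at hκ
  obtain ⟨d, rfl⟩ := hκ
  refine ⟨y / (p : Qbar) ^ d, ?_, fun σ hσ => ?_⟩
  · have hp0 : P.valuation (p : Qbar) ≠ 0 := (map_ne_zero _).2 (Nat.cast_ne_zero.2 hp.ne_zero)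
    refine (pow_eq_one_iff.1 ?_).resolve_right (pow_ne_zero k hp.ne_zero)
    rw [map_div₀, map_zpow₀, div_pow, hv, mul_comm, zpow_mul, zpow_natCast, div_self]
    exact pow_ne_zero _ (zpow_ne_zero _ hp0)
  · rw [map_div₀, map_zpow₀, map_natCast, hy σ hσ, mul_div_assoc]

/-- Existence of the valuation for a twisted cocycle with values in a finite `p`-group. -/
theorem exists_isKummerVal [Finite M] (hζ : IsRootSystem p ζ) (hP : P.LiesOverPrime p)
    (hp : p.Prime) {k : ℕ} (hk : ∀ x : M, p ^ k • x = 0) (b : GalQ → M) (a : GalQ → M → M)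
    (ha : ∀ σ ∈ P.inertiaSubgroupIn ℚ, ∀ (χ : AddChar M Qbar) (t : M), σ (χ t) = χ (a σ t))
    (hb : ∀ σ ∈ P.inertiaSubgroupIn ℚ, ∀ τ ∈ P.inertiaSubgroupIn ℚ,
      b (σ * τ) = b σ + a σ (b τ))
    (hlev : ∃ F : IntermediateField ℚ Qbar, FiniteDimensional ℚ F ∧
      ∀ σ : GalQ, (∀ x ∈ F, σ x = x) → b σ = 0) :
    ∃ κ : M, IsKummerVal p ζ P b κ := by
  classical
  have hroot : ∀ χ : AddChar M Qbar, ∃ y : Qbar, y ≠ 0 ∧
      ∀ σ ∈ P.inertiaSubgroupIn ℚ, σ y = χ (b σ) * y := fun χ => by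
    obtain ⟨F, hF, hFb⟩ := hlev
    exact exists_apply_eq_mul _ _ (fun σ _ => addChar_ne_zero χ _)
      (fun σ hσ τ hτ => by rw [hb σ hσ τ hτ, AddChar.map_add_eq_mul, ha σ hσ])
      ⟨F, hF, fun σ _ h => by rw [hFb σ h, AddChar.map_zero_eq_one]⟩
  choose y hy0 hy using hroot
  have hval : ∀ χ, ∃ e : ℤ, P.valuation (y χ) ^ p ^ k = P.valuation (p : Qbar) ^ e := fun χ => by
    obtain ⟨e, he⟩ := FlatBound.exists_zpow_of_inertia_fixed hP hp
      (pow_ne_zero (p ^ k) (hy0 χ)) (fun σ hσ => by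
        rw [map_pow, hy χ σ hσ, mul_pow, ← AddChar.map_nsmul_eq_pow, hk, AddChar.map_zero_eq_one,
          one_mul])
    exact ⟨e, by rw [← he, map_pow]⟩
  choose e he using hval
  have : NeZero (Monoid.exponent (Multiplicative M)) := ⟨Monoid.exponent_ne_zero_of_finite⟩
  let tochar : (Multiplicative M →* Qbarˣ) → AddChar M Qbar :=
    fun φ => AddChar.toMonoidHomEquiv.symm ((Units.coeHom Qbar).comp φ)
  have hζu : IsUnit (ζ k) := (hζ.primitive k).isUnit (pow_ne_zero k hp.ne_zero)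
  let η : (Multiplicative M →* Qbarˣ) →* Qbarˣ := MonoidHom.mk'
    (fun φ => hζu.unit ^ e (tochar φ)) fun φ φ' => by
      refine Units.ext ?_
      rw [Units.val_mul, Units.val_zpow_eq_zpow_val, Units.val_zpow_eq_zpow_val,
        Units.val_zpow_eq_zpow_val, IsUnit.unit_spec, ← zpow_add₀ (hζ.ne_zero hp k)]
      refine root_eq_of_data hζ hP hp (f := fun σ => tochar (φ * φ') (b σ))
        (hy0 _) (hy _) (he _) (mul_ne_zero (hy0 (tochar φ)) (hy0 (tochar φ'))) (fun σ hσ => ?_) ?_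
      · rw [map_mul, hy _ σ hσ, hy _ σ hσ]
        show _ = (φ (Multiplicative.ofAdd (b σ)) * φ' (Multiplicative.ofAdd (b σ)) : Qbarˣ).val * _
        rw [Units.val_mul]
        show (φ (Multiplicative.ofAdd (b σ)) : Qbar) * _ *
            ((φ' (Multiplicative.ofAdd (b σ)) : Qbar) * _) = _
        ring
      · rw [map_mul, mul_pow, he, he, zpow_add₀]
        exact (map_ne_zero _).2 (Nat.cast_ne_zero.2 hp.ne_zero)
  refine ⟨Multiplicative.toAdd (CommGroup.monoidHomMonoidHomEquiv (Multiplicative M) Qbar η),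
    fun χ => ?_⟩
  let φ : Multiplicative M →* Qbarˣ := χ.toMonoidHom.toHomUnits
  have hφ : tochar φ = χ := DFunLike.ext _ _ fun x => rfl
  refine ⟨y χ, k, e χ, hy0 χ, hy χ, he χ, ?_⟩
  have h := congrArg Units.val
    (CommGroup.apply_monoidHomMonoidHomEquiv (G := Multiplicative M) (M := Qbar) φ η)
  rw [show η φ = hζu.unit ^ e (tochar φ) from rfl, hφ, Units.val_zpow_eq_zpow_val,
    IsUnit.unit_spec] at h
  exact h

end Fermat.Agent.OrdKummer
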